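/-
DELTA / I1 (helper9), part 22: **Hilbert's Theorem 90 for a group acting on a field through a finite
quotient** (Poincaré series + Dedekind's independence of characters).

`ρ : G →* (Ω ≃+* Ω)`, `N ⊴ G` of finite index, `M ⊆ Ω` a multiplicative submonoid fixed pointwise by
`N` on which `G / N` acts faithfully, `t : G → Ω^×` a cocycle (`t (σ τ) = t σ · σ (t τ)`) trivial
on `N`.  Then `t σ = h / σ h` for some `h ≠ 0` (`dli_h90`).
-/
import Mathlib

set_option autoImplicit false
set_option linter.unusedSectionVars false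
set_option linter.unusedVariables false
set_option linter.style.haveILetI false

namespace Fermat.Agent.Delta

open QuotientGroup

theorem dli_h90 {G Ω : Type*} [Group G] [Field Ω] (ρ : G →* (Ω ≃+* Ω)) (N : Subgroup G)
    [N.Normal] [N.FiniteIndex] (M : Submonoid Ω)
    (hNM : ∀ ν ∈ N, ∀ a ∈ M, ρ ν a = a)
    (hfaith : ∀ σ : G, (∀ a ∈ M, ρ σ a = a) → σ ∈ N)
    (t : G → Ω) (ht0 : ∀ σ, t σ ≠ 0) (hcoc : ∀ σ τ, t (σ * τ) = t σ * ρ σ (t τ))
    (htN : ∀ ν ∈ N, t ν = 1) :
    ∃ h : Ω, h ≠ 0 ∧ ∀ σ, ρ σ h * t σ = h := by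
  classical
  haveI : Fintype (G ⧸ N) := Subgroup.fintypeQuotientOfFiniteIndex
  -- the characters
  let χ : (G ⧸ N) → (↥M →* Ω) := fun q =>
    { toFun := fun a => ρ (Quotient.out q) (a : Ω)
      map_one' := by simp
      map_mul' := fun a b => by simp }
  have hχinj : Function.Injective χ := by
    intro q q' hqq
    have h1 : ∀ a ∈ M, ρ ((Quotient.out q')⁻¹ * Quotient.out q) a = a := by
      intro a ha
      have h2 := DFunLike.congr_fun hqq ⟨a, ha⟩
      have h3 : ρ (Quotient.out q) a = ρ (Quotient.out q') a := h2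
      rw [map_mul, RingAut.mul_apply, h3, map_inv]
      exact (ρ (Quotient.out q')).symm_apply_apply a
    have h4 := hfaith _ h1
    have h5 : ((Quotient.out q' : G) : G ⧸ N) = ((Quotient.out q : G) : G ⧸ N) :=
      QuotientGroup.eq.2 h4
    rw [QuotientGroup.out_eq', QuotientGroup.out_eq'] at h5
    exact h5.symm
  have hli : LinearIndependent Ω (fun q : G ⧸ N => ((χ q : ↥M →* Ω) : ↥M → Ω)) :=
    (linearIndependent_monoidHom ↥M Ω).comp χ hχinj
  rw [Fintype.linearIndependent_iff] at hli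
  -- the function `g ↦ t g · g a`
  have hne : ∃ a : ↥M, ∑ q : G ⧸ N, t (Quotient.out q) * ρ (Quotient.out q) (a : Ω) ≠ 0 := by
    by_contra hall
    push Not at hall
    have h1 : ∑ q : G ⧸ N, t (Quotient.out q) • ((χ q : ↥M →* Ω) : ↥M → Ω) = 0 := by
      funext a
      rw [Finset.sum_apply]
      exact hall a
    have h2 := hli (fun q => t (Quotient.out q)) h1 (1 : G ⧸ N)
    exact ht0 _ h2
  obtain ⟨a, ha⟩ := hne
  -- `f g = t g · g a` is right `N`-invariant
  set f : G → Ω := fun g => t g * ρ g (a : Ω) with hf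
  have hfN : ∀ g : G, ∀ ν ∈ N, f (g * ν) = f g := by
    intro g ν hν
    simp only [hf]
    rw [hcoc, htN ν hν, map_one, mul_one, map_mul, RingAut.mul_apply, hNM ν hν _ a.2]
  have hfq : ∀ g g' : G, ((g : G) : G ⧸ N) = g' → f g = f g' := by
    intro g g' hgg
    have h1 : g⁻¹ * g' ∈ N := QuotientGroup.eq.1 hgg
    have h2 := hfN g _ h1
    rw [mul_inv_cancel_left] at h2
    exact h2.symm
  have hsum : ∀ σ : G, ∑ q : G ⧸ N, f (σ * Quotient.out q) = ∑ q : G ⧸ N, f (Quotient.out q) := by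
    intro σ
    have h1 : ∀ q : G ⧸ N, f (σ * Quotient.out q) = f (Quotient.out ((σ : G ⧸ N) * q)) := by
      intro q
      apply hfq
      rw [QuotientGroup.out_eq', QuotientGroup.mk_mul, QuotientGroup.out_eq']
    simp only [h1]
    exact Equiv.sum_comp (Equiv.mulLeft (σ : G ⧸ N)) (fun q => f (Quotient.out q))
  refine ⟨∑ q : G ⧸ N, f (Quotient.out q), ha, fun σ => ?_⟩
  rw [map_sum, Finset.sum_mul, ← hsum σ]
  refine Finset.sum_congr rfl fun q _ => ?_
  simp only [hf]
  rw [map_mul, hcoc, map_mul, RingAut.mul_apply]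
  ring

end Fermat.Agent.Delta
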