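/-
DELTA / I1 (helper9), part 23: **descent of Kummer functions to a finite level** (Hilbert 90).

A torsion point `x ∈ J₀(N)[m]` fixed by `H ≤ I_𝔓` (of finite index) is the Kummer class
`[div Z / m]` of a function `Z` of level `H`, i.e. `Z ∈ tbLevF 𝔓 N H`
(`dli_kummer_descent`).  Proof: `x = [div y / m]`, normalise the leading `q`-coefficient of `y` to
`1`; for `σ ∈ H`: `σ y = y · t_σ ^ m` with a unique `t_σ` of leading coefficient `1`; `t` is a
cocycle, trivial on a normal subgroup of finite index, so `t_σ = h / σ h` (`dli_h90`) and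
`y h^m` is `H`-invariant.
-/
import Fermat.Agent.Lib.Delta.Toric.H90
import Fermat.Agent.Lib.Alpha.Tate.Kummer
import Fermat.Agent.Lib.Alpha.Fin.Open
import Fermat.Agent.Lib.T2.AL.Level
import Fermat.Agent.Lib.T1.Desc.PowDesc

set_option autoImplicit false
set_option linter.unusedSectionVars false
set_option linter.unusedVariables false
set_option linter.style.haveILetI false
set_option synthInstance.maxHeartbeats 400000

open HahnSeries ModularCurve AlgebraicCurve Fermat.Agent.T1 Fermat.Agent.T2 Fermat.Agent.TW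
  Fermat.Agent.S05Lib Fermat.Agent.Alpha

noncomputable section

namespace Fermat.Agent.Delta

local notation "Qb" => AlgebraicClosure ℚ
local notation "GQ" => (AlgebraicClosure ℚ ≃ₐ[ℚ] AlgebraicClosure ℚ)

variable (N : ℕ) [NeZero N]

/-! ### Leading coefficients -/

/-- the leading `q`-coefficient of a modular function -/
def dliLc (f : ↥(modularFunctionFieldBar N)) : Qb := (f : LaurentSeries Qb).leadingCoeff

theorem dliLc_mul (f g : ↥(modularFunctionFieldBar N)) :
    dliLc N (f * g) = dliLc N f * dliLc N g :=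
  HahnSeries.leadingCoeff_mul _ _

theorem dliLc_one : dliLc N 1 = 1 := HahnSeries.leadingCoeff_one

theorem dliLc_pow (f : ↥(modularFunctionFieldBar N)) (n : ℕ) :
    dliLc N (f ^ n) = dliLc N f ^ n := by
  induction n with
  | zero => rw [pow_zero, pow_zero, dliLc_one]
  | succ n ih => rw [pow_succ, pow_succ, dliLc_mul, ih]

theorem dliLc_ne_zero {f : ↥(modularFunctionFieldBar N)} (hf : f ≠ 0) : dliLc N f ≠ 0 := by
  rw [dliLc, HahnSeries.leadingCoeff_ne_zero]
  exact fun h => hf (Subtype.ext h)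

theorem dliLc_algebraMap (c : Qb) :
    dliLc N (algebraMap Qb ↥(modularFunctionFieldBar N) c) = c := by
  show (algebraMap Qb (LaurentSeries Qb) c).leadingCoeff = c
  have h1 : algebraMap Qb (PowerSeries Qb) c = PowerSeries.C c := by simp
  have h2 : algebraMap Qb (LaurentSeries Qb) c = HahnSeries.single 0 c := by
    rw [HahnSeries.algebraMap_apply', h1, HahnSeries.ofPowerSeries_C]
    rfl
  rw [h2]
  exact HahnSeries.leadingCoeff_of_single

theorem dliLc_inv {f : ↥(modularFunctionFieldBar N)} (hf : f ≠ 0) :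
    dliLc N f⁻¹ = (dliLc N f)⁻¹ := by
  have h := dliLc_mul N f f⁻¹
  rw [mul_inv_cancel₀ hf, dliLc_one] at h
  exact eq_inv_of_mul_eq_one_right h.symm

/-- the coefficientwise Galois action commutes with the leading coefficient -/
theorem dliLc_arith (σ : GQ) (f : ↥(modularFunctionFieldBar N)) :
    dliLc N (arithmeticRingAut (modularFunctionFieldFull N) σ f) = σ (dliLc N f) := by
  show (coeffMap (σ : Qb →+* Qb) (f : LaurentSeries Qb)).leadingCoeff =
    σ (f : LaurentSeries Qb).leadingCoeff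
  rw [HahnSeries.leadingCoeff_eq, HahnSeries.leadingCoeff_eq, tdx_order_coeffMap, coeffMap_coeff]
  rfl

/-- `m`-th roots with the same leading coefficient are equal -/
theorem dli_eq_of_pow_eq {m : ℕ} (hm : m ≠ 0) {t t' : ↥(modularFunctionFieldBar N)}
    (ht' : t' ≠ 0) (hpow : t ^ m = t' ^ m) (hlc : dliLc N t = dliLc N t') : t = t' := by
  haveI : NeZero ((m : ℕ) : ℚ) := ⟨by exact_mod_cast hm⟩
  haveI : NeZero m := ⟨hm⟩
  obtain ⟨ζ, hζ⟩ := HasEnoughRootsOfUnity.exists_primitiveRoot Qb m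
  have hζ' : IsPrimitiveRoot (algebraMap Qb ↥(modularFunctionFieldBar N) ζ) m :=
    hζ.map_of_injective (algebraMap Qb ↥(modularFunctionFieldBar N)).injective
  have hu : (t / t') ^ m = 1 := by
    rw [div_pow, hpow, div_self (pow_ne_zero m ht')]
  obtain ⟨i, -, hi⟩ := hζ'.eq_pow_of_pow_eq_one hu
  have hlcu : dliLc N (t / t') = 1 := by
    rw [div_eq_mul_inv, dliLc_mul, dliLc_inv N ht', hlc, mul_inv_cancel₀ (dliLc_ne_zero N ht')]
  rw [← hi, ← map_pow, dliLc_algebraMap] at hlcu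
  rw [← map_pow, hlcu, map_one] at hi
  have := hi.symm
  rwa [div_eq_one_iff_eq ht'] at this

/-! ### Kummer classes -/

theorem dli_class_congr {m : ℕ} (hm : m ≠ 0) {y y' : (↥(modularFunctionFieldBar N))ˣ}
    (h : y = y')
    (hy : ∀ v : Place Qb ↥(modularFunctionFieldBar N),
      (m : ℤ) ∣ v.ord (y : ↥(modularFunctionFieldBar N)))
    (hy' : ∀ v : Place Qb ↥(modularFunctionFieldBar N),
      (m : ℤ) ∣ v.ord (y' : ↥(modularFunctionFieldBar N))) :
    alpfClass hm y hy = alpfClass hm y' hy' := by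
  subst h
  rfl

theorem dli_dvd_pow {m : ℕ} (t : (↥(modularFunctionFieldBar N))ˣ)
    (v : Place Qb ↥(modularFunctionFieldBar N)) :
    (m : ℤ) ∣ v.ord ((t ^ m : (↥(modularFunctionFieldBar N))ˣ) : ↥(modularFunctionFieldBar N)) := by
  rw [Units.val_pow_eq_pow_val, ← zpow_natCast, v.ord_zpow]
  exact dvd_mul_right _ _

theorem dli_dvd_mul {m : ℕ} {y y' : (↥(modularFunctionFieldBar N))ˣ}
    (hy : ∀ v : Place Qb ↥(modularFunctionFieldBar N),
      (m : ℤ) ∣ v.ord (y : ↥(modularFunctionFieldBar N)))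
    (hy' : ∀ v : Place Qb ↥(modularFunctionFieldBar N),
      (m : ℤ) ∣ v.ord (y' : ↥(modularFunctionFieldBar N)))
    (v : Place Qb ↥(modularFunctionFieldBar N)) :
    (m : ℤ) ∣ v.ord ((y * y' : (↥(modularFunctionFieldBar N))ˣ) : ↥(modularFunctionFieldBar N)) := by
  rw [Units.val_mul, v.ord_mul y.ne_zero y'.ne_zero]
  exact dvd_add (hy v) (hy' v)

theorem dli_dvd_inv {m : ℕ} {y : (↥(modularFunctionFieldBar N))ˣ}
    (hy : ∀ v : Place Qb ↥(modularFunctionFieldBar N),
      (m : ℤ) ∣ v.ord (y : ↥(modularFunctionFieldBar N)))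
    (v : Place Qb ↥(modularFunctionFieldBar N)) :
    (m : ℤ) ∣ v.ord ((y⁻¹ : (↥(modularFunctionFieldBar N))ˣ) : ↥(modularFunctionFieldBar N)) := by
  rw [Units.val_inv_eq_inv_val, v.ord_inv]
  exact (dvd_neg).mpr (hy v)

/-- multiplying by an `m`-th power does not change the Kummer class -/
theorem dli_class_mul_pow {m : ℕ} (hm : m ≠ 0) (y t : (↥(modularFunctionFieldBar N))ˣ)
    (hy : ∀ v : Place Qb ↥(modularFunctionFieldBar N),
      (m : ℤ) ∣ v.ord (y : ↥(modularFunctionFieldBar N))) :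
    alpfClass hm (y * t ^ m) (dli_dvd_mul N hy (dli_dvd_pow N t)) = alpfClass hm y hy := by
  rw [alpfClass_mul hm y (t ^ m) hy (dli_dvd_pow N t), alpfClass_pow hm t, add_zero]

/-- two functions with the same Kummer class differ by an `m`-th power -/
theorem dli_exists_pow_of_class_eq {m : ℕ} (hm : m ≠ 0) (y y' : (↥(modularFunctionFieldBar N))ˣ)
    (hy : ∀ v : Place Qb ↥(modularFunctionFieldBar N),
      (m : ℤ) ∣ v.ord (y : ↥(modularFunctionFieldBar N)))
    (hy' : ∀ v : Place Qb ↥(modularFunctionFieldBar N),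
      (m : ℤ) ∣ v.ord (y' : ↥(modularFunctionFieldBar N)))
    (h : alpfClass hm y' hy' = alpfClass hm y hy) :
    ∃ t : (↥(modularFunctionFieldBar N))ˣ, y' = y * t ^ m := by
  have hu := dli_dvd_mul N (dli_dvd_inv N hy) hy'
  have h1 : y * (y⁻¹ * y') = y' := by rw [mul_inv_cancel_left]
  have h2 := alpfClass_mul hm y (y⁻¹ * y') hy hu (dli_dvd_mul N hy hu)
  rw [dli_class_congr N hm h1 (dli_dvd_mul N hy hu) hy', h] at h2
  have h3 : alpfClass hm (y⁻¹ * y') hu = 0 := by
    have := h2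
    rwa [left_eq_add] at this
  obtain ⟨t, ht⟩ := (alpt_kummer_ker N m hm _ hu).mp h3
  exact ⟨t, by rw [← ht, mul_inv_cancel_left]⟩

/-! ### The descent -/

variable (𝔓 : FFPlace) (H : Subgroup 𝔓.I)

/-- the coefficientwise action of `H ≤ I_𝔓` on the function field -/
def dliRho : ↥H →* (↥(modularFunctionFieldBar N) ≃+* ↥(modularFunctionFieldBar N)) where
  toFun σ := arithmeticRingAut (modularFunctionFieldFull N) (((σ : ↥H) : 𝔓.I) : GQ)
  map_one' := by
    have h := map_one (arithmeticGalois (L := Qb) (modularFunctionFieldFull N))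
    have h2 := congrArg SemilinearAut.toRingAut h
    exact h2
  map_mul' σ τ := by
    have h := map_mul (arithmeticGalois (L := Qb) (modularFunctionFieldFull N))
      (((σ : ↥H) : 𝔓.I) : GQ) (((τ : ↥H) : 𝔓.I) : GQ)
    have h2 := congrArg SemilinearAut.toRingAut h
    exact h2

theorem dliRho_apply (σ : ↥H) (f : ↥(modularFunctionFieldBar N)) :
    dliRho N 𝔓 H σ f =
      arithmeticRingAut (modularFunctionFieldFull N) (((σ : ↥H) : 𝔓.I) : GQ) f := rfl

/-- `ℚ̄ / ℚ` is normal, for the `ℚ`-algebra structure found by instance search -/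
theorem dli_normal_qbar : Normal ℚ Qb := by
  have h : (DivisionRing.toRatAlgebra : Algebra ℚ Qb) = AlgebraicClosure.instAlgebra ℚ :=
    Subsingleton.elim _ _
  rw [h]
  let _ : Algebra ℚ Qb := AlgebraicClosure.instAlgebra ℚ
  exact IsAlgClosure.normal ℚ Qb

/-- the subgroup fixing a finite normal subextension pointwise is normal of finite index -/
theorem dli_fixing_normal_finiteIndex {F K : Type*} [Field F] [Field K] [Algebra F K] [Normal F K]
    (E : IntermediateField F K) [FiniteDimensional F E] [Normal F E] {G : Type*} [Group G]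
    (f : G →* (K ≃ₐ[F] K)) :
    ∃ N₀ : Subgroup G, N₀.Normal ∧ N₀.FiniteIndex ∧ ∀ ν : G, ν ∈ N₀ ↔ ∀ a ∈ E, f ν a = a := by
  let ψ : G →* (↥E ≃ₐ[F] ↥E) := (AlgEquiv.restrictNormalHom (F := F) (K₁ := K) ↥E).comp f
  haveI : Finite (↥E ≃ₐ[F] ↥E) := inferInstance
  haveI : Finite ψ.range := inferInstance
  refine ⟨ψ.ker, MonoidHom.normal_ker ψ, Subgroup.finiteIndex_ker ψ, fun ν => ?_⟩
  rw [MonoidHom.mem_ker]
  show AlgEquiv.restrictNormalHom (F := F) (K₁ := K) ↥E (f ν) = 1 ↔ _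
  rw [← MonoidHom.mem_ker, IntermediateField.restrictNormalHom_ker,
    IntermediateField.mem_fixingSubgroup_iff]

/-- every function is fixed by a normal subgroup of finite index of `H`, namely the subgroup
fixing a finite normal extension `L` of `ℚ` pointwise -/
theorem dli_exists_normal_fixing (y : ↥(modularFunctionFieldBar N)) :
    ∃ (N₀ : Subgroup ↥H) (L : IntermediateField ℚ Qb), N₀.Normal ∧ N₀.FiniteIndex ∧
      (∀ ν : ↥H, ν ∈ N₀ ↔ ∀ a ∈ L, (((ν : ↥H) : 𝔓.I) : GQ) a = a) ∧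
      ∀ ν ∈ N₀, dliRho N 𝔓 H ν y = y := by
  obtain ⟨L, hL, hfix⟩ := tdd_exists_finite_fixing N y
  haveI := hL
  haveI : Normal ℚ Qb := dli_normal_qbar
  haveI : FiniteDimensional ℚ ↥(IntermediateField.normalClosure ℚ ↥L Qb) :=
    normalClosure.is_finiteDimensional ℚ ↥L Qb
  haveI : Normal ℚ ↥(IntermediateField.normalClosure ℚ ↥L Qb) := normalClosure.normal ℚ ↥L Qb
  obtain ⟨N₀, hn, hf, hmem⟩ := dli_fixing_normal_finiteIndex
    (IntermediateField.normalClosure ℚ ↥L Qb) (𝔓.I.subtype.comp H.subtype)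
  refine ⟨N₀, IntermediateField.normalClosure ℚ ↥L Qb, hn, hf, hmem, fun ν hν => ?_⟩
  rw [dliRho_apply]
  apply hfix
  intro a ha
  exact (hmem ν).mp hν a (IntermediateField.le_normalClosure L ha)

/-- **Hilbert 90 descent of Kummer functions**: an `m`-torsion point of `J₀(N)` fixed by
`H ≤ I_𝔓` is the Kummer class of a function of level `H` -/
theorem dli_kummer_descent {m : ℕ} (hm : m ≠ 0) (x : JZero N) (hx : (m : ℤ) • x = 0)
    (hfix : ∀ σ ∈ H, ((σ : 𝔓.I) : GQ) • x = x) :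
    ∃ (Z : ↥(tbLevF 𝔓 N H)) (hZ0 : tbPhiF 𝔓 N H Z ≠ 0)
      (hZ : ∀ v : Place Qb ↥(modularFunctionFieldBar N), (m : ℤ) ∣ v.ord (tbPhiF 𝔓 N H Z)),
      alpfClass hm (Units.mk0 (tbPhiF 𝔓 N H Z) hZ0) hZ = x := by
  classical
  -- a Kummer function
  obtain ⟨y₀, hy₀, hcl₀⟩ := alpf_exists_class hm x hx
  -- normalise the leading coefficient
  obtain ⟨c₁, hc₁⟩ := IsAlgClosed.exists_pow_nat_eq
    (dliLc N (y₀ : ↥(modularFunctionFieldBar N)))⁻¹ (Nat.pos_of_ne_zero hm)
  have hlc₀ : dliLc N (y₀ : ↥(modularFunctionFieldBar N)) ≠ 0 := dliLc_ne_zero N y₀.ne_zero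
  have hc₁0 : c₁ ≠ 0 := by
    rintro rfl
    rw [zero_pow hm] at hc₁
    exact inv_ne_zero hlc₀ hc₁.symm
  set C₁ : (↥(modularFunctionFieldBar N))ˣ :=
    Units.mk0 (algebraMap Qb ↥(modularFunctionFieldBar N) c₁) ((map_ne_zero _).mpr hc₁0) with hC₁
  set y : (↥(modularFunctionFieldBar N))ˣ := y₀ * C₁ ^ m with hydef
  have hy : ∀ v : Place Qb ↥(modularFunctionFieldBar N),
      (m : ℤ) ∣ v.ord (y : ↥(modularFunctionFieldBar N)) := dli_dvd_mul N hy₀ (dli_dvd_pow N C₁)
  have hcl : alpfClass hm y hy = x := by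
    rw [← hcl₀]
    exact dli_class_mul_pow N hm y₀ C₁ hy₀
  have hlc : dliLc N (y : ↥(modularFunctionFieldBar N)) = 1 := by
    rw [hydef, Units.val_mul, Units.val_pow_eq_pow_val, dliLc_mul, dliLc_pow, hC₁, Units.val_mk0,
      dliLc_algebraMap, hc₁, mul_inv_cancel₀ hlc₀]
  -- the cocycle
  have hex : ∀ σ : ↥H, ∃ t : ↥(modularFunctionFieldBar N), t ≠ 0 ∧
      dliRho N 𝔓 H σ (y : ↥(modularFunctionFieldBar N)) = (y : ↥(modularFunctionFieldBar N)) * t ^ m ∧
      dliLc N t = 1 := by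
    intro σ
    have h1 : ((σ : 𝔓.I) : GQ) • alpfClass hm y hy = alpfClass hm y hy := by
      rw [hcl]
      exact hfix σ σ.2
    rw [galois_smul_pic0_def, alpfClass_smul hm] at h1
    obtain ⟨t₀, ht₀⟩ := dli_exists_pow_of_class_eq N hm y _ hy _ h1
    have ht₀' : dliRho N 𝔓 H σ (y : ↥(modularFunctionFieldBar N)) =
        (y : ↥(modularFunctionFieldBar N)) * (t₀ : ↥(modularFunctionFieldBar N)) ^ m := by
      have := congrArg (fun u : (↥(modularFunctionFieldBar N))ˣ =>
        (u : ↥(modularFunctionFieldBar N))) ht₀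
      simp only [Units.val_mul, Units.val_pow_eq_pow_val] at this
      exact this
    have hlct : dliLc N (t₀ : ↥(modularFunctionFieldBar N)) ^ m = 1 := by
      have := congrArg (dliLc N) ht₀'
      rw [dliRho_apply, dliLc_arith, hlc, map_one, dliLc_mul, hlc, one_mul, dliLc_pow] at this
      exact this.symm
    have hlct0 : dliLc N (t₀ : ↥(modularFunctionFieldBar N)) ≠ 0 := dliLc_ne_zero N t₀.ne_zero
    refine ⟨(t₀ : ↥(modularFunctionFieldBar N)) *
      algebraMap Qb ↥(modularFunctionFieldBar N) (dliLc N (t₀ : ↥(modularFunctionFieldBar N)))⁻¹,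
      mul_ne_zero t₀.ne_zero ((map_ne_zero _).mpr (inv_ne_zero hlct0)), ?_, ?_⟩
    · rw [mul_pow, ← map_pow, inv_pow, hlct, inv_one, map_one, mul_one]
      exact ht₀'
    · rw [dliLc_mul, dliLc_algebraMap, mul_inv_cancel₀ hlct0]
  choose t ht0 htpow htlc using hex
  have hy0 : (y : ↥(modularFunctionFieldBar N)) ≠ 0 := y.ne_zero
  have hcoc : ∀ σ τ : ↥H, t (σ * τ) = t σ * dliRho N 𝔓 H σ (t τ) := by
    intro σ τ
    apply dli_eq_of_pow_eq N hm (mul_ne_zero (ht0 σ) ((map_ne_zero _).mpr (ht0 τ)))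
    · apply mul_left_cancel₀ hy0
      rw [← htpow (σ * τ), map_mul, RingAut.mul_apply, htpow τ, map_mul, htpow σ, map_pow]
      ring
    · rw [htlc, dliLc_mul, htlc, dliRho_apply, dliLc_arith, htlc, map_one, one_mul]
  -- trivial on a normal subgroup of finite index
  obtain ⟨N₀, L, hN₀n, hN₀f, hN₀mem, hN₀y⟩ := dli_exists_normal_fixing N 𝔓 H
    (y : ↥(modularFunctionFieldBar N))
  haveI := hN₀n
  haveI := hN₀f
  have htN : ∀ ν ∈ N₀, t ν = 1 := by
    intro ν hν
    apply dli_eq_of_pow_eq N hm one_ne_zero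
    · apply mul_left_cancel₀ hy0
      rw [← htpow ν, hN₀y ν hν, one_pow, mul_one]
    · rw [htlc, dliLc_one]
  -- Hilbert 90
  obtain ⟨h, hh0, hh⟩ := dli_h90 (dliRho N 𝔓 H) N₀
    ((L.toSubfield.toSubmonoid).map
      ((algebraMap Qb ↥(modularFunctionFieldBar N) : Qb →+* ↥(modularFunctionFieldBar N)) :
        Qb →* ↥(modularFunctionFieldBar N)))
    (by
      rintro ν hν _ ⟨a, ha, rfl⟩
      show dliRho N 𝔓 H ν (algebraMap Qb ↥(modularFunctionFieldBar N) a) = _
      rw [dliRho_apply, arithmeticRingAut_algebraMap, (hN₀mem ν).mp hν a ha]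
      rfl)
    (by
      intro σ hσ
      rw [hN₀mem]
      intro a ha
      have h1 := hσ (algebraMap Qb ↥(modularFunctionFieldBar N) a) ⟨a, ha, rfl⟩
      rw [dliRho_apply, arithmeticRingAut_algebraMap] at h1
      exact (algebraMap Qb ↥(modularFunctionFieldBar N)).injective h1)
    t ht0 hcoc htN
  -- the invariant function
  set hU : (↥(modularFunctionFieldBar N))ˣ := Units.mk0 h hh0 with hhU
  have hy' : ∀ v : Place Qb ↥(modularFunctionFieldBar N),
      (m : ℤ) ∣ v.ord ((y * hU ^ m : (↥(modularFunctionFieldBar N))ˣ) :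
        ↥(modularFunctionFieldBar N)) := dli_dvd_mul N hy (dli_dvd_pow N hU)
  have hcl' : alpfClass hm (y * hU ^ m) hy' = x := by
    rw [← hcl]
    exact dli_class_mul_pow N hm y hU hy
  have hinv : ∀ σ : 𝔓.I, σ ∈ H →
      arithmeticRingAut (modularFunctionFieldFull N) ((σ : 𝔓.I) : GQ)
        ((y * hU ^ m : (↥(modularFunctionFieldBar N))ˣ) : ↥(modularFunctionFieldBar N)) =
        ((y * hU ^ m : (↥(modularFunctionFieldBar N))ˣ) : ↥(modularFunctionFieldBar N)) := by
    intro σ hσ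
    have h1 := htpow ⟨σ, hσ⟩
    have h2 := hh ⟨σ, hσ⟩
    rw [dliRho_apply] at h1 h2
    rw [Units.val_mul, Units.val_pow_eq_pow_val, hhU, Units.val_mk0, map_mul, map_pow]
    have h3 : arithmeticRingAut (modularFunctionFieldFull N) ((σ : 𝔓.I) : GQ)
        (y : ↥(modularFunctionFieldBar N)) = (y : ↥(modularFunctionFieldBar N)) * t ⟨σ, hσ⟩ ^ m := h1
    rw [h3, mul_assoc, ← mul_pow, mul_comm (t ⟨σ, hσ⟩)]
    have h4 : arithmeticRingAut (modularFunctionFieldFull N) ((σ : 𝔓.I) : GQ) h * t ⟨σ, hσ⟩ = h := h2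
    rw [h4]
  obtain ⟨Z, hZ⟩ := t2w_exists_tbPhiF_eq 𝔓 N H _ hinv
  have hZ0 : tbPhiF 𝔓 N H Z ≠ 0 := by
    rw [hZ]
    exact (y * hU ^ m).ne_zero
  have hZdvd : ∀ v : Place Qb ↥(modularFunctionFieldBar N),
      (m : ℤ) ∣ v.ord (tbPhiF 𝔓 N H Z) := by
    intro v
    rw [hZ]
    exact hy' v
  refine ⟨Z, hZ0, hZdvd, ?_⟩
  rw [← hcl']
  apply dli_class_congr N hm
  apply Units.ext
  rw [Units.val_mk0, hZ]

end Fermat.Agent.Delta
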