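/-
DELTA / local layer (helper9), part 1: **discrete Gauss places and the unit filtration**.

`B : DlBase K k` : a discrete valuation ring `A ⊆ K` with uniformiser `ϖ` and residue map `A → k`.
`g : DlPlace B F κ` (`F / K` a field extension, `κ / k` the residue extension): a discrete valuation
ring `O ⊆ F` with the same uniformiser `ϖ` and a residue map `res : O → κ` extending `A → k`
(in the application `F` is the function field of `X₀(N' p)` over the tame level `K₁ = L_{H₁}`, `O`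
the valuation ring of one of the two Gauss valuations `v_∞`, `v_0`, `κ` the function field of
`X₀(N')` over the residue field).

* `DlPlace.OneMod g n x` : `x ∈ 1 + ϖⁿ O`  (the unit filtration `Uⁿ`);
* `exists_eq_pi_mul` : `ker res = ϖ O`;
* closure of `OneMod` under products, inverses and quotients (`n ≥ 1`), monotonicity;
* `DlNormRaises`, `DlPthMod` : the two predicates of the norm contraction.
-/
import Mathlib

set_option autoImplicit false
set_option linter.unusedSectionVars false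
set_option linter.unusedVariables false
set_option linter.style.haveILetI false

namespace Fermat.Agent.Delta

/-- the base: a discrete valuation ring `A ⊆ K` with uniformiser `ϖ` and residue map onto `k` -/
structure DlBase (K k : Type*) [Field K] [Field k] where
  /-- the valuation ring -/
  A : ValuationSubring K
  /-- the residue map -/
  resA : ↥A →+* k
  resA_surj : Function.Surjective resA
  /-- the uniformiser -/
  ϖ : K
  hϖ : ϖ ≠ 0
  hϖA : ϖ ∈ A
  res_ϖ : resA ⟨ϖ, hϖA⟩ = 0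
  /-- `ker resA = ϖ A` -/
  unif : ∀ a : ↥A, resA a = 0 → ∃ a' : ↥A, (a : K) = ϖ * (a' : K)

/-- a discrete "Gauss" place of `F / K` over the base `B`: a discrete valuation ring `O ⊆ F` with
uniformiser `ϖ` and residue map onto the field `κ` -/
structure DlPlace {K k : Type*} [Field K] [Field k] (B : DlBase K k) (F κ : Type*) [Field F]
    [Algebra K F] [Field κ] [Algebra k κ] where
  /-- the valuation ring -/
  O : Subring F
  /-- the residue map -/
  res : ↥O →+* κ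
  algebraMap_mem : ∀ a : ↥B.A, algebraMap K F (a : K) ∈ O
  res_algebraMap : ∀ a : ↥B.A, res ⟨algebraMap K F (a : K), algebraMap_mem a⟩ =
    algebraMap k κ (B.resA a)
  /-- every non-zero function is `ϖ ^ n` times a unit -/
  normalize : ∀ f : F, f ≠ 0 → ∃ n : ℤ, ∃ h : algebraMap K F B.ϖ ^ n * f ∈ O,
    res ⟨algebraMap K F B.ϖ ^ n * f, h⟩ ≠ 0
  /-- elements with non-zero reduction are units -/
  hunit : ∀ (f : F) (hf : f ∈ O), res ⟨f, hf⟩ ≠ 0 → f⁻¹ ∈ O

namespace DlBase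

variable {K k : Type*} [Field K] [Field k] (B : DlBase K k)

/-- the uniformiser as an element of `A` -/
def ϖA : ↥B.A := ⟨B.ϖ, B.hϖA⟩

theorem resA_eq_zero_iff (a : ↥B.A) : B.resA a = 0 ↔ ¬ IsUnit a := by
  constructor
  · intro h hu
    obtain ⟨b, hb⟩ := hu.exists_right_inv
    have h1 := congrArg B.resA hb
    rw [map_mul, h, zero_mul, map_one] at h1
    exact zero_ne_one h1
  · intro h
    by_contra h0
    apply h
    obtain ⟨b, hb⟩ := B.resA_surj (B.resA a)⁻¹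
    have h1 : B.resA (a * b - 1) = 0 := by
      rw [map_sub, map_mul, hb, mul_inv_cancel₀ h0, map_one, sub_self]
    obtain ⟨c, hc⟩ := B.unif _ h1
    -- `a b = 1 + ϖ c` is a unit since `1 + ϖ c` has a unit reduction... use the local ring `A`
    have h2 : IsUnit (a * b) := by
      by_contra hnu
      have h3 : a * b ∈ IsLocalRing.maximalIdeal ↥B.A := hnu
      have h4 : B.ϖA ∈ IsLocalRing.maximalIdeal ↥B.A := by
        show ¬ IsUnit B.ϖA
        intro hu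
        obtain ⟨d, hd⟩ := hu.exists_right_inv
        have h5 := congrArg B.resA hd
        rw [map_mul, show B.resA B.ϖA = 0 from B.res_ϖ, zero_mul, map_one] at h5
        exact zero_ne_one h5
      have h5 : (1 : ↥B.A) ∈ IsLocalRing.maximalIdeal ↥B.A := by
        have h6 : (1 : ↥B.A) = a * b - B.ϖA * c := by
          apply Subtype.ext
          have := hc
          push_cast at this ⊢
          show (1 : K) = (a : K) * (b : K) - B.ϖ * (c : K)
          rw [← this]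
          ring
        rw [h6]
        exact Ideal.sub_mem _ h3 (Ideal.mul_mem_right _ _ h4)
      exact (Ideal.ne_top_iff_one _).mp (IsLocalRing.maximalIdeal.isMaximal _).ne_top h5
    exact isUnit_of_mul_isUnit_left h2

end DlBase

namespace DlPlace

variable {K k : Type*} [Field K] [Field k] {B : DlBase K k} {F κ : Type*} [Field F] [Algebra K F]
  [Field κ] [Algebra k κ] (g : DlPlace B F κ)

/-- the uniformiser in `F` -/
def pi (_g : DlPlace B F κ) : F := algebraMap K F B.ϖ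

theorem pi_ne_zero : g.pi ≠ 0 := by
  unfold pi
  intro h
  exact B.hϖ ((algebraMap K F).injective (h.trans (map_zero _).symm))

theorem pi_mem : g.pi ∈ g.O := g.algebraMap_mem B.ϖA

theorem res_pi : g.res ⟨g.pi, g.pi_mem⟩ = 0 := by
  have h := g.res_algebraMap B.ϖA
  rw [show B.resA B.ϖA = 0 from B.res_ϖ, map_zero] at h
  exact h

theorem pi_pow_mem (n : ℕ) : g.pi ^ n ∈ g.O := g.O.pow_mem g.pi_mem n

theorem res_congr {f f' : F} (hf : f ∈ g.O) (h : f = f') :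
    g.res ⟨f, hf⟩ = g.res ⟨f', h ▸ hf⟩ := by
  subst h; rfl

theorem res_mul' {f f' : F} (hf : f ∈ g.O) (hf' : f' ∈ g.O) :
    g.res ⟨f * f', g.O.mul_mem hf hf'⟩ = g.res ⟨f, hf⟩ * g.res ⟨f', hf'⟩ :=
  map_mul g.res ⟨f, hf⟩ ⟨f', hf'⟩

theorem res_add' {f f' : F} (hf : f ∈ g.O) (hf' : f' ∈ g.O) :
    g.res ⟨f + f', g.O.add_mem hf hf'⟩ = g.res ⟨f, hf⟩ + g.res ⟨f', hf'⟩ :=
  map_add g.res ⟨f, hf⟩ ⟨f', hf'⟩

theorem res_sub' {f f' : F} (hf : f ∈ g.O) (hf' : f' ∈ g.O) :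
    g.res ⟨f - f', g.O.sub_mem hf hf'⟩ = g.res ⟨f, hf⟩ - g.res ⟨f', hf'⟩ :=
  map_sub g.res ⟨f, hf⟩ ⟨f', hf'⟩

theorem res_pow' {f : F} (hf : f ∈ g.O) (n : ℕ) :
    g.res ⟨f ^ n, g.O.pow_mem hf n⟩ = g.res ⟨f, hf⟩ ^ n :=
  map_pow g.res ⟨f, hf⟩ n

theorem res_one' (h : (1 : F) ∈ g.O) : g.res ⟨1, h⟩ = 1 := map_one g.res

theorem res_zero' (h : (0 : F) ∈ g.O) : g.res ⟨0, h⟩ = 0 := map_zero g.res

/-- the reduction of `ϖ ^ n * b`, `n ≥ 1`, vanishes -/
theorem res_pi_pow_mul {n : ℕ} (hn : 1 ≤ n) {b : F} (hb : b ∈ g.O) :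
    g.res ⟨g.pi ^ n * b, g.O.mul_mem (g.pi_pow_mem n) hb⟩ = 0 := by
  rw [g.res_mul' (g.pi_pow_mem n) hb, g.res_pow' g.pi_mem, g.res_pi, zero_pow (by omega), zero_mul]

/-- the reduction of an inverse -/
theorem res_inv' {f : F} (hf : f ∈ g.O) (hfi : f⁻¹ ∈ g.O) (h0 : f ≠ 0) :
    g.res ⟨f⁻¹, hfi⟩ = (g.res ⟨f, hf⟩)⁻¹ := by
  have h1 : g.res ⟨f, hf⟩ * g.res ⟨f⁻¹, hfi⟩ = 1 := by
    rw [← g.res_mul' hf hfi, g.res_congr _ (mul_inv_cancel₀ h0)]
    exact g.res_one' _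
  exact eq_inv_of_mul_eq_one_right h1

/-- **`ker res = ϖ O`** -/
theorem exists_eq_pi_mul {f : F} (hf : f ∈ g.O) (h0 : g.res ⟨f, hf⟩ = 0) :
    ∃ f' ∈ g.O, f = g.pi * f' := by
  rcases eq_or_ne f 0 with rfl | hf0
  · exact ⟨0, g.O.zero_mem, by simp⟩
  obtain ⟨n, hn, hres⟩ := g.normalize f hf0
  have hpi := g.pi_ne_zero
  rcases le_or_gt 0 n with hn0 | hn0
  · exfalso
    obtain ⟨m, rfl⟩ := Int.eq_ofNat_of_zero_le hn0
    apply hres
    rw [g.res_congr hn (show algebraMap K F B.ϖ ^ (m : ℤ) * f = g.pi ^ m * f by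
      rw [zpow_natCast]; rfl), g.res_mul' (g.pi_pow_mem m) hf, h0, mul_zero]
  · obtain ⟨m, hm⟩ : ∃ m : ℕ, n = -((m : ℤ) + 1) := ⟨(-n - 1).toNat, by omega⟩
    subst hm
    refine ⟨g.pi ^ m * (algebraMap K F B.ϖ ^ (-((m : ℤ) + 1)) * f),
      g.O.mul_mem (g.pi_pow_mem m) hn, ?_⟩
    show f = g.pi * (g.pi ^ m * (g.pi ^ (-((m : ℤ) + 1)) * f))
    rw [← mul_assoc, ← mul_assoc, ← pow_succ', ← zpow_natCast, ← zpow_add₀ hpi]
    have : ((m + 1 : ℕ) : ℤ) + -((m : ℤ) + 1) = 0 := by push_cast; ring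
    rw [this, zpow_zero, one_mul]

/-- the unit filtration: `x ∈ 1 + ϖⁿ O` -/
def OneMod (n : ℕ) (x : F) : Prop := ∃ b ∈ g.O, x = 1 + g.pi ^ n * b

theorem oneMod_one (n : ℕ) : g.OneMod n 1 := ⟨0, g.O.zero_mem, by simp⟩

theorem OneMod.mem {n : ℕ} {x : F} (h : g.OneMod n x) : x ∈ g.O := by
  obtain ⟨b, hb, rfl⟩ := h
  exact g.O.add_mem g.O.one_mem (g.O.mul_mem (g.pi_pow_mem n) hb)

theorem OneMod.res_eq_one {n : ℕ} (hn : 1 ≤ n) {x : F} (h : g.OneMod n x) :
    g.res ⟨x, h.mem⟩ = 1 := by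
  obtain ⟨b, hb, rfl⟩ := h
  rw [g.res_add' g.O.one_mem (g.O.mul_mem (g.pi_pow_mem n) hb), g.res_pi_pow_mul hn hb, add_zero]
  exact g.res_one' _

theorem OneMod.ne_zero {n : ℕ} (hn : 1 ≤ n) {x : F} (h : g.OneMod n x) : x ≠ 0 := by
  intro h0
  have h1 := h.res_eq_one g hn
  rw [g.res_congr _ h0, g.res_zero'] at h1
  exact zero_ne_one h1

theorem OneMod.mono {m n : ℕ} (hmn : m ≤ n) {x : F} (h : g.OneMod n x) : g.OneMod m x := by
  obtain ⟨b, hb, rfl⟩ := h
  refine ⟨g.pi ^ (n - m) * b, g.O.mul_mem (g.pi_pow_mem _) hb, ?_⟩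
  rw [← mul_assoc, ← pow_add, Nat.add_sub_cancel' hmn]

theorem OneMod.mul {n : ℕ} {x y : F} (hx : g.OneMod n x) (hy : g.OneMod n y) :
    g.OneMod n (x * y) := by
  obtain ⟨b, hb, rfl⟩ := hx
  obtain ⟨c, hc, rfl⟩ := hy
  refine ⟨b + c + g.pi ^ n * b * c, g.O.add_mem (g.O.add_mem hb hc)
    (g.O.mul_mem (g.O.mul_mem (g.pi_pow_mem n) hb) hc), ?_⟩
  ring

theorem OneMod.inv_mem {n : ℕ} (hn : 1 ≤ n) {x : F} (hx : g.OneMod n x) : x⁻¹ ∈ g.O := by
  apply g.hunit x hx.mem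
  rw [hx.res_eq_one g hn]
  exact one_ne_zero

theorem OneMod.inv {n : ℕ} (hn : 1 ≤ n) {x : F} (hx : g.OneMod n x) : g.OneMod n x⁻¹ := by
  have hxi := hx.inv_mem g hn
  have hx0 := hx.ne_zero g hn
  obtain ⟨b, hb, hxb⟩ := hx
  refine ⟨-(b * x⁻¹), g.O.neg_mem (g.O.mul_mem hb hxi), ?_⟩
  have h1 : (1 + g.pi ^ n * b) * x⁻¹ = 1 := by rw [← hxb]; exact mul_inv_cancel₀ hx0
  have h2 : x⁻¹ = 1 - g.pi ^ n * b * x⁻¹ := by
    have : x⁻¹ + g.pi ^ n * b * x⁻¹ = 1 := by rw [← h1]; ring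
    rw [← this]; ring
  linear_combination h2

theorem OneMod.div {n : ℕ} (hn : 1 ≤ n) {x y : F} (hx : g.OneMod n x) (hy : g.OneMod n y) :
    g.OneMod n (x / y) := by
  rw [div_eq_mul_inv]
  exact hx.mul g (hy.inv g hn)

theorem OneMod.pow {n : ℕ} {x : F} (hx : g.OneMod n x) (m : ℕ) : g.OneMod n (x ^ m) := by
  induction m with
  | zero => rw [pow_zero]; exact g.oneMod_one n
  | succ m ih => rw [pow_succ]; exact ih.mul g hx

end DlPlace

/-- "the norm raises the level": for `z ≡ 1 mod ϖⁿ` at the place `g'` (`n ≥ 1`),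
`N_{F/E}(z) / z ≡ 1 mod ϖ^{n+1}` at the place `g` -/
def DlNormRaises {K k : Type*} [Field K] [Field k] {B : DlBase K k} {F κ κ' : Type*} [Field F]
    [Algebra K F] [Field κ] [Algebra k κ] [Field κ'] [Algebra k κ']
    (g : DlPlace B F κ) (g' : DlPlace B F κ') (E : IntermediateField K F) : Prop :=
  ∀ (n : ℕ) (z : F), 1 ≤ n → z ≠ 0 → g'.OneMod n z →
    g.OneMod (n + 1) (algebraMap ↥E F (Algebra.norm ↥E z) / z)

/-- the statement `P_W(n)`: `z ∈ K^× · F^{×p} · Uⁿ_W` -/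
def DlPthMod {K k : Type*} [Field K] [Field k] {B : DlBase K k} {F κ : Type*} [Field F]
    [Algebra K F] [Field κ] [Algebra k κ] (g : DlPlace B F κ) (p n : ℕ) (z : F) : Prop :=
  ∃ c : K, c ≠ 0 ∧ ∃ w : F, w ≠ 0 ∧ g.OneMod n (z / (algebraMap K F c * w ^ p))

end Fermat.Agent.Delta
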