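/-
DELTA / I1 (helper9), part 12: **the two Gauss places of `F = F_{qN',L}` at a DVR level**.

Generic setting of `Lib/T2/Inst/{KronH,ChartH}.lean`: `(L, O, π, k)` with `O` a discrete valuation
ring, `k` algebraically closed of characteristic `q`, `N'` invertible in `k`, `F = TaF L (N' * q)`,
`W : T2iAL L N' q` (Atkin–Lehner), `Fr : T2iFrob k N' q`, `ϖ` a uniformiser of `O`,
`E = modularFunctionFieldFullC k N'`.

* `dliBase O π hπ hϖ : DlBase L k`;
* `dliInf … : DlPlace (dliBase …) F E` — the Gauss place `v_∞` (`O = taOv O π hπ (N' * q)`, the residue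
  map is `taResN`, which takes its values in `E`: `dli_taResN_mem`);
* `dliZero … : DlPlace (dliBase …) F E` — the Gauss place `v_0 = v_∞ ∘ w` (`O = t4rtO10 O π hπ W`);
* the dictionary with `d = t2iBase2 O π hπ hN' W Fr`: `dli_mem_Ov_iff`, `dli_res_eq`;
* both valuation rings are discrete valuation rings with uniformiser `ϖ`
  (`dli_dvr_inf`, `dli_dvr_zero`, `dli_unif_inf`, `dli_unif_zero`).
-/
import Fermat.Agent.Lib.Delta.Toric.Place
import Fermat.Agent.Lib.T2.Inst.ChartH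
import Fermat.Agent.Lib.T4.Inst.ValSub

set_option autoImplicit false
set_option linter.unusedSectionVars false
set_option linter.unusedVariables false
set_option linter.style.haveILetI false
set_option synthInstance.maxHeartbeats 400000

open HahnSeries ModularCurve Fermat.Agent.T1 Fermat.Agent.T2 IntermediateField

noncomputable section

namespace Fermat.Agent.Delta

/-- a discrete valuation ring with a surjective residue map and a uniformiser is a `DlBase` -/
def dliBase {L : Type*} [Field L] (O : ValuationSubring L) {k : Type*} [Field k]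
    (π : ↥O →+* k) [IsDiscreteValuationRing ↥O] (hπ : Function.Surjective π) {ϖ : ↥O}
    (hϖ : Irreducible ϖ) : DlBase L k where
  A := O
  resA := π
  resA_surj := hπ
  ϖ := (ϖ : L)
  hϖ := fun h => hϖ.ne_zero (Subtype.ext h)
  hϖA := ϖ.2
  res_ϖ := by
    have hmax : (RingHom.ker π).IsMaximal := RingHom.ker_isMaximal_of_surjective π hπ
    have h1 : RingHom.ker π = IsLocalRing.maximalIdeal ↥O := IsLocalRing.eq_maximalIdeal hmax
    have h2 : ϖ ∈ IsLocalRing.maximalIdeal ↥O := hϖ.not_isUnit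
    rw [← h1] at h2
    exact h2
  unif := by
    intro a ha
    have hmax : (RingHom.ker π).IsMaximal := RingHom.ker_isMaximal_of_surjective π hπ
    have h1 : RingHom.ker π = IsLocalRing.maximalIdeal ↥O := IsLocalRing.eq_maximalIdeal hmax
    have h2 : a ∈ IsLocalRing.maximalIdeal ↥O := by rw [← h1]; exact ha
    rw [hϖ.maximalIdeal_eq, Ideal.mem_span_singleton] at h2
    obtain ⟨a', rfl⟩ := h2
    exact ⟨a', rfl⟩

variable {L : Type*} [Field L] [Algebra ℚ L] (O : ValuationSubring L) {k : Type*} [Field k]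
  (π : ↥O →+* k) [IsDiscreteValuationRing ↥O] (hπ : Function.Surjective π) [IsAlgClosed k]
  {N' q : ℕ} [NeZero N'] [hq : Fact q.Prime] [CharP k q] (hN' : (N' : k) ≠ 0)
  (W : T2iAL L N' q) (Fr : T2iFrob k N' q) {ϖ : ↥O} (hϖ : Irreducible ϖ)

@[simp] theorem dliBase_A : (dliBase O π hπ hϖ).A = O := rfl

@[simp] theorem dliBase_resA : (dliBase O π hπ hϖ).resA = π := rfl

@[simp] theorem dliBase_ϖ : (dliBase O π hπ hϖ).ϖ = (ϖ : L) := rfl

include hN' W Fr in
/-- **the residues of the Gauss ring of level `N' q` lie in `E = k(X₀(N'))`** -/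
theorem dli_taResN_mem (f : ↥(taOv O π hπ (N' * q))) :
    taResN O π hπ (N' * q) f ∈ modularFunctionFieldFullC k N' := by
  obtain ⟨ϖ, hϖ⟩ := IsDiscreteValuationRing.exists_irreducible ↥O
  -- `e = ε` with residues `(1, 0)`
  have heO := t2i_Eps_mem O π hπ hN' W Fr
  have hres := t2i_res_Eps O π hπ hN' W Fr
  set e : ↥(TaF L (N' * q)) := t2iEps (L := L) (N' := N') (q := q) with he
  have he1 : taResN O π hπ (N' * q) ⟨e, heO.1⟩ = 1 := by
    have := congrArg (fun t => ((t.1 : ↥(modularFunctionFieldFullC k N')) : LaurentSeries k)) hres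
    simpa [t2i_coe_res_fst] using this
  have he2 : taResN O π hπ (N' * q) ⟨W.w e, heO.2⟩ = 0 := by
    have := congrArg (fun t => ((t.2 : ↥(modularFunctionFieldFullC k N')) : LaurentSeries k)) hres
    simpa [t2i_coe_res_snd] using this
  obtain ⟨e', he''⟩ := (taResN_eq_zero_iff O π hπ (N' * q) hϖ _).mp he2
  have he' : W.w e = algebraMap L ↥(TaF L (N' * q)) ((ϖ : ↥O) : L) * (e' : ↥(TaF L (N' * q))) :=
    he''
  -- `w f = ϖ^n u`
  rcases eq_or_ne (f : ↥(TaF L (N' * q))) 0 with hf0 | hf0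
  · have : f = 0 := Subtype.ext hf0
    rw [this, map_zero]
    exact zero_mem _
  have hwf0 : W.w (f : ↥(TaF L (N' * q))) ≠ 0 := fun h => hf0 (by
    have := congrArg W.w.symm h
    simpa using this)
  obtain ⟨n, u, hu, -, hfu⟩ := ta_exists_zpow_mul_unitN O π hπ (N' * q) hϖ _ hwf0
  obtain ⟨m, hm⟩ : ∃ m : ℕ, 0 ≤ n + m := ⟨(-n).toNat, by omega⟩
  -- `g = f e^m ∈ 𝒪`
  have hϖ0 : algebraMap L ↥(TaF L (N' * q)) ((ϖ : ↥O) : L) ≠ 0 := by
    intro h
    exact hϖ.ne_zero (Subtype.ext ((algebraMap L ↥(TaF L (N' * q))).injective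
      (h.trans (map_zero _).symm)))
  have hg1 : (f : ↥(TaF L (N' * q))) * e ^ m ∈ taOv O π hπ (N' * q) :=
    (taOv O π hπ (N' * q)).mul_mem _ _ f.2 ((taOv O π hπ (N' * q)).pow_mem heO.1 m)
  have hg2 : W.w ((f : ↥(TaF L (N' * q))) * e ^ m) ∈ taOv O π hπ (N' * q) := by
    rw [map_mul, map_pow, hfu, he', mul_pow]
    obtain ⟨d, hd⟩ : ∃ d : ℕ, n + m = d := ⟨(n + m).toNat, by omega⟩
    have : algebraMap L ↥(TaF L (N' * q)) ((ϖ : ↥O) : L) ^ n * u *
        (algebraMap L ↥(TaF L (N' * q)) ((ϖ : ↥O) : L) ^ m * (e' : ↥(TaF L (N' * q))) ^ m) =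
        algebraMap L ↥(TaF L (N' * q)) ((ϖ : ↥O) : L) ^ d * (u * (e' : ↥(TaF L (N' * q))) ^ m) := by
      rw [← zpow_natCast (algebraMap L ↥(TaF L (N' * q)) ((ϖ : ↥O) : L)) d, ← hd,
        zpow_add₀ hϖ0, zpow_natCast]
      ring
    rw [this]
    exact (taOv O π hπ (N' * q)).mul_mem _ _
      ((taOv O π hπ (N' * q)).pow_mem (algebraMap_mem_taOv O π hπ (N' * q) ϖ) d)
      ((taOv O π hπ (N' * q)).mul_mem _ _ hu ((taOv O π hπ (N' * q)).pow_mem e'.2 m))
  have hgO : (f : ↥(TaF L (N' * q))) * e ^ m ∈ (t2iBase2 O π hπ hN' W Fr).Ov := ⟨hg1, hg2⟩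
  have h1 : taResN O π hπ (N' * q) f = taResN O π hπ (N' * q) ⟨_, hg1⟩ := by
    have : (⟨(f : ↥(TaF L (N' * q))) * e ^ m, hg1⟩ : ↥(taOv O π hπ (N' * q))) =
        f * ⟨e, heO.1⟩ ^ m := rfl
    rw [this, map_mul, map_pow, he1, one_pow, mul_one]
  rw [h1, ← t2i_coe_res_fst O π hπ hN' W Fr hgO]
  exact SetLike.coe_mem _

/-- the residue map of `v_∞` with values in `E` -/
def dliResInf : ↥(taOv O π hπ (N' * q)).toSubring →+* ↥(modularFunctionFieldFullC k N') :=
  (taResN O π hπ (N' * q)).codRestrict (modularFunctionFieldFullC k N').toSubring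
    (dli_taResN_mem O π hπ hN' W Fr)

@[simp] theorem coe_dliResInf (f : ↥(taOv O π hπ (N' * q)).toSubring) :
    ((dliResInf O π hπ hN' W Fr f : ↥(modularFunctionFieldFullC k N')) : LaurentSeries k) =
      taResN O π hπ (N' * q) f := rfl

include hϖ in
theorem dli_algebraMap_ne_zero :
    algebraMap L ↥(TaF L (N' * q)) ((ϖ : ↥O) : L) ≠ 0 := by
  intro h
  exact hϖ.ne_zero (Subtype.ext ((algebraMap L ↥(TaF L (N' * q))).injective
    (h.trans (map_zero _).symm)))

/-- **the Gauss place `v_∞`** -/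
def dliInf : DlPlace (dliBase O π hπ hϖ) ↥(TaF L (N' * q)) ↥(modularFunctionFieldFullC k N') where
  O := (taOv O π hπ (N' * q)).toSubring
  res := dliResInf O π hπ hN' W Fr
  algebraMap_mem := fun a => algebraMap_mem_taOv O π hπ (N' * q) a
  res_algebraMap := fun a => by
    apply Subtype.ext
    rw [coe_dliResInf]
    have := taResN_algebraMap O π hπ (N' * q) a
    rw [this]
    show HahnSeries.C (π a) = algebraMap k (LaurentSeries k) (π a)
    rw [algebraMap_laurentSeries_eq_single]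
    rfl
  normalize := fun f hf => by
    obtain ⟨n, u, hu, hui, hfu⟩ := ta_exists_zpow_mul_unitN O π hπ (N' * q) hϖ f hf
    have hϖ0 := dli_algebraMap_ne_zero O (N' := N') (q := q) hϖ
    have hu0 : u ≠ 0 := by
      rintro rfl
      rw [mul_zero] at hfu
      exact hf hfu
    have h1 : algebraMap L ↥(TaF L (N' * q)) (dliBase O π hπ hϖ).ϖ ^ (-n) * f = u := by
      rw [dliBase_ϖ, hfu, ← mul_assoc, ← zpow_add₀ hϖ0, neg_add_cancel, zpow_zero, one_mul]
    refine ⟨-n, by rw [h1]; exact hu, ?_⟩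
    intro h0
    have h2 : taResN O π hπ (N' * q) ⟨u, hu⟩ = 0 := by
      have h3 := congrArg (fun t : ↥(modularFunctionFieldFullC k N') => (t : LaurentSeries k)) h0
      simp only [coe_dliResInf] at h3
      have h4 : (⟨u, hu⟩ : ↥(taOv O π hπ (N' * q))) =
          ⟨algebraMap L ↥(TaF L (N' * q)) (dliBase O π hπ hϖ).ϖ ^ (-n) * f,
            by rw [h1]; exact hu⟩ := Subtype.ext h1.symm
      rw [h4]
      exact h3
    have h5 : (⟨u, hu⟩ : ↥(taOv O π hπ (N' * q))) * ⟨u⁻¹, hui⟩ = 1 :=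
      Subtype.ext (mul_inv_cancel₀ hu0)
    have h6 := congrArg (taResN O π hπ (N' * q)) h5
    rw [map_mul, h2, zero_mul, map_one] at h6
    exact zero_ne_one h6
  hunit := fun f hf hres => by
    apply inv_mem_taOv_of_taResN_ne_zero O π hπ (N' * q) ⟨f, hf⟩
    intro h0
    apply hres
    apply Subtype.ext
    rw [coe_dliResInf]
    exact h0

/-- the valuation ring of `v_0 = v_∞ ∘ w` (defeq to `T4.t4rtO10 O π hπ W`) -/
abbrev dliO0 : ValuationSubring ↥(TaF L (N' * q)) :=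
  (taOv O π hπ (N' * q)).comap (W.w : ↥(TaF L (N' * q)) →+* ↥(TaF L (N' * q)))

theorem mem_dliO0 (f : ↥(TaF L (N' * q))) :
    f ∈ dliO0 O π hπ W ↔ W.w f ∈ taOv O π hπ (N' * q) := Iff.rfl

/-- `w` as a ring homomorphism `O_{v_0} → O_{v_∞}` -/
def dliW0 : ↥(dliO0 O π hπ W).toSubring →+* ↥(taOv O π hπ (N' * q)).toSubring where
  toFun f := ⟨W.w (f : ↥(TaF L (N' * q))), f.2⟩
  map_one' := Subtype.ext (map_one W.w)
  map_mul' f g := Subtype.ext (map_mul W.w _ _)
  map_zero' := Subtype.ext (map_zero W.w)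
  map_add' f g := Subtype.ext (map_add W.w _ _)

@[simp] theorem coe_dliW0 (f : ↥(dliO0 O π hπ W).toSubring) :
    ((dliW0 O π hπ W f : ↥(taOv O π hπ (N' * q)).toSubring) : ↥(TaF L (N' * q))) =
      W.w (f : ↥(TaF L (N' * q))) := rfl

/-- **the Gauss place `v_0 = v_∞ ∘ w`** -/
def dliZero : DlPlace (dliBase O π hπ hϖ) ↥(TaF L (N' * q)) ↥(modularFunctionFieldFullC k N') where
  O := (dliO0 O π hπ W).toSubring
  res := (dliInf O π hπ hN' W Fr hϖ).res.comp (dliW0 O π hπ W)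
  algebraMap_mem := fun a => by
    show W.w (algebraMap L ↥(TaF L (N' * q)) (a : L)) ∈ taOv O π hπ (N' * q)
    rw [W.w.commutes]
    exact algebraMap_mem_taOv O π hπ (N' * q) a
  res_algebraMap := fun a => by
    rw [← (dliInf O π hπ hN' W Fr hϖ).res_algebraMap a]
    show (dliInf O π hπ hN' W Fr hϖ).res _ = _
    congr 1
    apply Subtype.ext
    show W.w (algebraMap L ↥(TaF L (N' * q)) (a : L)) = _
    rw [W.w.commutes]
  normalize := fun f hf => by
    have hwf : W.w f ≠ 0 := fun h => hf (by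
      have := congrArg W.w.symm h
      simpa using this)
    obtain ⟨n, hn, hres⟩ := (dliInf O π hπ hN' W Fr hϖ).normalize (W.w f) hwf
    have h1 : W.w (algebraMap L ↥(TaF L (N' * q)) (dliBase O π hπ hϖ).ϖ ^ n * f) =
        algebraMap L ↥(TaF L (N' * q)) (dliBase O π hπ hϖ).ϖ ^ n * W.w f := by
      rw [map_mul, map_zpow₀, W.w.commutes]
    refine ⟨n, by
      show W.w _ ∈ taOv O π hπ (N' * q)
      rw [h1]; exact hn, ?_⟩
    intro h0
    apply hres
    rw [← h0]
    show (dliInf O π hπ hN' W Fr hϖ).res _ = (dliInf O π hπ hN' W Fr hϖ).res _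
    congr 1
    exact Subtype.ext h1.symm
  hunit := fun f hf hres => by
    show W.w f⁻¹ ∈ taOv O π hπ (N' * q)
    rw [map_inv₀]
    exact (dliInf O π hπ hN' W Fr hϖ).hunit (W.w f) hf hres

/-! ### The dictionary with the two-valuation base -/

theorem dli_mem_Ov_iff (f : ↥(TaF L (N' * q))) :
    f ∈ (t2iBase2 O π hπ hN' W Fr).Ov ↔
      f ∈ (dliInf O π hπ hN' W Fr hϖ).O ∧ f ∈ (dliZero O π hπ hN' W Fr hϖ).O := Iff.rfl

theorem dli_res_eq {f : ↥(TaF L (N' * q))} (hf : f ∈ (t2iBase2 O π hπ hN' W Fr).Ov) :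
    (t2iBase2 O π hπ hN' W Fr).res ⟨f, hf⟩ =
      ((dliInf O π hπ hN' W Fr hϖ).res ⟨f, hf.1⟩, (dliZero O π hπ hN' W Fr hϖ).res ⟨f, hf.2⟩) := by
  apply Prod.ext
  · apply Subtype.ext
    rw [t2i_coe_res_fst]
    rfl
  · apply Subtype.ext
    rw [t2i_coe_res_snd]
    rfl

theorem dliInf_O : (dliInf O π hπ hN' W Fr hϖ).O = (taOv O π hπ (N' * q)).toSubring := rfl

theorem dliZero_O : (dliZero O π hπ hN' W Fr hϖ).O = (dliO0 O π hπ W).toSubring := rfl

theorem dliZero_res (f : ↥(TaF L (N' * q))) (hf : f ∈ (dliZero O π hπ hN' W Fr hϖ).O) :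
    (dliZero O π hπ hN' W Fr hϖ).res ⟨f, hf⟩ = (dliInf O π hπ hN' W Fr hϖ).res ⟨W.w f, hf⟩ := rfl

theorem coe_dliInf_res (f : ↥(TaF L (N' * q))) (hf : f ∈ (dliInf O π hπ hN' W Fr hϖ).O) :
    (((dliInf O π hπ hN' W Fr hϖ).res ⟨f, hf⟩ : ↥(modularFunctionFieldFullC k N')) :
      LaurentSeries k) = taResN O π hπ (N' * q) ⟨f, hf⟩ := rfl

/-! ### Discrete valuation rings -/

/-- the unit decomposition at a `DlPlace` -/
theorem DlPlace.exists_zpow_mul_unit {K k : Type*} [Field K] [Field k] {B : DlBase K k}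
    {F κ : Type*} [Field F] [Algebra K F] [Field κ] [Algebra k κ] (g : DlPlace B F κ) (f : F)
    (hf : f ≠ 0) : ∃ (n : ℤ) (u : F), u ∈ g.O ∧ u⁻¹ ∈ g.O ∧ f = g.pi ^ n * u := by
  obtain ⟨n, hn, hres⟩ := g.normalize f hf
  refine ⟨-n, _, hn, g.hunit _ hn hres, ?_⟩
  show f = g.pi ^ (-n) * (g.pi ^ n * f)
  rw [← mul_assoc, ← zpow_add₀ g.pi_ne_zero, neg_add_cancel, zpow_zero, one_mul]

/-- a valuation subring which is the ring of a `DlPlace` is a discrete valuation ring -/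
theorem DlPlace.dvr {K k : Type*} [Field K] [Field k] {B : DlBase K k}
    {F κ : Type*} [Field F] [Algebra K F] [Field κ] [Algebra k κ] (g : DlPlace B F κ)
    (V : ValuationSubring F) (hV : V.toSubring = g.O) : IsDiscreteValuationRing ↥V := by
  have hmem : ∀ f : F, f ∈ V ↔ f ∈ g.O := fun f => by rw [← hV]; rfl
  refine Fermat.Agent.T4.t4v_dvr_of_zpow V (ϖ := g.pi) ((hmem _).2 g.pi_mem) ?_ ?_
  · intro h
    have h1 : g.pi⁻¹ ∈ g.O := (hmem _).1 h
    have h2 := g.res_mul' g.pi_mem h1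
    rw [g.res_pi, zero_mul, g.res_congr _ (mul_inv_cancel₀ g.pi_ne_zero), g.res_one'] at h2
    exact one_ne_zero h2
  · intro f hf
    obtain ⟨n, u, hu, hui, hfu⟩ := g.exists_zpow_mul_unit f hf
    exact ⟨n, u, (hmem _).2 hu, (hmem _).2 hui, hfu⟩

/-- `ϖ` is a uniformiser of a valuation subring which is the ring of a `DlPlace` -/
theorem DlPlace.unif {K k : Type*} [Field K] [Field k] {B : DlBase K k}
    {F κ : Type*} [Field F] [Algebra K F] [Field κ] [Algebra k κ] (g : DlPlace B F κ)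
    (V : ValuationSubring F) (hV : V.toSubring = g.O) :
    V.valuation g.pi < 1 ∧ ∀ x : F, V.valuation x < 1 → V.valuation x ≤ V.valuation g.pi := by
  have hmem : ∀ f : F, f ∈ V ↔ f ∈ g.O := fun f => by rw [← hV]; rfl
  have hpiV : g.pi ∈ V := (hmem _).2 g.pi_mem
  have hpi_lt : V.valuation g.pi < 1 := by
    rw [lt_iff_le_and_ne]
    refine ⟨(V.valuation_le_one_iff _).2 hpiV, fun h1 => ?_⟩
    have h2 : g.pi⁻¹ ∈ V := by
      rw [← V.valuation_le_one_iff, map_inv₀, h1, inv_one]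
    have h3 : g.pi⁻¹ ∈ g.O := (hmem _).1 h2
    have h4 := g.res_mul' g.pi_mem h3
    rw [g.res_pi, zero_mul, g.res_congr _ (mul_inv_cancel₀ g.pi_ne_zero), g.res_one'] at h4
    exact one_ne_zero h4
  refine ⟨hpi_lt, fun x hx => ?_⟩
  rcases eq_or_ne x 0 with rfl | hx0
  · rw [map_zero]; exact zero_le
  have hxO : x ∈ g.O := (hmem _).1 ((V.valuation_le_one_iff _).1 hx.le)
  have hres : g.res ⟨x, hxO⟩ = 0 := by
    by_contra h0
    have h1 : x⁻¹ ∈ V := (hmem _).2 (g.hunit x hxO h0)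
    have h2 : V.valuation x⁻¹ ≤ 1 := (V.valuation_le_one_iff _).2 h1
    rw [map_inv₀] at h2
    have h3 : V.valuation x ≠ 0 := (map_ne_zero _).2 hx0
    have h4 : 1 ≤ V.valuation x := by
      have := (inv_le_one₀ (zero_lt_iff.mpr h3)).1 h2
      exact this
    exact absurd hx (not_lt.2 h4)
  obtain ⟨x', hx', rfl⟩ := g.exists_eq_pi_mul hxO hres
  rw [map_mul]
  calc V.valuation g.pi * V.valuation x' ≤ V.valuation g.pi * 1 :=
        mul_le_mul_right ((V.valuation_le_one_iff _).2 ((hmem _).2 hx')) _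
    _ = V.valuation g.pi := mul_one _

include hN' W Fr in
theorem dli_dvr_inf : IsDiscreteValuationRing ↥(taOv O π hπ (N' * q)) := by
  obtain ⟨ϖ, hϖ⟩ := IsDiscreteValuationRing.exists_irreducible ↥O
  exact (dliInf O π hπ hN' W Fr hϖ).dvr _ rfl

include hN' Fr in
theorem dli_dvr_zero : IsDiscreteValuationRing ↥(dliO0 O π hπ W) := by
  obtain ⟨ϖ, hϖ⟩ := IsDiscreteValuationRing.exists_irreducible ↥O
  exact (dliZero O π hπ hN' W Fr hϖ).dvr _ rfl

end Fermat.Agent.Delta
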