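/-
DELTA / I1 (helper9), part 13: **the two Gauss places at an inertia level `L_H = tbFix 𝔓 H`**.

`H ≤ 𝔓.I` of finite index, `ϖ` a uniformiser of `O_H = tbFixO 𝔓 H`, `N'` prime to `p = 𝔓.p`,
`F = tbLevF 𝔓 (N' * p) H`, `E = tbBarF 𝔓 N'`:
* `dliBaseH 𝔓 H hϖ : DlBase L_H κ`;
* `dliInfH 𝔓 H N' h hϖ`, `dliZeroH 𝔓 H N' h hϖ : DlPlace (dliBaseH 𝔓 H hϖ) F E` — the Gauss places
  `v_∞` (valuation ring `taOv (tbFixO 𝔓 H) … (N' * p)`) and `v_0 = v_∞ ∘ w` (valuation ring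
  `T4.t4rtO10 … (t2iALFix 𝔓 H N' h)`);
* the dictionary with `t2iBase2Fix 𝔓 H N' h` in terms of `TbGauss` / `tbRhoFun`;
* both valuation rings are discrete valuation rings with uniformiser `ϖ`.
-/
import Fermat.Agent.Lib.Delta.Toric.InstGen
import Fermat.Agent.Lib.T2.Inst.LevelH

set_option autoImplicit false
set_option linter.unusedSectionVars false
set_option linter.unusedVariables false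
set_option linter.style.haveILetI false
set_option synthInstance.maxHeartbeats 400000

open HahnSeries ModularCurve Fermat.Agent.T1 Fermat.Agent.T2 Fermat.Agent.TW Fermat.Agent.S05Lib

noncomputable section

namespace Fermat.Agent.Delta

variable (𝔓 : FFPlace) (H : Subgroup 𝔓.I) [H.FiniteIndex]

attribute [local instance] t2i_dvr t2i_isAlgClosed t2i_charP t2i_fact

/-- shortcut instance (the one found by instance search, which is slow here) -/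
@[reducible] def dliAlgF (N : ℕ) : Algebra ↥(tbFix 𝔓 H) ↥(tbLevF 𝔓 N H) :=
  SubalgebraClass.toAlgebra (tbLevF 𝔓 N H)

/-- shortcut instance (the one found by instance search, which is slow here) -/
@[reducible] def dliAlgE (N : ℕ) : Algebra (IsLocalRing.ResidueField ↥𝔓.P) ↥(tbBarF 𝔓 N) :=
  SubalgebraClass.toAlgebra (tbBarF 𝔓 N)

attribute [local instance 10000] dliAlgF dliAlgE

variable {ϖ : ↥(tbFixO 𝔓 H)} (hϖ : Irreducible ϖ)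

/-- the base at the level `H` -/
def dliBaseH : DlBase ↥(tbFix 𝔓 H) (IsLocalRing.ResidueField ↥𝔓.P) :=
  dliBase (tbFixO 𝔓 H) (tbFixRes 𝔓 H) (tbFixRes_surjective 𝔓 H) hϖ

@[simp] theorem dliBaseH_A : (dliBaseH 𝔓 H hϖ).A = tbFixO 𝔓 H := rfl

@[simp] theorem dliBaseH_resA : (dliBaseH 𝔓 H hϖ).resA = tbFixRes 𝔓 H := rfl

@[simp] theorem dliBaseH_ϖ : (dliBaseH 𝔓 H hϖ).ϖ = ((ϖ : ↥(tbFixO 𝔓 H)) : ↥(tbFix 𝔓 H)) := rfl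

variable (N' : ℕ) [NeZero N'] (h : ¬ 𝔓.p ∣ N')

/-- **the Gauss place `v_∞` at level `H`** -/
def dliInfH : DlPlace (dliBaseH 𝔓 H hϖ) ↥(tbLevF 𝔓 (N' * 𝔓.p) H) ↥(tbBarF 𝔓 N') :=
  dliInf (tbFixO 𝔓 H) (tbFixRes 𝔓 H) (tbFixRes_surjective 𝔓 H) (t2i_natCast_ne_zero 𝔓 h)
    (t2iALFix 𝔓 H N' h) (t2iFrobFix 𝔓 N') hϖ

/-- **the Gauss place `v_0 = v_∞ ∘ w` at level `H`** -/
def dliZeroH : DlPlace (dliBaseH 𝔓 H hϖ) ↥(tbLevF 𝔓 (N' * 𝔓.p) H) ↥(tbBarF 𝔓 N') :=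
  dliZero (tbFixO 𝔓 H) (tbFixRes 𝔓 H) (tbFixRes_surjective 𝔓 H) (t2i_natCast_ne_zero 𝔓 h)
    (t2iALFix 𝔓 H N' h) (t2iFrobFix 𝔓 N') hϖ

/-- the valuation ring of `v_∞` -/
theorem dliInfH_O : (dliInfH 𝔓 H hϖ N' h).O =
    (taOv (tbFixO 𝔓 H) (tbFixRes 𝔓 H) (tbFixRes_surjective 𝔓 H) (N' * 𝔓.p)).toSubring := rfl

/-- the valuation ring of `v_0` (the right-hand side is `T4.t4rtO10 … (t2iALFix 𝔓 H N' h)`) -/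
theorem dliZeroH_O : (dliZeroH 𝔓 H hϖ N' h).O =
    ((taOv (tbFixO 𝔓 H) (tbFixRes 𝔓 H) (tbFixRes_surjective 𝔓 H) (N' * 𝔓.p)).comap
      ((t2iALFix 𝔓 H N' h).w : ↥(tbLevF 𝔓 (N' * 𝔓.p) H) →+* ↥(tbLevF 𝔓 (N' * 𝔓.p) H))).toSubring :=
  rfl

theorem mem_dliInfH (f : ↥(tbLevF 𝔓 (N' * 𝔓.p) H)) :
    f ∈ (dliInfH 𝔓 H hϖ N' h).O ↔
      TbGauss (tbFixO 𝔓 H) (tbFixRes 𝔓 H) (f : LaurentSeries ↥(tbFix 𝔓 H)) := Iff.rfl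

theorem mem_dliZeroH (f : ↥(tbLevF 𝔓 (N' * 𝔓.p) H)) :
    f ∈ (dliZeroH 𝔓 H hϖ N' h).O ↔
      TbGauss (tbFixO 𝔓 H) (tbFixRes 𝔓 H)
        ((t2wLev 𝔓 H N' 𝔓.p h f : ↥(tbLevF 𝔓 (N' * 𝔓.p) H)) : LaurentSeries ↥(tbFix 𝔓 H)) :=
  Iff.rfl

theorem coe_dliInfH_res (f : ↥(tbLevF 𝔓 (N' * 𝔓.p) H)) (hf : f ∈ (dliInfH 𝔓 H hϖ N' h).O) :
    (((dliInfH 𝔓 H hϖ N' h).res ⟨f, hf⟩ : ↥(tbBarF 𝔓 N')) :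
      LaurentSeries (IsLocalRing.ResidueField ↥𝔓.P)) =
      tbRhoFun (tbFixO 𝔓 H) (tbFixRes 𝔓 H) (f : LaurentSeries ↥(tbFix 𝔓 H)) :=
  (tbf_rhoFun_eq (tbFixO 𝔓 H) (tbFixRes 𝔓 H) _).symm

theorem coe_dliZeroH_res (f : ↥(tbLevF 𝔓 (N' * 𝔓.p) H)) (hf : f ∈ (dliZeroH 𝔓 H hϖ N' h).O) :
    (((dliZeroH 𝔓 H hϖ N' h).res ⟨f, hf⟩ : ↥(tbBarF 𝔓 N')) :
      LaurentSeries (IsLocalRing.ResidueField ↥𝔓.P)) =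
      tbRhoFun (tbFixO 𝔓 H) (tbFixRes 𝔓 H)
        ((t2wLev 𝔓 H N' 𝔓.p h f : ↥(tbLevF 𝔓 (N' * 𝔓.p) H)) : LaurentSeries ↥(tbFix 𝔓 H)) :=
  (tbf_rhoFun_eq (tbFixO 𝔓 H) (tbFixRes 𝔓 H) _).symm

theorem dliZeroH_res (f : ↥(tbLevF 𝔓 (N' * 𝔓.p) H)) (hf : f ∈ (dliZeroH 𝔓 H hϖ N' h).O) :
    (dliZeroH 𝔓 H hϖ N' h).res ⟨f, hf⟩ =
      (dliInfH 𝔓 H hϖ N' h).res ⟨t2wLev 𝔓 H N' 𝔓.p h f, hf⟩ := rfl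

/-- **the dictionary with the two-valuation base**: the Gauss ring -/
theorem dliH_mem_Ov_iff (f : ↥(tbLevF 𝔓 (N' * 𝔓.p) H)) :
    f ∈ (t2iBase2Fix 𝔓 H N' h).Ov ↔
      f ∈ (dliInfH 𝔓 H hϖ N' h).O ∧ f ∈ (dliZeroH 𝔓 H hϖ N' h).O := Iff.rfl

/-- **the dictionary with the two-valuation base**: the residue map -/
theorem dliH_res_eq {f : ↥(tbLevF 𝔓 (N' * 𝔓.p) H)} (hf : f ∈ (t2iBase2Fix 𝔓 H N' h).Ov) :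
    (t2iBase2Fix 𝔓 H N' h).res ⟨f, hf⟩ =
      ((dliInfH 𝔓 H hϖ N' h).res ⟨f, hf.1⟩, (dliZeroH 𝔓 H hϖ N' h).res ⟨f, hf.2⟩) :=
  dli_res_eq (tbFixO 𝔓 H) (tbFixRes 𝔓 H) (tbFixRes_surjective 𝔓 H) (t2i_natCast_ne_zero 𝔓 h)
    (t2iALFix 𝔓 H N' h) (t2iFrobFix 𝔓 N') hϖ hf

include h in
/-- `v_∞` is discrete -/
theorem dliH_dvr_inf : IsDiscreteValuationRing
    ↥(taOv (tbFixO 𝔓 H) (tbFixRes 𝔓 H) (tbFixRes_surjective 𝔓 H) (N' * 𝔓.p)) :=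
  dli_dvr_inf (tbFixO 𝔓 H) (tbFixRes 𝔓 H) (tbFixRes_surjective 𝔓 H) (t2i_natCast_ne_zero 𝔓 h)
    (t2iALFix 𝔓 H N' h) (t2iFrobFix 𝔓 N')

/-- `v_0` is discrete -/
theorem dliH_dvr_zero : IsDiscreteValuationRing
    ↥((taOv (tbFixO 𝔓 H) (tbFixRes 𝔓 H) (tbFixRes_surjective 𝔓 H) (N' * 𝔓.p)).comap
      ((t2iALFix 𝔓 H N' h).w : ↥(tbLevF 𝔓 (N' * 𝔓.p) H) →+* ↥(tbLevF 𝔓 (N' * 𝔓.p) H))) :=
  dli_dvr_zero (tbFixO 𝔓 H) (tbFixRes 𝔓 H) (tbFixRes_surjective 𝔓 H) (t2i_natCast_ne_zero 𝔓 h)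
    (t2iALFix 𝔓 H N' h) (t2iFrobFix 𝔓 N')

include hϖ h in
/-- `ϖ` is a uniformiser of `v_∞` -/
theorem dliH_unif_inf :
    (taOv (tbFixO 𝔓 H) (tbFixRes 𝔓 H) (tbFixRes_surjective 𝔓 H) (N' * 𝔓.p)).valuation
        (algebraMap ↥(tbFix 𝔓 H) ↥(tbLevF 𝔓 (N' * 𝔓.p) H) ((ϖ : ↥(tbFixO 𝔓 H)) : ↥(tbFix 𝔓 H))) < 1 ∧
      ∀ x : ↥(tbLevF 𝔓 (N' * 𝔓.p) H),
        (taOv (tbFixO 𝔓 H) (tbFixRes 𝔓 H) (tbFixRes_surjective 𝔓 H) (N' * 𝔓.p)).valuation x < 1 →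
        (taOv (tbFixO 𝔓 H) (tbFixRes 𝔓 H) (tbFixRes_surjective 𝔓 H) (N' * 𝔓.p)).valuation x ≤
          (taOv (tbFixO 𝔓 H) (tbFixRes 𝔓 H) (tbFixRes_surjective 𝔓 H) (N' * 𝔓.p)).valuation
            (algebraMap ↥(tbFix 𝔓 H) ↥(tbLevF 𝔓 (N' * 𝔓.p) H)
              ((ϖ : ↥(tbFixO 𝔓 H)) : ↥(tbFix 𝔓 H))) :=
  (dliInfH 𝔓 H hϖ N' h).unif _ rfl

include hϖ in
/-- `ϖ` is a uniformiser of `v_0` -/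
theorem dliH_unif_zero :
    ((taOv (tbFixO 𝔓 H) (tbFixRes 𝔓 H) (tbFixRes_surjective 𝔓 H) (N' * 𝔓.p)).comap
      ((t2iALFix 𝔓 H N' h).w : ↥(tbLevF 𝔓 (N' * 𝔓.p) H) →+* ↥(tbLevF 𝔓 (N' * 𝔓.p) H))).valuation
        (algebraMap ↥(tbFix 𝔓 H) ↥(tbLevF 𝔓 (N' * 𝔓.p) H) ((ϖ : ↥(tbFixO 𝔓 H)) : ↥(tbFix 𝔓 H))) < 1 ∧
      ∀ x : ↥(tbLevF 𝔓 (N' * 𝔓.p) H),
        ((taOv (tbFixO 𝔓 H) (tbFixRes 𝔓 H) (tbFixRes_surjective 𝔓 H) (N' * 𝔓.p)).comap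
          ((t2iALFix 𝔓 H N' h).w :
            ↥(tbLevF 𝔓 (N' * 𝔓.p) H) →+* ↥(tbLevF 𝔓 (N' * 𝔓.p) H))).valuation x < 1 →
        ((taOv (tbFixO 𝔓 H) (tbFixRes 𝔓 H) (tbFixRes_surjective 𝔓 H) (N' * 𝔓.p)).comap
          ((t2iALFix 𝔓 H N' h).w :
            ↥(tbLevF 𝔓 (N' * 𝔓.p) H) →+* ↥(tbLevF 𝔓 (N' * 𝔓.p) H))).valuation x ≤
          ((taOv (tbFixO 𝔓 H) (tbFixRes 𝔓 H) (tbFixRes_surjective 𝔓 H) (N' * 𝔓.p)).comap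
            ((t2iALFix 𝔓 H N' h).w :
              ↥(tbLevF 𝔓 (N' * 𝔓.p) H) →+* ↥(tbLevF 𝔓 (N' * 𝔓.p) H))).valuation
            (algebraMap ↥(tbFix 𝔓 H) ↥(tbLevF 𝔓 (N' * 𝔓.p) H)
              ((ϖ : ↥(tbFixO 𝔓 H)) : ↥(tbFix 𝔓 H))) :=
  (dliZeroH 𝔓 H hϖ N' h).unif _ rfl

end Fermat.Agent.Delta
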