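/-
DELTA / I1 (helper9), part 3: **the levels of the unit filtration modulo `p`-th powers**.

`g : DlPlace B F κ`, `p` a prime with `p = η ϖ^{p-1}`, `η ∈ A` (absolute ramification index `p - 1`),
`k` perfect of characteristic `p` (every element is a `p`-th power).

* `dli_mem_A`       : constants of `K` which are integral at `g` lie in `A`;
* `dli_one_add_pow` : `(1 + ϖ s)^p = 1 + ϖ^p (s^p + η s + ϖ e)`;
* `dli_normalize`   : if `a ≡ 1 mod ϖ` and `a = γ r^p x`, `γ ∈ K^×`, `x ≡ 1 mod ϖ`, then one may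
  take `γ ∈ A`, `γ ≡ 1`, `r ≡ 1 mod ϖ`;
* `dli_level_lt`    : for `1 ≤ n < p`: if `1 + ϖⁿ b = γ r^p x` with `x ≡ 1 mod ϖ^{n+1}` then the
  reduction of `b` is a constant;
* `dli_level_p`     : if `1 + ϖ^p b = γ r^p x` with `x ≡ 1 mod ϖ^{p+1}` then the reduction of `b`
  is of the form `u^p + η̄ u` (here `k` is algebraically closed).
-/
import Fermat.Agent.Lib.Delta.Toric.Place

set_option autoImplicit false
set_option linter.unusedSectionVars false
set_option linter.unusedVariables false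
set_option linter.style.haveILetI false

namespace Fermat.Agent.Delta

open Finset

variable {K k : Type*} [Field K] [Field k] {B : DlBase K k} {F κ : Type*} [Field F]
  [Algebra K F] [Field κ] [Algebra k κ] (g : DlPlace B F κ)

namespace DlPlace

theorem algebraMap_ne_zero {c : K} (hc : c ≠ 0) : algebraMap K F c ≠ 0 := fun h0 =>
  hc ((algebraMap K F).injective (h0.trans (map_zero _).symm))

/-- constants which are integral at `g` lie in `A` -/
theorem mem_A_of_mem {c : K} (hc : algebraMap K F c ∈ g.O) : c ∈ B.A := by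
  rcases eq_or_ne c 0 with rfl | hc0
  · exact B.A.zero_mem
  rcases B.A.mem_or_inv_mem c with h | h
  · exact h
  · by_contra hcA
    have hnu : ¬ IsUnit (⟨c⁻¹, h⟩ : ↥B.A) := by
      intro hu
      obtain ⟨d, hd⟩ := hu.exists_right_inv
      apply hcA
      have h1 : c⁻¹ * (d : K) = 1 := by
        have := congrArg Subtype.val hd
        simpa using this
      have h2 : (d : K) = c := by
        have := congrArg (fun t => c * t) h1
        simpa [← mul_assoc, mul_inv_cancel₀ hc0] using this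
      rw [← h2]
      exact d.2
    have h0 : B.resA ⟨c⁻¹, h⟩ = 0 := (B.resA_eq_zero_iff _).mpr hnu
    have h1 := g.res_algebraMap ⟨c⁻¹, h⟩
    rw [h0, map_zero] at h1
    have h2 : g.res ⟨algebraMap K F c, hc⟩ * g.res ⟨algebraMap K F c⁻¹, g.algebraMap_mem ⟨c⁻¹, h⟩⟩
        = 1 := by
      rw [← g.res_mul' hc (g.algebraMap_mem ⟨c⁻¹, h⟩), g.res_congr _
        (show algebraMap K F c * algebraMap K F c⁻¹ = 1 by
          rw [← map_mul, mul_inv_cancel₀ hc0, map_one])]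
      exact g.res_one' _
    rw [h1, mul_zero] at h2
    exact zero_ne_one h2

/-- the reduction of a constant -/
theorem res_const {c : K} (hc : algebraMap K F c ∈ g.O) :
    g.res ⟨algebraMap K F c, hc⟩ = algebraMap k κ (B.resA ⟨c, g.mem_A_of_mem hc⟩) :=
  g.res_algebraMap ⟨c, g.mem_A_of_mem hc⟩

/-- elements with reduction `1` are `≡ 1 mod ϖ` -/
theorem oneMod_of_res_eq_one {f : F} (hf : f ∈ g.O) (h : g.res ⟨f, hf⟩ = 1) : g.OneMod 1 f := by
  have h0 : g.res ⟨f - 1, g.O.sub_mem hf g.O.one_mem⟩ = 0 := by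
    rw [g.res_sub' hf g.O.one_mem, h, g.res_one', sub_self]
  obtain ⟨f', hf', hff'⟩ := g.exists_eq_pi_mul _ h0
  refine ⟨f', hf', ?_⟩
  rw [pow_one, ← hff']
  ring

/-- the reduction only depends on the class modulo `ϖ` -/
theorem res_eq_of_sub {f f' c : F} (hf : f ∈ g.O) (hf' : f' ∈ g.O) (hc : c ∈ g.O)
    (h : f = f' + g.pi * c) : g.res ⟨f, hf⟩ = g.res ⟨f', hf'⟩ := by
  rw [g.res_congr hf h, g.res_add' hf' (g.O.mul_mem g.pi_mem hc), g.res_mul' g.pi_mem hc, g.res_pi,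
    zero_mul, add_zero]

end DlPlace

/-- `Σ_{0<k<p} x^{k-1} c_k = 1 + x r` for the binomial quotients `c_k = binom(p,k)/p` -/
theorem dli_sum_Ioo {R : Type*} [CommRing R] {p : ℕ} (hp : p.Prime) (S : Subring R) {x : R}
    (hx : x ∈ S) :
    ∃ r ∈ S, ∑ k ∈ Ioo 0 p, x ^ (k - 1) * (1 : R) ^ (p - k - 1) * ((p.choose k / p : ℕ) : R)
      = 1 + x * r := by
  have h2 := hp.two_le
  have hins : Ioo 0 p = insert 1 (Ioo 1 p) := by
    ext k
    simp only [mem_Ioo, mem_insert]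
    omega
  have hnot : (1 : ℕ) ∉ Ioo 1 p := by simp
  refine ⟨∑ k ∈ Ioo 1 p, x ^ (k - 2) * ((p.choose k / p : ℕ) : R), ?_, ?_⟩
  · refine S.sum_mem (fun k _ => S.mul_mem (S.pow_mem hx _) (natCast_mem S _))
  · rw [hins, sum_insert hnot, mul_sum]
    congr 1
    · simp [Nat.choose_one_right, Nat.div_self hp.pos]
    · refine sum_congr rfl (fun k hk => ?_)
      have hk2 : 2 ≤ k := by
        have := (mem_Ioo.mp hk).1
        omega
      have : k - 1 = (k - 2) + 1 := by omega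
      rw [this, pow_succ, one_pow]
      ring

/-- **`(1 + ϖ s)^p = 1 + ϖ^p (s^p + η s + ϖ e)`** -/
theorem dli_one_add_pow {p : ℕ} (hp : p.Prime) (η : ↥B.A)
    (hη : (p : K) = (η : K) * B.ϖ ^ (p - 1)) {s : F} (hs : s ∈ g.O) :
    ∃ e ∈ g.O, (1 + g.pi * s) ^ p =
      1 + g.pi ^ p * (s ^ p + algebraMap K F (η : K) * s + g.pi * e) := by
  obtain ⟨r, hr, hsum⟩ := dli_sum_Ioo hp g.O (g.O.mul_mem g.pi_mem hs)
  have h1 := add_pow_prime_eq hp (g.pi * s) (1 : F)
  rw [hsum] at h1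
  have hpF : (p : F) = algebraMap K F (η : K) * g.pi ^ (p - 1) := by
    have := congrArg (algebraMap K F) hη
    rw [map_natCast, map_mul, map_pow] at this
    exact this
  have hpp : g.pi ^ p = g.pi ^ (p - 1) * g.pi := by
    rw [← pow_succ, Nat.sub_add_cancel hp.one_le]
  refine ⟨algebraMap K F (η : K) * s * s * r,
    g.O.mul_mem (g.O.mul_mem (g.O.mul_mem (g.algebraMap_mem η) hs) hs) hr, ?_⟩
  rw [add_comm 1 (g.pi * s), h1, hpF, hpp, mul_pow, hpp]
  ring

/-- **normalisation**: in `a = γ r^p x` with `a ≡ x ≡ 1 mod ϖ` one may take `γ ∈ A`, `γ ≡ 1`,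
`r ≡ 1 mod ϖ` -/
theorem dli_normalize {p : ℕ} (hp : p.Prime) [CharP k p] [IsAlgClosed k] {a : F}
    (ha : g.OneMod 1 a) {γ : K} (hγ : γ ≠ 0) {r : F} (hr : r ≠ 0) {x : F} (hx : g.OneMod 1 x)
    (h : a = algebraMap K F γ * r ^ p * x) :
    ∃ (γ' : ↥B.A) (r' : F), B.resA γ' = 1 ∧ g.OneMod 1 r' ∧
      a = algebraMap K F (γ' : K) * r' ^ p * x := by
  haveI : CharP κ p := charP_of_injective_algebraMap (algebraMap k κ).injective p
  haveI : Fact p.Prime := ⟨hp⟩
  obtain ⟨m, hm, hres⟩ := g.normalize r hr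
  obtain ⟨r₁, hr₁⟩ : ∃ r₁ : F, r₁ = algebraMap K F B.ϖ ^ m * r := ⟨_, rfl⟩
  rw [← hr₁] at hm
  have hres' : g.res ⟨r₁, hm⟩ ≠ 0 := by
    intro h0
    apply hres
    rw [← h0]
    exact g.res_congr _ hr₁.symm
  have hpi0 : algebraMap K F B.ϖ ≠ 0 := g.pi_ne_zero
  have hpm0 : algebraMap K F B.ϖ ^ m ≠ 0 := zpow_ne_zero _ hpi0
  have hr₁0 : r₁ ≠ 0 := hr₁ ▸ mul_ne_zero hpm0 hr
  have hr₁i : r₁⁻¹ ∈ g.O := g.hunit r₁ hm hres'
  have hx0 : x ≠ 0 := hx.ne_zero g le_rfl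
  have hxi : x⁻¹ ∈ g.O := hx.inv_mem g le_rfl
  -- the new constant
  obtain ⟨γ₁, hγ₁⟩ : ∃ γ₁ : K, γ₁ = γ * ((B.ϖ ^ m)⁻¹) ^ p := ⟨_, rfl⟩
  have hγ₁F : algebraMap K F γ₁ = algebraMap K F γ * ((algebraMap K F B.ϖ ^ m)⁻¹) ^ p := by
    rw [hγ₁, map_mul, map_pow, map_inv₀, map_zpow₀]
  have hrr : r = (algebraMap K F B.ϖ ^ m)⁻¹ * r₁ := by
    rw [hr₁, ← mul_assoc, inv_mul_cancel₀ hpm0, one_mul]
  have ha1 : a = algebraMap K F γ₁ * r₁ ^ p * x := by
    rw [h, hγ₁F]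
    conv_lhs => rw [hrr, mul_pow]
    ring
  have hγ₁mem : algebraMap K F γ₁ ∈ g.O := by
    have h2 : algebraMap K F γ₁ = a * (r₁⁻¹) ^ p * x⁻¹ := by
      rw [ha1, inv_pow]
      field_simp
    rw [h2]
    exact g.O.mul_mem (g.O.mul_mem ha.mem (g.O.pow_mem hr₁i p)) hxi
  have hγ₁A := g.mem_A_of_mem hγ₁mem
  -- reductions
  have hred : algebraMap k κ (B.resA ⟨γ₁, hγ₁A⟩) * g.res ⟨r₁, hm⟩ ^ p = 1 := by
    have h3 := ha.res_eq_one g le_rfl
    rw [g.res_congr _ ha1, g.res_mul' (g.O.mul_mem hγ₁mem (g.O.pow_mem hm p)) hx.mem,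
      hx.res_eq_one g le_rfl, mul_one, g.res_mul' hγ₁mem (g.O.pow_mem hm p), g.res_pow' hm,
      g.res_const hγ₁mem] at h3
    exact h3
  have hc0 : B.resA ⟨γ₁, hγ₁A⟩ ≠ 0 := by
    intro h0
    rw [h0, map_zero, zero_mul] at hred
    exact zero_ne_one hred
  obtain ⟨lam, hlam⟩ := IsAlgClosed.exists_pow_nat_eq (B.resA ⟨γ₁, hγ₁A⟩)⁻¹ hp.pos
  have hlam0 : lam ≠ 0 := by
    rintro rfl
    rw [zero_pow hp.ne_zero] at hlam
    exact inv_ne_zero hc0 hlam.symm
  have hrl : g.res ⟨r₁, hm⟩ = algebraMap k κ lam := by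
    have h5 : g.res ⟨r₁, hm⟩ ^ p = algebraMap k κ lam ^ p := by
      conv_rhs => rw [← map_pow, hlam, map_inv₀]
      exact eq_inv_of_mul_eq_one_right hred
    exact frobenius_inj κ p (by simpa [frobenius_def] using h5)
  obtain ⟨l, hl⟩ := B.resA_surj lam
  have hlu : IsUnit l := by
    by_contra hnu
    exact hlam0 (hl ▸ (B.resA_eq_zero_iff l).mpr hnu)
  obtain ⟨li, hli⟩ := hlu.exists_right_inv
  have hlK : (l : K) * (li : K) = 1 := by
    have := congrArg Subtype.val hli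
    simpa using this
  have hlF : algebraMap K F (l : K) * algebraMap K F (li : K) = 1 := by
    rw [← map_mul, hlK, map_one]
  have hresli : B.resA li = lam⁻¹ := by
    have := congrArg B.resA hli
    rw [map_mul, hl, map_one] at this
    exact eq_inv_of_mul_eq_one_right this
  refine ⟨⟨γ₁, hγ₁A⟩ * l ^ p, r₁ * algebraMap K F (li : K), ?_, ?_, ?_⟩
  · rw [map_mul, map_pow, hl, hlam, mul_inv_cancel₀ hc0]
  · apply g.oneMod_of_res_eq_one (g.O.mul_mem hm (g.algebraMap_mem li))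
    rw [g.res_mul' hm (g.algebraMap_mem li), hrl, g.res_algebraMap, hresli, ← map_mul,
      mul_inv_cancel₀ hlam0, map_one]
  · have h6 : algebraMap K F (l : K) ^ p * algebraMap K F (li : K) ^ p = 1 := by
      rw [← mul_pow, hlF, one_pow]
    have h7 : ((⟨γ₁, hγ₁A⟩ * l ^ p : ↥B.A) : K) = γ₁ * (l : K) ^ p := by
      push_cast
      rfl
    rw [h7, map_mul, map_pow, mul_pow, ha1]
    calc algebraMap K F γ₁ * r₁ ^ p * x
        = algebraMap K F γ₁ * (algebraMap K F (l : K) ^ p * algebraMap K F (li : K) ^ p) *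
          r₁ ^ p * x := by rw [h6, mul_one]
      _ = _ := by ring

/-- a constant `≡ 1 mod ϖⁿ` is `1 + ϖⁿ t` with `t ∈ A` -/
theorem dli_const_oneMod {n : ℕ} {c : K} (hc : g.OneMod n (algebraMap K F c)) :
    ∃ t : ↥B.A, algebraMap K F c = 1 + g.pi ^ n * algebraMap K F (t : K) := by
  obtain ⟨b, hb, hcb⟩ := hc
  have hpn : g.pi ^ n ≠ 0 := pow_ne_zero _ g.pi_ne_zero
  have hb' : b = algebraMap K F ((c - 1) / B.ϖ ^ n) := by
    rw [map_div₀, map_sub, map_one, map_pow, hcb]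
    show b = (1 + g.pi ^ n * b - 1) / g.pi ^ n
    rw [add_sub_cancel_left, mul_div_cancel_left₀ _ hpn]
  rw [hb'] at hb
  refine ⟨⟨(c - 1) / B.ϖ ^ n, g.mem_A_of_mem hb⟩, ?_⟩
  rw [hcb, hb']

/-- **the levels `1 ≤ n < p`**: the leading coefficient is a constant -/
theorem dli_level_lt {p : ℕ} (hp : p.Prime) [CharP k p] [IsAlgClosed k] (η : ↥B.A)
    (hη : (p : K) = (η : K) * B.ϖ ^ (p - 1)) {n : ℕ} (hn : 1 ≤ n) (hnp : n < p) {b : F}
    (hb : b ∈ g.O) {γ : K} (hγ : γ ≠ 0) {r : F} (hr : r ≠ 0) {x : F} (hx : g.OneMod (n + 1) x)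
    (h : 1 + g.pi ^ n * b = algebraMap K F γ * r ^ p * x) :
    ∃ t : ↥B.A, g.res ⟨b, hb⟩ = algebraMap k κ (B.resA t) := by
  have ha : g.OneMod n (1 + g.pi ^ n * b) := ⟨b, hb, rfl⟩
  obtain ⟨γ', r', -, hr', h'⟩ := dli_normalize g hp (ha.mono g hn) hγ hr
    (hx.mono g (by omega)) h
  obtain ⟨s, hs, hrs⟩ := hr'
  obtain ⟨e, he, hpow⟩ := dli_one_add_pow g hp η hη hs
  rw [pow_one] at hrs
  have hrp : g.OneMod (n + 1) (r' ^ p) := by
    have : g.OneMod p (r' ^ p) := ⟨_, g.O.add_mem (g.O.add_mem (g.O.pow_mem hs p)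
      (g.O.mul_mem (g.algebraMap_mem η) hs)) (g.O.mul_mem g.pi_mem he), by rw [hrs, hpow]⟩
    exact this.mono g (by omega)
  have hy := hrp.mul g hx
  have hy0 : r' ^ p * x ≠ 0 := hy.ne_zero g (by omega)
  have hγ' : g.OneMod n (algebraMap K F (γ' : K)) := by
    have h2 : algebraMap K F (γ' : K) = (1 + g.pi ^ n * b) / (r' ^ p * x) := by
      rw [h', mul_assoc, mul_div_assoc, div_self hy0, mul_one]
    rw [h2]
    exact ha.div g hn (hy.mono g (by omega))
  obtain ⟨t, ht⟩ := dli_const_oneMod g hγ'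
  obtain ⟨c, hc, hyc⟩ := hy
  refine ⟨t, ?_⟩
  have hpn : g.pi ^ n ≠ 0 := pow_ne_zero _ g.pi_ne_zero
  have hkey : b = algebraMap K F (t : K) +
      g.pi * (c * (1 + g.pi ^ n * algebraMap K F (t : K))) := by
    have h3 : 1 + g.pi ^ n * b = (1 + g.pi ^ n * algebraMap K F (t : K)) *
        (1 + g.pi ^ (n + 1) * c) := by
      rw [h', mul_assoc, hyc, ht]
    have h4 : g.pi ^ n * b = g.pi ^ n * (algebraMap K F (t : K) +
        g.pi * (c * (1 + g.pi ^ n * algebraMap K F (t : K)))) := by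
      have := h3
      rw [pow_succ] at this
      linear_combination this
    exact mul_left_cancel₀ hpn h4
  rw [g.res_eq_of_sub hb (g.algebraMap_mem t) (g.O.mul_mem hc (g.O.add_mem g.O.one_mem
    (g.O.mul_mem (g.pi_pow_mem n) (g.algebraMap_mem t)))) hkey, g.res_algebraMap]

/-- **the level `p`**: the leading coefficient is of Artin–Schreier type `u^p + η̄ u` -/
theorem dli_level_p {p : ℕ} (hp : p.Prime) [CharP k p] [IsAlgClosed k] (η : ↥B.A)
    (hη : (p : K) = (η : K) * B.ϖ ^ (p - 1)) {b : F}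
    (hb : b ∈ g.O) {γ : K} (hγ : γ ≠ 0) {r : F} (hr : r ≠ 0) {x : F} (hx : g.OneMod (p + 1) x)
    (h : 1 + g.pi ^ p * b = algebraMap K F γ * r ^ p * x) :
    ∃ u : κ, g.res ⟨b, hb⟩ = u ^ p + algebraMap k κ (B.resA η) * u := by
  haveI : CharP κ p := charP_of_injective_algebraMap (algebraMap k κ).injective p
  haveI : Fact p.Prime := ⟨hp⟩
  have hp1 := hp.one_le
  have ha : g.OneMod p (1 + g.pi ^ p * b) := ⟨b, hb, rfl⟩
  obtain ⟨γ', r', -, hr', h'⟩ := dli_normalize g hp (ha.mono g hp1) hγ hr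
    (hx.mono g (by omega)) h
  obtain ⟨s, hs, hrs⟩ := hr'
  obtain ⟨e, he, hpow⟩ := dli_one_add_pow g hp η hη hs
  rw [pow_one] at hrs
  have hσ : s ^ p + algebraMap K F (η : K) * s + g.pi * e ∈ g.O :=
    g.O.add_mem (g.O.add_mem (g.O.pow_mem hs p)
      (g.O.mul_mem (g.algebraMap_mem η) hs)) (g.O.mul_mem g.pi_mem he)
  have hrp : g.OneMod p (r' ^ p) := ⟨_, hσ, by rw [hrs, hpow]⟩
  have hy := hrp.mul g (hx.mono g (by omega))
  have hy0 : r' ^ p * x ≠ 0 := hy.ne_zero g hp1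
  have hγ' : g.OneMod p (algebraMap K F (γ' : K)) := by
    have h2 : algebraMap K F (γ' : K) = (1 + g.pi ^ p * b) / (r' ^ p * x) := by
      rw [h', mul_assoc, mul_div_assoc, div_self hy0, mul_one]
    rw [h2]
    exact ha.div g hp1 hy
  obtain ⟨t, ht⟩ := dli_const_oneMod g hγ'
  obtain ⟨c, hc, hxc⟩ := hx
  have hpn : g.pi ^ p ≠ 0 := pow_ne_zero _ g.pi_ne_zero
  have hpp : g.pi ^ p = g.pi * g.pi ^ (p - 1) := by
    rw [← pow_succ', Nat.sub_add_cancel hp1]
  set T : F := algebraMap K F (t : K) with hT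
  set σ : F := s ^ p + algebraMap K F (η : K) * s + g.pi * e with hσdef
  have hkey : b = (T + s ^ p + algebraMap K F (η : K) * s) +
      g.pi * (e + g.pi ^ (p - 1) * T * σ + c * (1 + g.pi ^ p * T) * (1 + g.pi ^ p * σ)) := by
    have h3 : 1 + g.pi ^ p * b = (1 + g.pi ^ p * T) * (1 + g.pi ^ p * σ) *
        (1 + g.pi ^ (p + 1) * c) := by
      rw [h', ht, hrs, hpow, hxc]
    have h4 : g.pi ^ p * b = g.pi ^ p * ((T + s ^ p + algebraMap K F (η : K) * s) +
        g.pi * (e + g.pi ^ (p - 1) * T * σ + c * (1 + g.pi ^ p * T) * (1 + g.pi ^ p * σ))) := by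
      have := h3
      rw [pow_succ] at this
      have hpp' := hpp
      linear_combination this + (T * σ * g.pi ^ p) * hpp'
    exact mul_left_cancel₀ hpn h4
  have hT' : T ∈ g.O := g.algebraMap_mem t
  have hmem1 : T + s ^ p + algebraMap K F (η : K) * s ∈ g.O :=
    g.O.add_mem (g.O.add_mem hT' (g.O.pow_mem hs p)) (g.O.mul_mem (g.algebraMap_mem η) hs)
  have hmem2 : e + g.pi ^ (p - 1) * T * σ + c * (1 + g.pi ^ p * T) * (1 + g.pi ^ p * σ) ∈ g.O :=
    g.O.add_mem (g.O.add_mem he (g.O.mul_mem (g.O.mul_mem (g.pi_pow_mem _) hT') hσ))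
      (g.O.mul_mem (g.O.mul_mem hc (g.O.add_mem g.O.one_mem (g.O.mul_mem (g.pi_pow_mem _) hT')))
        (g.O.add_mem g.O.one_mem (g.O.mul_mem (g.pi_pow_mem _) hσ)))
  have hresb : g.res ⟨b, hb⟩ = algebraMap k κ (B.resA t) + g.res ⟨s, hs⟩ ^ p +
      algebraMap k κ (B.resA η) * g.res ⟨s, hs⟩ := by
    rw [g.res_eq_of_sub hb hmem1 hmem2 hkey,
      g.res_add' (g.O.add_mem hT' (g.O.pow_mem hs p)) (g.O.mul_mem (g.algebraMap_mem η) hs),
      g.res_add' hT' (g.O.pow_mem hs p), g.res_pow' hs, g.res_mul' (g.algebraMap_mem η) hs,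
      g.res_algebraMap, g.res_algebraMap]
  -- solve the Artin–Schreier equation for the constant
  obtain ⟨τ₀, hτ₀⟩ : ∃ τ₀ : k, τ₀ ^ p + B.resA η * τ₀ = B.resA t := by
    have hdeg : (Polynomial.X ^ p + Polynomial.C (B.resA η) * Polynomial.X -
        Polynomial.C (B.resA t) : Polynomial k).degree ≠ 0 := by
      have h1 : (Polynomial.C (B.resA η) * Polynomial.X - Polynomial.C (B.resA t) :
          Polynomial k).degree < ((Polynomial.X : Polynomial k) ^ p).degree := by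
        rw [Polynomial.degree_X_pow]
        refine lt_of_le_of_lt (Polynomial.degree_sub_le _ _) ?_
        refine max_lt ?_ ?_
        · refine lt_of_le_of_lt (Polynomial.degree_C_mul_X_le _) ?_
          exact_mod_cast hp.one_lt
        · refine lt_of_le_of_lt Polynomial.degree_C_le ?_
          exact_mod_cast hp.pos
      rw [add_sub_assoc, Polynomial.degree_add_eq_left_of_degree_lt h1, Polynomial.degree_X_pow]
      exact_mod_cast hp.ne_zero
    obtain ⟨τ₀, hτ₀⟩ := IsAlgClosed.exists_root _ hdeg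
    refine ⟨τ₀, ?_⟩
    have := hτ₀
    simp only [Polynomial.IsRoot.def, Polynomial.eval_sub, Polynomial.eval_add,
      Polynomial.eval_pow, Polynomial.eval_X, Polynomial.eval_mul, Polynomial.eval_C] at this
    exact sub_eq_zero.mp this
  refine ⟨g.res ⟨s, hs⟩ + algebraMap k κ τ₀, ?_⟩
  rw [hresb, add_pow_char, ← hτ₀, map_add, map_mul, map_pow]
  ring

end Fermat.Agent.Delta
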