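/-
DELTA / I1 (helper9), part 4: **matching of the constants and the Artin–Schreier–Kummer normal
form** (helper5's argument, finding #112 (1), level by level).

`g₁`, `g₂` two places of `F` over the same base, `nd : DliNod g₁ g₂` the semilocal ring `On` of the
functions regular at the two generic points and at all nodes of the special fibre:
`On ∩ 𝔪₁ ∩ 𝔪₂ = ϖ On` and constants glue (`(c₁, c₂) ∈ res On`, `c_i ∈ k` ⇒ `c₁ = c₂`: there is at
least one node).  If `z = c w^p (1 + ϖ b)` with `w ∈ On^×`, `b ∈ On`, and `z` is a `p`-th power up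
to constants modulo `Uⁿ` at BOTH places for all `n` (the output of the norm contraction), then
`z = c' w^p (1 + ϖ^p b')` with `b' ∈ On` and `res b' = (u₁^p + η̄ u₁, u₂^p + η̄ u₂)`.

* `DliNod`          : the structure;
* `dli_level_step`  : from the level `n < p` to the level `n + 1`;
* `dli_normal_form` : the normal form.
-/
import Fermat.Agent.Lib.Delta.Toric.Level

set_option autoImplicit false
set_option linter.unusedSectionVars false
set_option linter.unusedVariables false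
set_option linter.style.haveILetI false

namespace Fermat.Agent.Delta

variable {K k : Type*} [Field K] [Field k] {B : DlBase K k} {F κ₁ κ₂ : Type*} [Field F]
  [Algebra K F] [Field κ₁] [Algebra k κ₁] [Field κ₂] [Algebra k κ₂]

/-- the semilocal ring at the nodes: functions regular at the generic points of the two components
and at all nodes -/
structure DliNod (g₁ : DlPlace B F κ₁) (g₂ : DlPlace B F κ₂) where
  /-- the ring -/
  On : Subring F
  le₁ : On ≤ g₁.O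
  le₂ : On ≤ g₂.O
  algebraMap_mem : ∀ a : ↥B.A, algebraMap K F (a : K) ∈ On
  /-- `On ∩ 𝔪₁ ∩ 𝔪₂ = ϖ On` -/
  div_pi : ∀ (b : F) (hb : b ∈ On), g₁.res ⟨b, le₁ hb⟩ = 0 → g₂.res ⟨b, le₂ hb⟩ = 0 →
    ∃ b' ∈ On, b = g₁.pi * b'
  /-- constants glue: there is at least one node -/
  glue_const : ∀ (b : F) (hb : b ∈ On) (c₁ c₂ : k), g₁.res ⟨b, le₁ hb⟩ = algebraMap k κ₁ c₁ →
    g₂.res ⟨b, le₂ hb⟩ = algebraMap k κ₂ c₂ → c₁ = c₂
  /-- `1 + 𝔪` consists of units -/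
  inv_mem : ∀ (a : F) (ha : a ∈ On), g₁.res ⟨a, le₁ ha⟩ = 1 → g₂.res ⟨a, le₂ ha⟩ = 1 → a⁻¹ ∈ On

variable {g₁ : DlPlace B F κ₁} {g₂ : DlPlace B F κ₂}

/-- the shape `z = c w^p (1 + ϖⁿ b)` with `w ∈ On^×`, `b ∈ On` -/
def DliShape (nd : DliNod g₁ g₂) (p n : ℕ) (z : F) : Prop :=
  ∃ c : K, c ≠ 0 ∧ ∃ w ∈ nd.On, w⁻¹ ∈ nd.On ∧ w ≠ 0 ∧ ∃ b ∈ nd.On,
    z = algebraMap K F c * w ^ p * (1 + g₁.pi ^ n * b)

theorem dli_pi_eq : g₁.pi = g₂.pi := rfl

/-- a `p`-th power up to a constant modulo `Uⁿ`: unfolded -/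
theorem DlPthMod.exists_eq {κ : Type*} [Field κ] [Algebra k κ] {g : DlPlace B F κ} {p n : ℕ}
    (hn : 1 ≤ n) {z : F} (h : DlPthMod g p n z) :
    ∃ c : K, c ≠ 0 ∧ ∃ w : F, w ≠ 0 ∧ ∃ x : F, g.OneMod n x ∧ z = algebraMap K F c * w ^ p * x := by
  obtain ⟨c, hc, w, hw, hx⟩ := h
  refine ⟨c, hc, w, hw, _, hx, ?_⟩
  rw [mul_div_cancel₀]
  exact mul_ne_zero (DlPlace.algebraMap_ne_zero hc) (pow_ne_zero _ hw)

/-- the relation `1 + ϖⁿ b = (c'/c) (w'/w)^p x` between two presentations of `z` -/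
theorem dli_two_presentations {κ : Type*} [Field κ] [Algebra k κ] (g : DlPlace B F κ) {p n : ℕ}
    {z : F} {c c' : K} {w w' b x : F} (hc : c ≠ 0) (hw0 : w ≠ 0)
    (hz : z = algebraMap K F c * w ^ p * (1 + g.pi ^ n * b))
    (hz' : z = algebraMap K F c' * w' ^ p * x) :
    1 + g.pi ^ n * b = algebraMap K F (c' / c) * (w' / w) ^ p * x := by
  have hcF : algebraMap K F c ≠ 0 := DlPlace.algebraMap_ne_zero hc
  have h2 : algebraMap K F c * w ^ p * (1 + g.pi ^ n * b) = algebraMap K F c' * w' ^ p * x := by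
    rw [← hz']; exact hz.symm
  rw [map_div₀, div_pow]
  field_simp
  linear_combination h2

/-- the leading coefficient at a level `n < p` is a constant -/
theorem dli_level_const {κ : Type*} [Field κ] [Algebra k κ] (g : DlPlace B F κ) {p : ℕ}
    (hp : p.Prime) [CharP k p] [IsAlgClosed k] (η : ↥B.A)
    (hη : (p : K) = (η : K) * B.ϖ ^ (p - 1)) {n : ℕ} (hn : 1 ≤ n) (hnp : n < p)
    {z : F} {c : K} {w b : F} (hc : c ≠ 0) (hw0 : w ≠ 0) (hbg : b ∈ g.O)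
    (hz : z = algebraMap K F c * w ^ p * (1 + g.pi ^ n * b)) (hP : DlPthMod g p (n + 1) z) :
    ∃ t : ↥B.A, g.res ⟨b, hbg⟩ = algebraMap k κ (B.resA t) := by
  obtain ⟨c', hc', w', hw', x, hx, hz'⟩ := hP.exists_eq (by omega)
  exact dli_level_lt g hp η hη hn hnp hbg (div_ne_zero hc' hc) (div_ne_zero hw' hw0) hx
    (dli_two_presentations g hc hw0 hz hz')

/-- the leading coefficient at the level `p` is of Artin–Schreier type -/
theorem dli_level_p_const {κ : Type*} [Field κ] [Algebra k κ] (g : DlPlace B F κ) {p : ℕ}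
    (hp : p.Prime) [CharP k p] [IsAlgClosed k] (η : ↥B.A)
    (hη : (p : K) = (η : K) * B.ϖ ^ (p - 1))
    {z : F} {c : K} {w b : F} (hc : c ≠ 0) (hw0 : w ≠ 0) (hbg : b ∈ g.O)
    (hz : z = algebraMap K F c * w ^ p * (1 + g.pi ^ p * b)) (hP : DlPthMod g p (p + 1) z) :
    ∃ u : κ, g.res ⟨b, hbg⟩ = u ^ p + algebraMap k κ (B.resA η) * u := by
  obtain ⟨c', hc', w', hw', x, hx, hz'⟩ := hP.exists_eq (by omega)
  exact dli_level_p g hp η hη hbg (div_ne_zero hc' hc) (div_ne_zero hw' hw0) hx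
    (dli_two_presentations g hc hw0 hz hz')

/-- **from the level `n < p` to the level `n + 1`** -/
theorem dli_level_step (nd : DliNod g₁ g₂) {p : ℕ} (hp : p.Prime) [CharP k p] [IsAlgClosed k]
    (η : ↥B.A) (hη : (p : K) = (η : K) * B.ϖ ^ (p - 1)) {n : ℕ} (hn : 1 ≤ n) (hnp : n < p)
    {z : F} (hP₁ : DlPthMod g₁ p (n + 1) z) (hP₂ : DlPthMod g₂ p (n + 1) z)
    (hI : DliShape nd p n z) : DliShape nd p (n + 1) z := by
  obtain ⟨c, hc, w, hw, hwi, hw0, b, hb, hz⟩ := hI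
  have hcF : algebraMap K F c ≠ 0 := DlPlace.algebraMap_ne_zero hc
  have hden : algebraMap K F c * w ^ p ≠ 0 := mul_ne_zero hcF (pow_ne_zero _ hw0)
  obtain ⟨t₁, ht₁⟩ := dli_level_const g₁ hp η hη hn hnp hc hw0 (nd.le₁ hb) hz hP₁
  obtain ⟨t₂, ht₂⟩ := dli_level_const g₂ hp η hη hn hnp hc hw0 (nd.le₂ hb) hz hP₂
  have ht : B.resA t₁ = B.resA t₂ := nd.glue_const b hb _ _ ht₁ ht₂
  -- divide by the constant
  have hbt : b - algebraMap K F (t₁ : K) ∈ nd.On := nd.On.sub_mem hb (nd.algebraMap_mem t₁)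
  obtain ⟨b', hb', hbb'⟩ := nd.div_pi _ hbt
    (by rw [g₁.res_sub' (nd.le₁ hb) (g₁.algebraMap_mem t₁), ht₁, g₁.res_algebraMap, sub_self])
    (by rw [g₂.res_sub' (nd.le₂ hb) (g₂.algebraMap_mem t₁), ht₂, g₂.res_algebraMap, ht, sub_self])
  set T : F := algebraMap K F (t₁ : K) with hT
  have hTmem : T ∈ nd.On := nd.algebraMap_mem t₁
  set d : F := 1 + g₁.pi ^ n * T with hd
  have hdmem : d ∈ nd.On := nd.On.add_mem nd.On.one_mem
    (nd.On.mul_mem (nd.On.pow_mem (nd.algebraMap_mem B.ϖA) n) hTmem)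
  have hd₁ : g₁.OneMod n d := ⟨T, g₁.algebraMap_mem t₁, rfl⟩
  have hd₂ : g₂.OneMod n d := ⟨T, g₂.algebraMap_mem t₁, rfl⟩
  have hdi : d⁻¹ ∈ nd.On := nd.inv_mem d hdmem (hd₁.res_eq_one g₁ hn) (hd₂.res_eq_one g₂ hn)
  have hd0 : d ≠ 0 := hd₁.ne_zero g₁ hn
  -- the new constant `c (1 + ϖⁿ t)`
  have hdK : d = algebraMap K F (1 + B.ϖ ^ n * (t₁ : K)) := by
    rw [hd, map_add, map_one, map_mul, map_pow]; rfl
  have hc' : c * (1 + B.ϖ ^ n * (t₁ : K)) ≠ 0 := by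
    refine mul_ne_zero hc ?_
    intro h0
    apply hd0
    rw [hdK, h0, map_zero]
  refine ⟨c * (1 + B.ϖ ^ n * (t₁ : K)), hc', w, hw, hwi, hw0, b' * d⁻¹, nd.On.mul_mem hb' hdi, ?_⟩
  rw [hz, map_mul, ← hdK]
  have h3 : 1 + g₁.pi ^ n * b = d * (1 + g₁.pi ^ (n + 1) * (b' * d⁻¹)) := by
    have h4 : b = T + g₁.pi * b' := by rw [← hbb']; ring
    have h6 : d * (1 + g₁.pi ^ (n + 1) * (b' * d⁻¹)) =
        d + g₁.pi ^ (n + 1) * b' * (d * d⁻¹) := by ring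
    rw [h6, mul_inv_cancel₀ hd0, mul_one, h4, hd, pow_succ]
    ring
  rw [h3]
  ring

/-- **the Artin–Schreier–Kummer normal form** -/
theorem dli_normal_form (nd : DliNod g₁ g₂) {p : ℕ} (hp : p.Prime) [CharP k p] [IsAlgClosed k]
    (η : ↥B.A) (hη : (p : K) = (η : K) * B.ϖ ^ (p - 1)) {z : F}
    (hP : ∀ n : ℕ, 1 ≤ n → DlPthMod g₁ p n z ∧ DlPthMod g₂ p n z)
    (hI : DliShape nd p 1 z) :
    ∃ c : K, c ≠ 0 ∧ ∃ w ∈ nd.On, w⁻¹ ∈ nd.On ∧ w ≠ 0 ∧ ∃ (b : F) (hb : b ∈ nd.On),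
      z = algebraMap K F c * w ^ p * (1 + g₁.pi ^ p * b) ∧
      (∃ u : κ₁, g₁.res ⟨b, nd.le₁ hb⟩ = u ^ p + algebraMap k κ₁ (B.resA η) * u) ∧
      (∃ u : κ₂, g₂.res ⟨b, nd.le₂ hb⟩ = u ^ p + algebraMap k κ₂ (B.resA η) * u) := by
  have hlev : ∀ n : ℕ, 1 ≤ n → n ≤ p → DliShape nd p n z := by
    intro n hn
    induction n, hn using Nat.le_induction with
    | base => intro _; exact hI
    | succ n hn ih =>
      intro hnp
      exact dli_level_step nd hp η hη hn (by omega) (hP (n + 1) (by omega)).1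
        (hP (n + 1) (by omega)).2 (ih (by omega))
  obtain ⟨c, hc, w, hw, hwi, hw0, b, hb, hz⟩ := hlev p hp.one_le le_rfl
  refine ⟨c, hc, w, hw, hwi, hw0, b, hb, hz, ?_, ?_⟩
  · exact dli_level_p_const g₁ hp η hη hc hw0 (nd.le₁ hb) hz (hP (p + 1) (by omega)).1
  · exact dli_level_p_const g₂ hp η hη hc hw0 (nd.le₂ hb) hz (hP (p + 1) (by omega)).2

end Fermat.Agent.Delta
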