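/-
DELTA / local layer (helper9), part 2: **the norm contraction**.

Two places `g₁`, `g₂` of `F` over the same base, two subfields `E₁`, `E₂` of index `p + 1` such that
the norm `N_{F/E₁}` raises the level from `g₂` to `g₁` and `N_{F/E₂}` raises the level from `g₁` to
`g₂` (`DlNormRaises`; in the application `E₁`, `E₂` are the two copies of the function field of
`X₀(N')` in that of `X₀(N' p)`, and `g₂` resp. `g₁` is the place at which `F / E₁` resp. `F / E₂`
is "ferocious").  If both norms of `z` are `p`-th powers up to constants and `z` is a `p`-th power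
up to a constant modulo `U¹` at both places, then it is so modulo `Uⁿ` for every `n`.

* `dli_contraction_step` : `P_{g'}(n) ⇒ P_g(n + 1)`;
* `dli_contraction`      : `P_{g₁}(1) ∧ P_{g₂}(1) ⇒ ∀ n ≥ 1, P_{g₁}(n) ∧ P_{g₂}(n)`.
-/
import Fermat.Agent.Lib.Delta.Toric.Place

set_option autoImplicit false
set_option linter.unusedSectionVars false
set_option linter.unusedVariables false
set_option linter.style.haveILetI false

namespace Fermat.Agent.Delta

open Module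

variable {K k : Type*} [Field K] [Field k] {B : DlBase K k} {F κ κ' : Type*} [Field F]
  [Algebra K F] [Field κ] [Algebra k κ] [Field κ'] [Algebra k κ']

/-- one step of the contraction: from the level `n` at `g'` to the level `n + 1` at `g` -/
theorem dli_contraction_step (p : ℕ) (hp : p ≠ 0) (g : DlPlace B F κ) (g' : DlPlace B F κ')
    (E : IntermediateField K F) [FiniteDimensional ↥E F] (hd : finrank ↥E F = p + 1)
    (h : DlNormRaises g g' E) (z : F) (hz : z ≠ 0)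
    (hN : ∃ c : K, c ≠ 0 ∧ ∃ y : ↥E, Algebra.norm ↥E z = algebraMap K ↥E c * y ^ p)
    (n : ℕ) (hn : 1 ≤ n) (hz' : DlPthMod g' p n z) : DlPthMod g p (n + 1) z := by
  obtain ⟨c₀, hc₀, w₀, hw₀, hmod⟩ := hz'
  obtain ⟨c₁, hc₁, y, hy⟩ := hN
  have hc₀F : algebraMap K F c₀ ≠ 0 := fun h0 =>
    hc₀ ((algebraMap K F).injective (h0.trans (map_zero _).symm))
  have hc₁F : algebraMap K F c₁ ≠ 0 := fun h0 =>
    hc₁ ((algebraMap K F).injective (h0.trans (map_zero _).symm))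
  have hc₀E : algebraMap K ↥E c₀ ≠ 0 := fun h0 =>
    hc₀ ((algebraMap K ↥E).injective (h0.trans (map_zero _).symm))
  have hden : algebraMap K F c₀ * w₀ ^ p ≠ 0 := mul_ne_zero hc₀F (pow_ne_zero _ hw₀)
  set z' : F := z / (algebraMap K F c₀ * w₀ ^ p) with hz'def
  have hz'0 : z' ≠ 0 := div_ne_zero hz hden
  have hu := h n z' hn hz'0 hmod
  -- the norm of `z'`
  have hzz' : z = z' * (algebraMap K F c₀ * w₀ ^ p) := by
    rw [hz'def, div_mul_cancel₀ _ hden]
  have hNw₀ : Algebra.norm ↥E w₀ ≠ 0 := (Algebra.norm_ne_zero_iff).mpr hw₀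
  have hNc₀ : Algebra.norm ↥E (algebraMap K F c₀) = algebraMap K ↥E c₀ ^ (p + 1) := by
    rw [IsScalarTower.algebraMap_apply K ↥E F, Algebra.norm_algebraMap, hd]
  have hNz : Algebra.norm ↥E z =
      Algebra.norm ↥E z' * (algebraMap K ↥E c₀ ^ (p + 1) * Algebra.norm ↥E w₀ ^ p) := by
    conv_lhs => rw [hzz']
    rw [map_mul, map_mul, map_pow, hNc₀]
  have hy0 : y ≠ 0 := by
    rintro rfl
    rw [zero_pow hp, mul_zero] at hy
    exact ((Algebra.norm_ne_zero_iff).mpr hz) hy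
  have hNz' : Algebra.norm ↥E z' =
      algebraMap K ↥E c₁ * y ^ p / (algebraMap K ↥E c₀ ^ (p + 1) * Algebra.norm ↥E w₀ ^ p) := by
    rw [eq_div_iff (mul_ne_zero (pow_ne_zero _ hc₀E) (pow_ne_zero _ hNw₀)), ← hNz, hy]
  set u : F := algebraMap ↥E F (Algebra.norm ↥E z') / z' with hudef
  have hu0 : u ≠ 0 := hu.ne_zero g (by omega)
  set w : F := w₀ * algebraMap ↥E F y /
    (algebraMap K F c₀ * algebraMap ↥E F (Algebra.norm ↥E w₀)) with hwdef
  have hyF : algebraMap ↥E F y ≠ 0 := fun h0 =>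
    hy0 ((algebraMap ↥E F).injective (h0.trans (map_zero _).symm))
  have hNw₀F : algebraMap ↥E F (Algebra.norm ↥E w₀) ≠ 0 := fun h0 =>
    hNw₀ ((algebraMap ↥E F).injective (h0.trans (map_zero _).symm))
  have hw0 : w ≠ 0 := div_ne_zero (mul_ne_zero hw₀ hyF) (mul_ne_zero hc₀F hNw₀F)
  refine ⟨c₁, hc₁, w, hw0, ?_⟩
  have hN'F : algebraMap ↥E F (Algebra.norm ↥E z') = algebraMap K F c₁ * algebraMap ↥E F y ^ p /
      (algebraMap K F c₀ ^ (p + 1) * algebraMap ↥E F (Algebra.norm ↥E w₀) ^ p) := by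
    rw [hNz', map_div₀, map_mul, map_mul, map_pow, map_pow, map_pow,
      ← IsScalarTower.algebraMap_apply K ↥E F, ← IsScalarTower.algebraMap_apply K ↥E F]
  have hkey : z / (algebraMap K F c₁ * w ^ p) = u⁻¹ := by
    apply eq_inv_of_mul_eq_one_left
    rw [hudef, hN'F, hwdef]
    conv_lhs => rw [hzz']
    rw [div_pow, mul_pow, mul_pow, pow_succ]
    field_simp
  rw [hkey]
  exact hu.inv g (by omega)

/-- **the norm contraction** -/
theorem dli_contraction (p : ℕ) (hp : p ≠ 0) {κ₁ κ₂ : Type*} [Field κ₁] [Algebra k κ₁] [Field κ₂]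
    [Algebra k κ₂] (g₁ : DlPlace B F κ₁) (g₂ : DlPlace B F κ₂)
    (E₁ E₂ : IntermediateField K F) [FiniteDimensional ↥E₁ F] [FiniteDimensional ↥E₂ F]
    (hd₁ : finrank ↥E₁ F = p + 1) (hd₂ : finrank ↥E₂ F = p + 1)
    (h₁ : DlNormRaises g₁ g₂ E₁) (h₂ : DlNormRaises g₂ g₁ E₂)
    (z : F) (hz : z ≠ 0)
    (hN₁ : ∃ c : K, c ≠ 0 ∧ ∃ y : ↥E₁, Algebra.norm ↥E₁ z = algebraMap K ↥E₁ c * y ^ p)
    (hN₂ : ∃ c : K, c ≠ 0 ∧ ∃ y : ↥E₂, Algebra.norm ↥E₂ z = algebraMap K ↥E₂ c * y ^ p)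
    (hz₁ : DlPthMod g₁ p 1 z) (hz₂ : DlPthMod g₂ p 1 z) (n : ℕ) (hn : 1 ≤ n) :
    DlPthMod g₁ p n z ∧ DlPthMod g₂ p n z := by
  induction n, hn using Nat.le_induction with
  | base => exact ⟨hz₁, hz₂⟩
  | succ n hn ih =>
    exact ⟨dli_contraction_step p hp g₁ g₂ E₁ hd₁ h₁ z hz hN₁ n hn ih.2,
      dli_contraction_step p hp g₂ g₁ E₂ hd₂ h₂ z hz hN₂ n hn ih.1⟩

end Fermat.Agent.Delta
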