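/-
DELTA / I1 (helper9), part 5: **the abstract form of (I1)**: norm contraction + matching of the
constants.

`g₁`, `g₂` two places of `F` over the same base (`p = η ϖ^{p-1}`, residue field `k` algebraically
closed of characteristic `p`), `E₁`, `E₂` two subfields of index `p + 1` whose norms raise the
levels (`DlNormRaises`), `nd : DliNod g₁ g₂` the semilocal ring at the nodes.  If
`z = c w^p (1 + ϖ b)` (`w ∈ On^×`, `b ∈ On`) has both norms in `K^× · E_i^{×p}`, then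
`z = c' w^p (1 + ϖ^p b')`, `b' ∈ On`, `res b' = (u₁^p + η̄ u₁, u₂^p + η̄ u₂)`.
-/
import Fermat.Agent.Lib.Delta.Toric.Contract
import Fermat.Agent.Lib.Delta.Toric.Const

set_option autoImplicit false
set_option linter.unusedSectionVars false
set_option linter.unusedVariables false
set_option linter.style.haveILetI false

namespace Fermat.Agent.Delta

open Module

variable {K k : Type*} [Field K] [Field k] {B : DlBase K k} {F κ₁ κ₂ : Type*} [Field F]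
  [Algebra K F] [Field κ₁] [Algebra k κ₁] [Field κ₂] [Algebra k κ₂]
  {g₁ : DlPlace B F κ₁} {g₂ : DlPlace B F κ₂}

/-- the shape `z = c w^p (1 + ϖⁿ b)` gives `p`-th powers modulo `Uⁿ` at both places -/
theorem DliShape.pthMod {nd : DliNod g₁ g₂} {p n : ℕ} {z : F} (h : DliShape nd p n z) :
    DlPthMod g₁ p n z ∧ DlPthMod g₂ p n z := by
  obtain ⟨c, hc, w, hw, hwi, hw0, b, hb, hz⟩ := h
  have hden : algebraMap K F c * w ^ p ≠ 0 :=
    mul_ne_zero (DlPlace.algebraMap_ne_zero hc) (pow_ne_zero _ hw0)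
  have h1 : z / (algebraMap K F c * w ^ p) = 1 + g₁.pi ^ n * b := by
    rw [hz, mul_div_cancel_left₀ _ hden]
  exact ⟨⟨c, hc, w, hw0, b, nd.le₁ hb, h1⟩, ⟨c, hc, w, hw0, b, nd.le₂ hb, h1⟩⟩

theorem DliShape.ne_zero {nd : DliNod g₁ g₂} {p n : ℕ} (hn : 1 ≤ n) {z : F}
    (h : DliShape nd p n z) : z ≠ 0 := by
  obtain ⟨c, hc, w, hw, hwi, hw0, b, hb, hz⟩ := h
  rw [hz]
  have h1 : g₁.OneMod n (1 + g₁.pi ^ n * b) := ⟨b, nd.le₁ hb, rfl⟩
  exact mul_ne_zero (mul_ne_zero (DlPlace.algebraMap_ne_zero hc) (pow_ne_zero _ hw0))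
    (h1.ne_zero g₁ hn)

/-- **(I1), abstract form** -/
theorem dli_toric (nd : DliNod g₁ g₂) {p : ℕ} (hp : p.Prime) [CharP k p] [IsAlgClosed k]
    (η : ↥B.A) (hη : (p : K) = (η : K) * B.ϖ ^ (p - 1))
    (E₁ E₂ : IntermediateField K F) [FiniteDimensional ↥E₁ F] [FiniteDimensional ↥E₂ F]
    (hd₁ : finrank ↥E₁ F = p + 1) (hd₂ : finrank ↥E₂ F = p + 1)
    (h₁ : DlNormRaises g₁ g₂ E₁) (h₂ : DlNormRaises g₂ g₁ E₂) {z : F}
    (hN₁ : ∃ c : K, c ≠ 0 ∧ ∃ y : ↥E₁, Algebra.norm ↥E₁ z = algebraMap K ↥E₁ c * y ^ p)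
    (hN₂ : ∃ c : K, c ≠ 0 ∧ ∃ y : ↥E₂, Algebra.norm ↥E₂ z = algebraMap K ↥E₂ c * y ^ p)
    (hI : DliShape nd p 1 z) :
    ∃ c : K, c ≠ 0 ∧ ∃ w ∈ nd.On, w⁻¹ ∈ nd.On ∧ w ≠ 0 ∧ ∃ (b : F) (hb : b ∈ nd.On),
      z = algebraMap K F c * w ^ p * (1 + g₁.pi ^ p * b) ∧
      (∃ u : κ₁, g₁.res ⟨b, nd.le₁ hb⟩ = u ^ p + algebraMap k κ₁ (B.resA η) * u) ∧
      (∃ u : κ₂, g₂.res ⟨b, nd.le₂ hb⟩ = u ^ p + algebraMap k κ₂ (B.resA η) * u) :=
  dli_normal_form nd hp η hη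
    (fun n hn => dli_contraction p hp.ne_zero g₁ g₂ E₁ E₂ hd₁ hd₂ h₁ h₂ z (hI.ne_zero le_rfl)
      hN₁ hN₂ hI.pthMod.1 hI.pthMod.2 n hn) hI

end Fermat.Agent.Delta
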