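/-
DELTA / I1 (helper9), part 16: **the trace of a purely inseparable simple extension of degree `p`
vanishes** — in the elementary form needed by the ferocious place.

`E` a field of characteristic `p`, `Φ : E →+* E` an endomorphism, `y ∈ E` with `y ^ p ∈ Φ(E)` and
`1, y, …, y^(p-1)` a basis of `E` over `Φ(E)`.  If `c · y^j = ∑ i, Φ (C i j) · y^i` then
`tr C = 0` (`dli_trace_zero`).
-/
import Mathlib

set_option autoImplicit false
set_option linter.unusedSectionVars false
set_option linter.unusedVariables false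
set_option linter.style.haveILetI false

namespace Fermat.Agent.Delta

open Polynomial

section

variable {E : Type*} [Field E] {p : ℕ} (hp : p.Prime) (hchar : (p : E) = 0) (Φ : E →+* E) (y : E)
  (hy : ∃ a, Φ a = y ^ p)
  (ind : ∀ c : Fin p → E, ∑ i, Φ (c i) * y ^ (i : ℕ) = 0 → ∀ i, c i = 0)
  (span : ∀ t : E, ∃ c : Fin p → E, t = ∑ i, Φ (c i) * y ^ (i : ℕ))

include ind in
theorem dli_kt_linearIndependent :
    LinearIndependent ↥Φ.fieldRange (fun i : Fin p => y ^ (i : ℕ)) := by
  rw [Fintype.linearIndependent_iff]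
  intro g hg i
  have hc : ∀ i, ∃ c : E, Φ c = (g i : E) := fun i => (g i).2
  choose c hc using hc
  have h0 : ∑ i, Φ (c i) * y ^ (i : ℕ) = 0 := by
    rw [← hg]
    refine Finset.sum_congr rfl fun i _ => ?_
    rw [hc i]
    rfl
  have h1 := ind c h0 i
  apply Subtype.ext
  rw [← hc i, h1, map_zero]
  rfl

include span in
theorem dli_kt_span :
    ⊤ ≤ Submodule.span ↥Φ.fieldRange (Set.range fun i : Fin p => y ^ (i : ℕ)) := by
  intro t _
  obtain ⟨c, rfl⟩ := span t
  refine Submodule.sum_mem _ fun i _ => ?_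
  have : Φ (c i) * y ^ (i : ℕ) = (⟨Φ (c i), ⟨c i, rfl⟩⟩ : ↥Φ.fieldRange) • y ^ (i : ℕ) := rfl
  rw [this]
  exact Submodule.smul_mem _ _ (Submodule.subset_span ⟨i, rfl⟩)

/-- the basis `1, y, …, y^(p-1)` of `E` over `Φ(E)` -/
noncomputable def dliKtBasis : Module.Basis (Fin p) ↥Φ.fieldRange E :=
  Module.Basis.mk (dli_kt_linearIndependent Φ y ind) (dli_kt_span Φ y span)

theorem dliKtBasis_apply (i : Fin p) : dliKtBasis Φ y ind span i = y ^ (i : ℕ) := by
  rw [dliKtBasis, Module.Basis.mk_apply]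

include hp ind in
theorem dli_kt_y_ne_zero : y ≠ 0 := by
  intro h0
  have h2 := hp.two_le
  have h := ind (fun i => if (i : ℕ) = 1 then 1 else 0) (by
    refine Finset.sum_eq_zero fun i _ => ?_
    by_cases hi : (i : ℕ) = 1
    · rw [hi, h0, pow_one, mul_zero]
    · rw [if_neg hi, map_zero, zero_mul]) ⟨1, by omega⟩
  simp at h

include hp hchar hy ind span in
/-- `E / Φ(E)` is not separable -/
theorem dli_kt_not_isSeparable : ¬ Algebra.IsSeparable ↥Φ.fieldRange E := by
  intro hsep
  obtain ⟨a, ha⟩ := hy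
  have hy0 := dli_kt_y_ne_zero hp Φ y ind
  set a' : ↥Φ.fieldRange := ⟨y ^ p, ⟨a, ha⟩⟩ with ha'
  have ha'0 : a' ≠ 0 := by
    intro h
    exact pow_ne_zero p hy0 (congrArg Subtype.val h)
  have hmonic : (X ^ p - C a' : (↥Φ.fieldRange)[X]).Monic := monic_X_pow_sub_C a' hp.ne_zero
  have hroot : aeval y (X ^ p - C a' : (↥Φ.fieldRange)[X]) = 0 := by
    rw [map_sub, map_pow, aeval_X, aeval_C]
    show y ^ p - y ^ p = 0
    exact sub_self _
  have hmin : ∀ q : (↥Φ.fieldRange)[X], q.Monic → aeval y q = 0 →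
      (X ^ p - C a' : (↥Φ.fieldRange)[X]).degree ≤ q.degree := by
    intro q hq hq0
    rw [degree_X_pow_sub_C hp.pos, degree_eq_natDegree hq.ne_zero]
    by_contra hlt
    rw [not_le] at hlt
    have hlt' : q.natDegree < p := by exact_mod_cast hlt
    rw [aeval_eq_sum_range' hlt', ← Fin.sum_univ_eq_sum_range (fun i => q.coeff i • y ^ i) p] at hq0
    have hli := dli_kt_linearIndependent Φ y ind
    rw [Fintype.linearIndependent_iff] at hli
    have := hli (fun i : Fin p => q.coeff (i : ℕ)) hq0 ⟨q.natDegree, hlt'⟩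
    simp only [] at this
    rw [hq.coeff_natDegree] at this
    exact one_ne_zero this
  have hminpoly := minpoly.unique ↥Φ.fieldRange y hmonic hroot hmin
  have hs : (minpoly ↥Φ.fieldRange y).Separable := Algebra.IsSeparable.isSeparable ↥Φ.fieldRange y
  rw [← hminpoly, X_pow_sub_C_separable_iff hp.pos ha'0] at hs
  apply hs
  apply Subtype.ext
  show ((p : ↥Φ.fieldRange) : E) = 0
  rw [← hchar]
  norm_cast

include hp hchar hy ind span in
/-- **the trace vanishes** -/
theorem dli_trace_zero (c : E) (C : Matrix (Fin p) (Fin p) E)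
    (hC : ∀ j : Fin p, c * y ^ (j : ℕ) = ∑ i, Φ (C i j) * y ^ (i : ℕ)) : C.trace = 0 := by
  classical
  set b := dliKtBasis Φ y ind span with hb
  have h1 : Algebra.trace ↥Φ.fieldRange E c = 0 := by
    rw [Algebra.trace_eq_zero_of_not_isSeparable
      (dli_kt_not_isSeparable hp hchar Φ y hy ind span)]
    rfl
  rw [Algebra.trace_eq_matrix_trace b c] at h1
  have h2 : ∀ i j, Algebra.leftMulMatrix b c i j = (⟨Φ (C i j), ⟨C i j, rfl⟩⟩ : ↥Φ.fieldRange) := by
    intro i j
    rw [Algebra.leftMulMatrix_eq_repr_mul, hb, dliKtBasis_apply, hC j]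
    have : ∑ i, Φ (C i j) * y ^ (i : ℕ) =
        ∑ i, (⟨Φ (C i j), ⟨C i j, rfl⟩⟩ : ↥Φ.fieldRange) • dliKtBasis Φ y ind span i := by
      refine Finset.sum_congr rfl fun i _ => ?_
      rw [dliKtBasis_apply]
      rfl
    rw [this, Module.Basis.repr_sum_self]
  have h3 : Φ C.trace = 0 := by
    have h4 := congrArg (Subtype.val : ↥Φ.fieldRange → E) h1
    rw [Matrix.trace] at h4
    simp only [Matrix.diag_apply, h2] at h4
    rw [Matrix.trace, map_sum]
    simpa using h4
  exact (map_eq_zero Φ).1 h3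

end

end Fermat.Agent.Delta
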