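/-
DELTA / I1 (helper9), part 9: **the matrix of a multiplication in the adapted basis**.

For `a ∈ O₁ ∩ O₂` the matrix `M` of multiplication by `a` in the adapted basis `e, (1 - e) β̃ᵢ` has
integral entries, and modulo `ϖ^m`:
* `mulMat_inl_inr` : the block `M₁₂` vanishes;
* `mulMat_inl_inl` : `M₁₁ ≡ a` at `g₁`;
* `mulMat_inr_inr` : if `a = s (1 + ϖⁿ c)` at `g₂` and `C` is the matrix of `c` on the `β̃ᵢ`, then
  `M₂₂ ≡ s (1 + ϖⁿ C)`.
-/
import Fermat.Agent.Lib.Delta.Toric.NormRepr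

set_option autoImplicit false
set_option linter.unusedSectionVars false
set_option linter.unusedVariables false
set_option linter.style.haveILetI false

namespace Fermat.Agent.Delta

open Module Finset

variable {K k : Type*} [Field K] [Field k] {B : DlBase K k} {F κ₁ κ₂ : Type*} [Field F]
  [Algebra K F] [Field κ₁] [Algebra k κ₁] [Field κ₂] [Algebra k κ₂]

namespace DliFerocious

variable {p : ℕ} {g₁ : DlPlace B F κ₁} {g₂ : DlPlace B F κ₂} {E : IntermediateField K F}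
  {κE : Type*} [Field κE] [Algebra k κE] (D : DliFerocious p g₁ g₂ E κE)
  {m : ℕ} (J : DliIdem g₁ g₂ m) (hm : 1 ≤ m)

/-- the matrix of multiplication by `a` in the adapted basis -/
noncomputable def mulMat (a : F) : Matrix (Unit ⊕ Fin p) (Unit ⊕ Fin p) ↥E :=
  Algebra.leftMulMatrix (D.basis J hm) a

theorem mulMat_apply (a : F) (i j : Unit ⊕ Fin p) :
    D.mulMat J hm a i j = (D.basis J hm).repr (a * D.vec J.e j) i := by
  unfold mulMat
  rw [Algebra.leftMulMatrix_eq_repr_mul, D.basis_apply]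

theorem norm_eq_det (a : F) : Algebra.norm ↥E a = (D.mulMat J hm a).det :=
  Algebra.norm_eq_matrix_det (D.basis J hm) a

variable {a : F} (ha₁ : a ∈ g₁.O) (ha₂ : a ∈ g₂.O)

include ha₁ ha₂ in
theorem mulMat_mem (i j : Unit ⊕ Fin p) : D.mulMat J hm a i j ∈ D.gE.O := by
  rw [D.mulMat_apply]
  exact D.repr_mem J hm (g₁.O.mul_mem ha₁ (D.vec_mem₁ J j)) (g₂.O.mul_mem ha₂ (D.vec_mem₂ J j)) i

/-- the columns of the matrix -/
theorem mulMat_col (a : F) (j : Unit ⊕ Fin p) :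
    ∑ i, ((D.mulMat J hm a i j : ↥E) : F) * D.vec J.e i = a * D.vec J.e j := by
  rw [← D.sum_repr J hm (a * D.vec J.e j)]
  refine sum_congr rfl (fun i _ => ?_)
  rw [D.mulMat_apply]

include ha₁ ha₂ in
/-- the block `M₁₂` vanishes modulo `ϖ^m` -/
theorem mulMat_inl_inr (i : Fin p) :
    ∃ r ∈ D.gE.O, D.mulMat J hm a (Sum.inl ()) (Sum.inr i) = D.gE.pi ^ m * r := by
  obtain ⟨y, hy, hsum⟩ := D.comb_eq₁ J.hy₁ J.he₁
    (c := fun l => D.mulMat J hm a l (Sum.inr i)) (fun l => D.mulMat_mem J hm ha₁ ha₂ l _)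
  rw [D.mulMat_col J hm a (Sum.inr i), D.vec_inr] at hsum
  have h1 : 1 - J.e = -(g₁.pi ^ m * J.y₁) := by
    have := J.he₁
    linear_combination -this
  refine D.div_pow₁ (y := -(a * J.y₁ * D.β i) - y)
    (g₁.O.sub_mem (g₁.O.neg_mem (g₁.O.mul_mem (g₁.O.mul_mem ha₁ J.hy₁) (D.β_mem₁ i))) hy) ?_
  rw [h1] at hsum
  linear_combination -hsum

include ha₁ ha₂ in
/-- the entry `M₁₁` is `≡ a` modulo `ϖ^m` at `g₁` -/
theorem mulMat_inl_inl :
    ∃ y ∈ g₁.O, ((D.mulMat J hm a (Sum.inl ()) (Sum.inl ()) : ↥E) : F) = a + g₁.pi ^ m * y := by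
  obtain ⟨y, hy, hsum⟩ := D.comb_eq₁ J.hy₁ J.he₁
    (c := fun l => D.mulMat J hm a l (Sum.inl ())) (fun l => D.mulMat_mem J hm ha₁ ha₂ l _)
  rw [D.mulMat_col J hm a (Sum.inl ()), D.vec_inl] at hsum
  refine ⟨a * J.y₁ - y, g₁.O.sub_mem (g₁.O.mul_mem ha₁ J.hy₁) hy, ?_⟩
  have := J.he₁
  rw [this] at hsum
  linear_combination -hsum

include ha₁ ha₂ in
/-- the block `M₂₂` is `≡ s (1 + ϖⁿ C)` modulo `ϖ^m` -/
theorem mulMat_inr_inr {n : ℕ} {c : F} (hc : c ∈ g₂.O) {s : ↥E} (hs : s ∈ D.gE.O)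
    (ha : a = (s : F) * (1 + g₂.pi ^ n * c)) {C : Matrix (Fin p) (Fin p) ↥E}
    (hC : ∀ i j, C i j ∈ D.gE.O)
    (hcC : ∀ j, ∃ y ∈ g₂.O, c * D.β j = ∑ i, ((C i j : ↥E) : F) * D.β i + g₂.pi ^ m * y)
    (l i : Fin p) :
    ∃ r ∈ D.gE.O, D.mulMat J hm a (Sum.inr l) (Sum.inr i) =
      s * ((if l = i then 1 else 0) + D.gE.pi ^ n * C l i) + D.gE.pi ^ m * r := by
  classical
  obtain ⟨y, hy, hsum⟩ := D.comb_eq₂ J.hy₂ J.he₂
    (c := fun l => D.mulMat J hm a l (Sum.inr i)) (fun l => D.mulMat_mem J hm ha₁ ha₂ l _)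
  rw [D.mulMat_col J hm a (Sum.inr i), D.vec_inr] at hsum
  obtain ⟨yi, hyi, hci⟩ := hcC i
  set r : Fin p → ↥E := fun l => D.mulMat J hm a (Sum.inr l) (Sum.inr i) -
    s * ((if l = i then 1 else 0) + D.gE.pi ^ n * C l i) with hr
  have hrmem : ∀ l, r l ∈ D.gE.O := fun l =>
    D.gE.O.sub_mem (D.mulMat_mem J hm ha₁ ha₂ _ _) (D.gE.O.mul_mem hs (D.gE.O.add_mem
      (by split_ifs; exacts [D.gE.O.one_mem, D.gE.O.zero_mem])
      (D.gE.O.mul_mem (D.gE.pi_pow_mem n) (hC l i))))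
  have hpi : g₂.pi = g₁.pi := rfl
  have hrsum : ∑ l, ((r l : ↥E) : F) * D.β l =
      g₂.pi ^ m * ((s : F) * g₂.pi ^ n * yi - a * J.y₂ * D.β i - y) := by
    have h1 : ∀ l, ((r l : ↥E) : F) * D.β l =
        ((D.mulMat J hm a (Sum.inr l) (Sum.inr i) : ↥E) : F) * D.β l -
          ((s : F) * ((if l = i then D.β l else 0) +
            g₂.pi ^ n * (((C l i : ↥E) : F) * D.β l))) := by
      intro l
      have hrl : r l = D.mulMat J hm a (Sum.inr l) (Sum.inr i) -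
          s * ((if l = i then 1 else 0) + D.gE.pi ^ n * C l i) := rfl
      rw [hrl]
      by_cases hli : l = i
      · rw [if_pos hli, if_pos hli]
        push_cast
        rw [D.coe_pi, hpi]
        ring
      · rw [if_neg hli, if_neg hli]
        push_cast
        rw [D.coe_pi, hpi]
        ring
    rw [sum_congr rfl (fun l _ => h1 l), sum_sub_distrib, ← mul_sum, sum_add_distrib,
      sum_ite_eq' univ i, if_pos (mem_univ i), ← mul_sum]
    have h2 : ∑ l, ((C l i : ↥E) : F) * D.β l = c * D.β i - g₂.pi ^ m * yi := by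
      rw [hci]; ring
    rw [h2]
    have h3 : ∑ l, ((D.mulMat J hm a (Sum.inr l) (Sum.inr i) : ↥E) : F) * D.β l =
        a * ((1 - J.e) * D.β i) - g₂.pi ^ m * y := by
      rw [hsum]; ring
    rw [h3, J.he₂]
    rw [ha]
    ring
  have hmem : (s : F) * g₂.pi ^ n * yi - a * J.y₂ * D.β i - y ∈ g₂.O :=
    g₂.O.sub_mem (g₂.O.sub_mem (g₂.O.mul_mem (g₂.O.mul_mem (D.coe_mem₂ hs)
      (g₂.pi_pow_mem n)) hyi)
      (g₂.O.mul_mem (g₂.O.mul_mem ha₂ J.hy₂) (D.β_mem₂ i))) hy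
  obtain ⟨r', hr', hrr'⟩ := D.ind_pow m r hrmem ⟨_, hmem, hrsum⟩ l
  refine ⟨r', hr', ?_⟩
  have : D.mulMat J hm a (Sum.inr l) (Sum.inr i) =
      s * ((if l = i then 1 else 0) + D.gE.pi ^ n * C l i) + r l := by
    rw [hr]; ring
  rw [this, hrr']

end DliFerocious

end Fermat.Agent.Delta
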