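/-
DELTA / I1 (helper9), part 10: **the norm raises the level**.

* `dli_det_block` : a determinant computation modulo `ϖ^m` for a matrix which is block triangular
  modulo `ϖ^m` with lower block `s (1 + ϖⁿ C)`, `tr C ≡ 0 mod ϖ`;
* `DliFerocious.norm_approx` : for `a = s (1 + ϖⁿ c)` at the ferocious place `g₂`, `a` integral at
  `g₁`:  `N_{F/E}(a) ≡ a s^p (1 + ϖ^{n+1} T) mod ϖ^m` at `g₁`, for every `m`;
* **`dli_norm_raises`** : `DlNormRaises g₁ g₂ E` for a datum `DliFerocious p g₁ g₂ E κE`.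
-/
import Fermat.Agent.Lib.Delta.Toric.NormMat

set_option autoImplicit false
set_option linter.unusedSectionVars false
set_option linter.unusedVariables false
set_option linter.style.haveILetI false

namespace Fermat.Agent.Delta

open Module Finset

open Polynomial in
/-- a determinant modulo `ϖ^m`: block triangular with lower block `s (1 + ϖⁿ C)`, `tr C ≡ 0` -/
theorem dli_det_block {R : Type*} [CommRing R] {p : ℕ} (ϖ t₀ s : R) {n m : ℕ} (hn : 1 ≤ n)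
    (M : Matrix (Unit ⊕ Fin p) (Unit ⊕ Fin p) R) (C : Matrix (Fin p) (Fin p) R)
    (h12 : ∀ i, ∃ r, M (Sum.inl ()) (Sum.inr i) = ϖ ^ m * r)
    (h22 : ∀ l i, ∃ r, M (Sum.inr l) (Sum.inr i) =
      s * ((if l = i then 1 else 0) + ϖ ^ n * C l i) + ϖ ^ m * r)
    (htr : C.trace = ϖ * t₀) :
    ∃ T r : R, M.det = M (Sum.inl ()) (Sum.inl ()) * s ^ p * (1 + ϖ ^ (n + 1) * T) + ϖ ^ m * r := by
  classical
  set I : Ideal R := Ideal.span {ϖ ^ m} with hI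
  set q := Ideal.Quotient.mk I with hq
  have hqm : q ϖ ^ m = 0 := by
    rw [← map_pow]
    exact Ideal.Quotient.eq_zero_iff_mem.2 (Ideal.subset_span rfl)
  set N := q.mapMatrix M with hN
  have hdet : q M.det = N.det := RingHom.map_det q M
  have h12' : N.toBlocks₁₂ = 0 := by
    ext u i
    obtain ⟨r, hr⟩ := h12 i
    show q (M (Sum.inl u) (Sum.inr i)) = 0
    rw [show u = () from rfl, hr, map_mul, map_pow, hqm, zero_mul]
  have h22' : N.toBlocks₂₂ = q s • (1 + q ϖ ^ n • q.mapMatrix C) := by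
    ext l i
    obtain ⟨r, hr⟩ := h22 l i
    show q (M (Sum.inr l) (Sum.inr i)) = _
    rw [hr, Matrix.smul_apply, Matrix.add_apply, Matrix.smul_apply, Matrix.one_apply]
    simp only [map_add, map_mul, map_pow, hqm, zero_mul, add_zero, smul_eq_mul,
      RingHom.mapMatrix_apply, Matrix.map_apply]
    split_ifs <;> simp
  have h11' : N.toBlocks₁₁.det = q (M (Sum.inl ()) (Sum.inl ())) := by
    rw [Matrix.det_unique]; rfl
  have hN' : N.det = N.toBlocks₁₁.det * N.toBlocks₂₂.det := by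
    conv_lhs => rw [← Matrix.fromBlocks_toBlocks N, h12']
    exact Matrix.det_fromBlocks_zero₁₂ _ _ _
  have htr' : (q.mapMatrix C).trace = q ϖ * q t₀ := by
    rw [← map_mul, ← htr]
    simp [Matrix.trace, map_sum]
  rw [h11', h22', Matrix.det_smul, Fintype.card_fin, Matrix.det_one_add_smul, htr'] at hN'
  obtain ⟨P, hP⟩ := Ideal.Quotient.mk_surjective (I := I)
    (Polynomial.eval (q ϖ ^ n) (Polynomial.divX (Polynomial.divX
      (Matrix.det (1 + (X : (R ⧸ I)[X]) • (q.mapMatrix C).map Polynomial.C)))))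
  rw [← hP] at hN'
  have h0 : q (M.det - M (Sum.inl ()) (Sum.inl ()) * s ^ p *
      (1 + ϖ ^ (n + 1) * (t₀ + P * ϖ ^ (n - 1)))) = 0 := by
    rw [map_sub, hdet, hN']
    simp only [map_add, map_mul, map_pow, map_one]
    obtain ⟨n', rfl⟩ : ∃ n', n = n' + 1 := ⟨n - 1, by omega⟩
    rw [Nat.add_sub_cancel]
    ring
  obtain ⟨r, hr⟩ := Ideal.mem_span_singleton'.1 (Ideal.Quotient.eq_zero_iff_mem.1 h0)
  exact ⟨t₀ + P * ϖ ^ (n - 1), r, by linear_combination -hr⟩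

variable {K k : Type*} [Field K] [Field k] {B : DlBase K k} {F κ₁ κ₂ : Type*} [Field F]
  [Algebra K F] [Field κ₁] [Algebra k κ₁] [Field κ₂] [Algebra k κ₂]

namespace DliFerocious

variable {p : ℕ} {g₁ : DlPlace B F κ₁} {g₂ : DlPlace B F κ₂} {E : IntermediateField K F}
  {κE : Type*} [Field κE] [Algebra k κE] (D : DliFerocious p g₁ g₂ E κE)

/-- **the norm modulo `ϖ^m`** of `a = s (1 + ϖⁿ c)` (at `g₂`), computed at `g₁` -/
theorem norm_approx {m n : ℕ} (hm : 1 ≤ m) (hn : 1 ≤ n) {a c : F} {s : ↥E} (hs : s ∈ D.gE.O)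
    (ha₁ : a ∈ g₁.O) (hc : c ∈ g₂.O) (ha : a = (s : F) * (1 + g₂.pi ^ n * c)) :
    ∃ T ∈ D.gE.O, ∃ y ∈ g₁.O, ((Algebra.norm ↥E a : ↥E) : F) =
      a * (s : F) ^ p * (1 + g₁.pi ^ (n + 1) * (T : F)) + g₁.pi ^ m * y := by
  classical
  obtain ⟨J⟩ := D.exists_idem hm
  have ha₂ : a ∈ g₂.O := by
    rw [ha]
    exact g₂.O.mul_mem (D.coe_mem₂ hs)
      (g₂.O.add_mem g₂.O.one_mem (g₂.O.mul_mem (g₂.pi_pow_mem n) hc))
  -- the matrix `C` of `c` on the `β̃ᵢ`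
  have hC0 : ∀ j, ∃ r : Fin p → ↥E, (∀ i, r i ∈ D.gE.O) ∧
      ∃ y ∈ g₂.O, c * D.β j = ∑ i, ((r i : ↥E) : F) * D.β i + g₂.pi ^ m * y :=
    fun j => D.span_pow m (c * D.β j) (g₂.O.mul_mem hc (D.β_mem₂ j))
  choose Cc hCc hCy using hC0
  set C : Matrix (Fin p) (Fin p) ↥E := fun i j => Cc j i with hCdef
  have hC : ∀ i j, C i j ∈ D.gE.O := fun i j => hCc j i
  have hcC : ∀ j, ∃ y ∈ g₂.O, c * D.β j = ∑ i, ((C i j : ↥E) : F) * D.β i + g₂.pi ^ m * y := hCy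
  obtain ⟨t₀, ht₀, htr⟩ := D.tr₂ c hc C hC (fun j => by
    obtain ⟨y, hy, h⟩ := hcC j
    exact ⟨g₂.pi ^ (m - 1) * y, g₂.O.mul_mem (g₂.pi_pow_mem _) hy, by
      rw [h, ← mul_assoc, ← pow_succ', Nat.sub_add_cancel hm]⟩)
  -- lift everything to the ring `R = gE.O`
  set M' : Matrix (Unit ⊕ Fin p) (Unit ⊕ Fin p) ↥D.gE.O :=
    fun i j => ⟨D.mulMat J hm a i j, D.mulMat_mem J hm ha₁ ha₂ i j⟩ with hM'
  set C' : Matrix (Fin p) (Fin p) ↥D.gE.O := fun i j => ⟨C i j, hC i j⟩ with hC'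
  have h12 : ∀ i, ∃ r : ↥D.gE.O, M' (Sum.inl ()) (Sum.inr i) =
      (⟨D.gE.pi, D.gE.pi_mem⟩ : ↥D.gE.O) ^ m * r := by
    intro i
    obtain ⟨r, hr, h⟩ := D.mulMat_inl_inr J hm ha₁ ha₂ i
    refine ⟨⟨r, hr⟩, Subtype.ext ?_⟩
    push_cast
    exact h
  have h22 : ∀ l i, ∃ r : ↥D.gE.O, M' (Sum.inr l) (Sum.inr i) =
      (⟨s, hs⟩ : ↥D.gE.O) * ((if l = i then 1 else 0) +
        (⟨D.gE.pi, D.gE.pi_mem⟩ : ↥D.gE.O) ^ n * C' l i) +
        (⟨D.gE.pi, D.gE.pi_mem⟩ : ↥D.gE.O) ^ m * r := by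
    intro l i
    obtain ⟨r, hr, h⟩ := D.mulMat_inr_inr J hm ha₁ ha₂ hc hs ha hC hcC l i
    refine ⟨⟨r, hr⟩, Subtype.ext ?_⟩
    by_cases hli : l = i
    · rw [if_pos hli]
      rw [if_pos hli] at h
      push_cast
      exact h
    · rw [if_neg hli]
      rw [if_neg hli] at h
      push_cast
      exact h
  have htr' : C'.trace = (⟨D.gE.pi, D.gE.pi_mem⟩ : ↥D.gE.O) * ⟨t₀, ht₀⟩ := by
    apply Subtype.ext
    have : ((C'.trace : ↥D.gE.O) : ↥E) = C.trace := by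
      simp only [Matrix.trace, Matrix.diag]
      push_cast
      rfl
    rw [this, htr]
    rfl
  obtain ⟨T, r, hdet⟩ := dli_det_block (⟨D.gE.pi, D.gE.pi_mem⟩ : ↥D.gE.O) ⟨t₀, ht₀⟩ ⟨s, hs⟩ hn
    M' C' h12 h22 htr'
  -- back to `E`
  have hdetE : (D.mulMat J hm a).det = ((M'.det : ↥D.gE.O) : ↥E) := by
    have h1 := RingHom.map_det (D.gE.O.subtype) M'
    have h2 : (D.gE.O.subtype).mapMatrix M' = D.mulMat J hm a := by
      ext i j; rfl
    rw [h2] at h1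
    exact h1.symm
  obtain ⟨y₀, hy₀, h00⟩ := D.mulMat_inl_inl J hm ha₁ ha₂
  refine ⟨T, T.2, y₀ * (s : F) ^ p * (1 + g₁.pi ^ (n + 1) * ((T : ↥E) : F)) + (((r : ↥E)) : F),
    g₁.O.add_mem (g₁.O.mul_mem (g₁.O.mul_mem hy₀ (g₁.O.pow_mem (D.coe_mem₁ hs) p))
      (g₁.O.add_mem g₁.O.one_mem (g₁.O.mul_mem (g₁.pi_pow_mem _) (D.coe_mem₁ T.2))))
      (D.coe_mem₁ r.2), ?_⟩
  rw [D.norm_eq_det J hm a, hdetE, hdet]
  push_cast
  rw [show ((M' (Sum.inl ()) (Sum.inl ()) : ↥D.gE.O) : ↥E) =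
    D.mulMat J hm a (Sum.inl ()) (Sum.inl ()) from rfl, h00, D.coe_pi]
  ring

end DliFerocious

end Fermat.Agent.Delta
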