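/-
DELTA / I1 (helper9), part 11: **the norm raises the level** (final statement).

`dli_norm_raises (D : DliFerocious p g₁ g₂ E κE) : DlNormRaises g₁ g₂ E` : if `z ≡ 1 mod ϖⁿ` at the
ferocious place `g₂` (`n ≥ 1`), then `N_{F/E}(z) / z ≡ 1 mod ϖ^{n+1}` at the degree one place `g₁`.
-/
import Fermat.Agent.Lib.Delta.Toric.NormDet

set_option autoImplicit false
set_option linter.unusedSectionVars false
set_option linter.unusedVariables false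
set_option linter.style.haveILetI false

namespace Fermat.Agent.Delta

open Module Finset

variable {K k : Type*} [Field K] [Field k] {B : DlBase K k} {F κ₁ κ₂ : Type*} [Field F]
  [Algebra K F] [Field κ₁] [Algebra k κ₁] [Field κ₂] [Algebra k κ₂]

/-- **the norm raises the level** -/
theorem dli_norm_raises {p : ℕ} {g₁ : DlPlace B F κ₁} {g₂ : DlPlace B F κ₂}
    {E : IntermediateField K F} {κE : Type*} [Field κE] [Algebra k κE]
    (D : DliFerocious p g₁ g₂ E κE) : DlNormRaises g₁ g₂ E := by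
  intro n z hn hz0 hz
  obtain ⟨c, hc, hzc⟩ := hz
  obtain ⟨v, hv, hvres⟩ := g₁.normalize z hz0
  obtain ⟨u₁, hu₁⟩ : ∃ u₁ : F, u₁ = g₁.pi ^ v * z := ⟨_, rfl⟩
  have hv' : u₁ ∈ g₁.O := by rw [hu₁]; exact hv
  have hu₁i : u₁⁻¹ ∈ g₁.O := by
    rw [hu₁]; exact g₁.hunit _ hv hvres
  have hu₁0 : u₁ ≠ 0 := by
    rw [hu₁]; exact mul_ne_zero (zpow_ne_zero _ g₁.pi_ne_zero) hz0
  obtain ⟨m₁, d, hd⟩ : ∃ m₁ d : ℕ, (m₁ : ℤ) = v + d :=
    ⟨v.toNat, ((v.toNat : ℤ) - v).toNat, by omega⟩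
  obtain ⟨s, hsdef⟩ : ∃ s : ↥E, s = D.gE.pi ^ m₁ := ⟨_, rfl⟩
  have hs : s ∈ D.gE.O := by rw [hsdef]; exact D.gE.pi_pow_mem m₁
  have hsF : (s : F) = g₁.pi ^ m₁ := by rw [hsdef]; exact D.coe_pi_pow m₁
  have hs0 : (s : F) ≠ 0 := by rw [hsF]; exact pow_ne_zero _ g₁.pi_ne_zero
  have haz : (s : F) * z = g₁.pi ^ d * u₁ := by
    rw [hu₁, hsF, ← mul_assoc, ← zpow_natCast g₁.pi d, ← zpow_add₀ g₁.pi_ne_zero,
      ← zpow_natCast g₁.pi m₁, hd, add_comm]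
  have ha₁ : (s : F) * z ∈ g₁.O := by
    rw [haz]; exact g₁.O.mul_mem (g₁.pi_pow_mem d) hv'
  obtain ⟨T, hT, y, hy, hN⟩ := D.norm_approx (m := d + p * m₁ + n + 1) (by omega) hn hs ha₁ hc
    (show (s : F) * z = (s : F) * (1 + g₂.pi ^ n * c) by rw [← hzc])
  have hNa : ((Algebra.norm ↥E ((s : F) * z) : ↥E) : F) =
      (s : F) ^ (p + 1) * ((Algebra.norm ↥E z : ↥E) : F) := by
    rw [map_mul, show ((s : F)) = algebraMap ↥E F s from rfl, Algebra.norm_algebraMap, D.deg]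
    push_cast
    rfl
  rw [hNa] at hN
  have hsz : (s : F) ^ (p + 1) * z = g₁.pi ^ (p * m₁ + d) * u₁ := by
    rw [pow_succ, mul_assoc, haz, hsF, ← pow_mul, pow_add, mul_comm m₁ p]
    ring
  have key : g₁.pi ^ (d + p * m₁ + n + 1) = g₁.pi ^ (n + 1) * ((s : F) ^ (p + 1) * z) * u₁⁻¹ := by
    rw [hsz, mul_assoc, mul_assoc, mul_inv_cancel₀ hu₁0, mul_one, ← pow_add]
    congr 1
    ring
  refine ⟨(T : F) + y * u₁⁻¹, g₁.O.add_mem (D.coe_mem₁ hT) (g₁.O.mul_mem hy hu₁i), ?_⟩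
  rw [div_eq_iff hz0]
  have h2 : (s : F) ^ (p + 1) * (algebraMap ↥E F (Algebra.norm ↥E z)) =
      (s : F) ^ (p + 1) * ((1 + g₁.pi ^ (n + 1) * ((T : F) + y * u₁⁻¹)) * z) := by
    rw [show algebraMap ↥E F (Algebra.norm ↥E z) = ((Algebra.norm ↥E z : ↥E) : F) from rfl, hN,
      key]
    ring
  exact mul_left_cancel₀ (pow_ne_zero _ hs0) h2

end Fermat.Agent.Delta
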