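/-
DELTA / I1 (helper9), part 17: **from the Kronecker decomposition to the ferocious datum**.

* `DlPlace.restrict g E` : the restriction of a `DlPlace` of `F` to an intermediate field;
* `dliRange L F' F` : the image of `F'` in `F`, as an intermediate field of `F / L`;
* `DliKron I g₁ g₂` : the link between a Kronecker input `I : T2kInput L F' F k Ω E` (`Lib/T2/Inst/
  Kron.lean`) and two `DlPlace`s `g₁` (`= v_∞`, ring `I.G`, residue `I.ρ`), `g₂` (`= v_0 = v_∞ ∘ w`),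
  together with the residue-level hypotheses (joint surjectivity, `y₂ ^ q ∈ Φ(E)`, independence of
  `1, y₂, …, y₂^(q-1)` over `Φ(E)`, characteristic `q`);
* **`DliKron.ferocious : DliFerocious I.q g₁ g₂ (dliRange L F' F) ↥E`**.
-/
import Fermat.Agent.Lib.Delta.Toric.NormMain
import Fermat.Agent.Lib.Delta.Toric.KronTrace
import Fermat.Agent.Lib.T2.Inst.Kron

set_option autoImplicit false
set_option linter.unusedSectionVars false
set_option linter.unusedVariables false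
set_option linter.style.haveILetI false

namespace Fermat.Agent.Delta

open Module Finset Fermat.Agent.T2

section Restrict

variable {K k : Type*} [Field K] [Field k] {B : DlBase K k} {F κ : Type*} [Field F] [Algebra K F]
  [Field κ] [Algebra k κ]

/-- the restriction of a place to an intermediate field -/
def DlPlace.restrict (g : DlPlace B F κ) (E : IntermediateField K F) : DlPlace B ↥E κ where
  O := g.O.comap (algebraMap ↥E F)
  res := g.res.comp ((algebraMap ↥E F).restrict (g.O.comap (algebraMap ↥E F)) g.O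
    (fun _ hx => hx))
  algebraMap_mem := fun a => by
    show algebraMap ↥E F (algebraMap K ↥E (a : K)) ∈ g.O
    rw [← IsScalarTower.algebraMap_apply]
    exact g.algebraMap_mem a
  res_algebraMap := fun a => by
    rw [← g.res_algebraMap a]
    show g.res _ = g.res _
    congr 1
  normalize := fun e he => by
    have he' : (e : F) ≠ 0 := fun h => he (Subtype.ext h)
    obtain ⟨n, hn, hres⟩ := g.normalize (e : F) he'
    have h1 : algebraMap ↥E F (algebraMap K ↥E B.ϖ ^ n * e) = algebraMap K F B.ϖ ^ n * (e : F) := by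
      rw [map_mul, map_zpow₀, ← IsScalarTower.algebraMap_apply]
      rfl
    refine ⟨n, ?_, ?_⟩
    · show algebraMap ↥E F (algebraMap K ↥E B.ϖ ^ n * e) ∈ g.O
      rw [h1]
      exact hn
    · intro h0
      apply hres
      rw [← h0]
      show g.res _ = g.res _
      congr 1
  hunit := fun e he hres => by
    show algebraMap ↥E F e⁻¹ ∈ g.O
    rw [map_inv₀]
    exact g.hunit (e : F) he hres

theorem DlPlace.mem_restrict (g : DlPlace B F κ) (E : IntermediateField K F) (e : ↥E) :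
    e ∈ (g.restrict E).O ↔ (e : F) ∈ g.O := Iff.rfl

theorem DlPlace.restrict_res (g : DlPlace B F κ) (E : IntermediateField K F) (e : ↥E)
    (he : e ∈ (g.restrict E).O) : (g.restrict E).res ⟨e, he⟩ = g.res ⟨(e : F), he⟩ := rfl

end Restrict

section Range

variable (L F' F : Type*) [Field L] [Field F'] [Field F] [Algebra L F'] [Algebra L F]
  [Algebra F' F] [IsScalarTower L F' F]

/-- the image of `F'` in `F` -/
def dliRange : IntermediateField L F := (IsScalarTower.toAlgHom L F' F).fieldRange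

variable {L F' F}

theorem mem_dliRange {f : F} : f ∈ dliRange L F' F ↔ ∃ b : F', algebraMap F' F b = f := Iff.rfl

/-- `F' → dliRange` -/
noncomputable def dliToRange : F' ≃+* ↥(dliRange L F' F) :=
  RingEquiv.ofBijective
    ((algebraMap F' F).codRestrict (dliRange L F' F) (fun b => ⟨b, rfl⟩))
    ⟨fun a b h => (algebraMap F' F).injective (congrArg Subtype.val h),
      fun e => by
        obtain ⟨b, hb⟩ := e.2
        exact ⟨b, Subtype.ext hb⟩⟩

@[simp] theorem coe_dliToRange (b : F') :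
    ((dliToRange (L := L) (F := F) b : ↥(dliRange L F' F)) : F) = algebraMap F' F b := rfl

theorem dli_finrank_range :
    Module.finrank ↥(dliRange L F' F) F = Module.finrank F' F := by
  symm
  refine Algebra.finrank_eq_of_equiv_equiv (dliToRange (L := L) (F := F)) (RingEquiv.refl F) ?_
  ext b
  rfl

end Range

section Kron

variable {L F' F k Ω : Type*} [Field L] [Field F'] [Field F] [Algebra L F'] [Algebra L F]
  [Algebra F' F] [IsScalarTower L F' F] [Field k] [Field Ω] [Algebra k Ω]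
  {E : IntermediateField k Ω} {B : DlBase L k}

/-- the link between a Kronecker input and two `DlPlace`s, with the residue-level hypotheses -/
structure DliKron (I : T2kInput L F' F k Ω E) (g₁ g₂ : DlPlace B F ↥E) : Prop where
  hA : I.d'.A = B.A
  O₁ : ∀ f : F, f ∈ g₁.O ↔ f ∈ I.G
  res₁ : ∀ (f : F) (hf : f ∈ g₁.O), ((g₁.res ⟨f, hf⟩ : ↥E) : Ω) = I.ρ ⟨f, (O₁ f).1 hf⟩
  O₂ : ∀ f : F, f ∈ g₂.O ↔ I.w f ∈ I.G
  res₂ : ∀ (f : F) (hf : f ∈ g₂.O), ((g₂.res ⟨f, hf⟩ : ↥E) : Ω) = I.ρ ⟨I.w f, (O₂ f).1 hf⟩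
  surj : Function.Surjective I.res
  surj' : Function.Surjective I.d'.res
  prime : I.q.Prime
  char : ((I.q : ℕ) : ↥E) = 0
  Ypow : ∃ J' : ↥I.d'.Ov, I.Φ (I.d'.res J') = I.y₂ ^ I.q
  ind : ∀ c : Fin I.q → ↥E, ∑ i, I.Φ (c i) * I.y₂ ^ (i : ℕ) = 0 → ∀ i, c i = 0

/-- a function of the lower level which is integral at a place of the upper level is integral -/
theorem dli_mem_Ov_of_alpha_mem (I : T2kInput L F' F k Ω E) (hA : I.d'.A = B.A)
    (g : DlPlace B F ↥E)
    (hmem : ∀ b : ↥I.d'.Ov, algebraMap F' F (b : F') ∈ g.O)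
    (hres : ∀ b : ↥I.d'.Ov, g.res ⟨_, hmem b⟩ = 0 → I.d'.res b = 0) {b : F'}
    (hb : algebraMap F' F b ∈ g.O) : b ∈ I.d'.Ov := by
  rcases eq_or_ne b 0 with rfl | hb0
  · exact I.d'.Ov.zero_mem
  obtain ⟨c, hc0, hcb, hres'⟩ := I.d'.normalize b hb0
  have hci : c⁻¹ ∈ B.A := by
    by_contra hci
    have hcA : c ∈ B.A := (B.A.mem_or_inv_mem c).resolve_right hci
    have hres0 : B.resA ⟨c, hcA⟩ = 0 := by
      rw [B.resA_eq_zero_iff]
      intro hu
      obtain ⟨d, hd⟩ := hu.exists_right_inv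
      apply hci
      have h1 : c * (d : L) = 1 := congrArg Subtype.val hd
      have h2 : c⁻¹ = (d : L) := by
        rw [inv_eq_iff_eq_inv]
        exact eq_inv_of_mul_eq_one_left h1
      rw [h2]
      exact d.2
    apply hres'
    apply hres ⟨c • b, hcb⟩
    have h1 : algebraMap F' F (c • b) = algebraMap L F c * algebraMap F' F b := by
      rw [Algebra.smul_def, map_mul, ← IsScalarTower.algebraMap_apply]
    rw [g.res_congr _ h1, g.res_mul' (g.algebraMap_mem ⟨c, hcA⟩) hb,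
      g.res_algebraMap ⟨c, hcA⟩, hres0, map_zero, zero_mul]
  have h3 : b = c⁻¹ • (c • b) := by rw [smul_smul, inv_mul_cancel₀ hc0, one_smul]
  rw [h3]
  exact I.d'.smul_mem ⟨c⁻¹, by rw [hA]; exact hci⟩ hcb

namespace DliKron

variable {I : T2kInput L F' F k Ω E} {g₁ g₂ : DlPlace B F ↥E} (h : DliKron I g₁ g₂)

include h in
theorem alpha_mem₁ (b : ↥I.d'.Ov) : algebraMap F' F (b : F') ∈ g₁.O := (h.O₁ _).2 (I.α_mem b)

theorem res_alpha₁ (b : ↥I.d'.Ov) :
    g₁.res ⟨algebraMap F' F (b : F'), h.alpha_mem₁ b⟩ = I.d'.res b := by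
  apply Subtype.ext
  rw [h.res₁]
  exact I.ρ_α b

include h in
theorem alpha_mem₂ (b : ↥I.d'.Ov) : algebraMap F' F (b : F') ∈ g₂.O := (h.O₂ _).2 (I.β_mem b)

theorem res_alpha₂ (b : ↥I.d'.Ov) :
    g₂.res ⟨algebraMap F' F (b : F'), h.alpha_mem₂ b⟩ = I.Φ (I.d'.res b) := by
  apply Subtype.ext
  rw [h.res₂]
  exact I.ρ_β b

include h in
theorem mem_Ov_of_mem₁ {b : F'} (hb : algebraMap F' F b ∈ g₁.O) : b ∈ I.d'.Ov :=
  dli_mem_Ov_of_alpha_mem I h.hA g₁ h.alpha_mem₁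
    (fun b h0 => by rw [← h.res_alpha₁ b]; exact h0) hb

include h in
theorem mem_Ov_of_mem₂ {b : F'} (hb : algebraMap F' F b ∈ g₂.O) : b ∈ I.d'.Ov :=
  dli_mem_Ov_of_alpha_mem I h.hA g₂ h.alpha_mem₂
    (fun b h0 => by
      rw [h.res_alpha₂ b] at h0
      exact (map_eq_zero I.Φ).1 h0) hb

include h in
theorem Y_mem₁ : I.Y ∈ g₁.O := (h.O₁ _).2 I.Y_mem

include h in
theorem Y_mem₂ : I.Y ∈ g₂.O := (h.O₂ _).2 I.wY_mem

theorem res_Y₂ : g₂.res ⟨I.Y, h.Y_mem₂⟩ = I.y₂ := by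
  apply Subtype.ext
  rw [h.res₂]
  exact I.ρ_wY

include h in
/-- the residue field at `g₂` is spanned by `1, y₂, …, y₂^(q-1)` over `Φ(E)` -/
theorem span_res (t : ↥E) : ∃ c : Fin I.q → ↥E, t = ∑ i, I.Φ (c i) * I.y₂ ^ (i : ℕ) := by
  obtain ⟨f, hf⟩ := h.surj ((0 : ↥E), t)
  obtain ⟨b, rfl⟩ := I.decomp f
  obtain ⟨J', hJ'⟩ := h.Ypow
  have h2 : t = ∑ l, I.Φ (I.d'.res (b l)) * I.y₂ ^ (l : ℕ) := by
    have h3 : (I.res (I.comb b)).2 = t := by rw [hf]
    apply Subtype.ext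
    rw [← h3, I.res_snd, I.ρ₂_comb]
  refine ⟨fun l => I.d'.res (b (Fin.castSucc l)) +
    (if (l : ℕ) = 0 then I.d'.res (b (Fin.last I.q)) * I.d'.res J' else 0), ?_⟩
  rw [h2, Fin.sum_univ_castSucc]
  simp only [map_add, add_mul, Finset.sum_add_distrib, Fin.val_castSucc, Fin.val_last]
  congr 1
  rw [Finset.sum_eq_single (⟨0, h.prime.pos⟩ : Fin I.q)]
  · simp only [if_true, pow_zero, mul_one, map_mul, hJ']
  · intro l _ hl
    have hl' : (l : ℕ) ≠ 0 := fun h0 => hl (Fin.ext h0)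
    rw [if_neg hl', map_zero, zero_mul]
  · intro h0
    exact absurd (Finset.mem_univ _) h0

include h in
/-- elements of the range which are integral at `g₁` come from `𝒪'` -/
theorem exists_of_mem₁ (e : ↥(dliRange L F' F)) (he : (e : F) ∈ g₁.O) :
    ∃ b : ↥I.d'.Ov, algebraMap F' F (b : F') = (e : F) := by
  obtain ⟨b, hb⟩ := e.2
  have hb' : algebraMap F' F b = (e : F) := hb
  exact ⟨⟨b, h.mem_Ov_of_mem₁ (by rw [hb']; exact he)⟩, hb'⟩

include h in
theorem mem₂_iff (e : ↥(dliRange L F' F)) : (e : F) ∈ g₂.O ↔ (e : F) ∈ g₁.O := by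
  obtain ⟨b, hb⟩ := e.2
  have hb' : algebraMap F' F b = (e : F) := hb
  constructor
  · intro he
    have hbO : b ∈ I.d'.Ov := h.mem_Ov_of_mem₂ (by rw [hb']; exact he)
    rw [← hb']
    exact h.alpha_mem₁ ⟨b, hbO⟩
  · intro he
    have hbO : b ∈ I.d'.Ov := h.mem_Ov_of_mem₁ (by rw [hb']; exact he)
    rw [← hb']
    exact h.alpha_mem₂ ⟨b, hbO⟩

/-- the uniformiser of the range, in `F` -/
theorem coe_restrict_pi :
    (((g₁.restrict (dliRange L F' F)).pi : ↥(dliRange L F' F)) : F) = g₁.pi := rfl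

include h in
/-- divisibility by `ϖ` of an element of the range with zero residue at `g₁` -/
theorem exists_pi_mul_of_res₁ (e : ↥(dliRange L F' F)) (he : (e : F) ∈ g₁.O)
    (h0 : g₁.res ⟨(e : F), he⟩ = 0) :
    ∃ r' ∈ (g₁.restrict (dliRange L F' F)).O, e = (g₁.restrict (dliRange L F' F)).pi * r' := by
  obtain ⟨f', hf', hef⟩ := g₁.exists_eq_pi_mul he h0
  have hpi : (g₁.restrict (dliRange L F' F)).pi ≠ 0 := (g₁.restrict (dliRange L F' F)).pi_ne_zero
  refine ⟨e * ((g₁.restrict (dliRange L F' F)).pi)⁻¹, ?_, ?_⟩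
  · show ((e * ((g₁.restrict (dliRange L F' F)).pi)⁻¹ : ↥(dliRange L F' F)) : F) ∈ g₁.O
    have : ((e * ((g₁.restrict (dliRange L F' F)).pi)⁻¹ : ↥(dliRange L F' F)) : F) = f' := by
      show (e : F) * (g₁.pi)⁻¹ = f'
      rw [hef, mul_comm g₁.pi f', mul_assoc, mul_inv_cancel₀ g₁.pi_ne_zero, mul_one]
    rw [this]
    exact hf'
  · rw [mul_comm e, ← mul_assoc, mul_inv_cancel₀ hpi, one_mul]

include h in
/-- **independence modulo `ϖ`** -/
theorem ind₂ (r : Fin I.q → ↥(dliRange L F' F))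
    (hr : ∀ i, r i ∈ (g₁.restrict (dliRange L F' F)).O)
    (hy : ∃ y ∈ g₂.O, ∑ i, ((r i : ↥(dliRange L F' F)) : F) * I.Y ^ (i : ℕ) = g₂.pi * y) :
    ∀ i, ∃ r' ∈ (g₁.restrict (dliRange L F' F)).O,
      r i = (g₁.restrict (dliRange L F' F)).pi * r' := by
  obtain ⟨y, hy, hsum⟩ := hy
  have hb : ∀ i, ∃ b : ↥I.d'.Ov, algebraMap F' F (b : F') = ((r i : ↥(dliRange L F' F)) : F) :=
    fun i => h.exists_of_mem₁ (r i) (hr i)
  choose b hb using hb
  -- the residue at `g₂`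
  have hs : (∑ i, (⟨algebraMap F' F (b i : F'), h.alpha_mem₂ (b i)⟩ : ↥g₂.O) *
      (⟨I.Y, h.Y_mem₂⟩ : ↥g₂.O) ^ (i : ℕ)) = ⟨g₂.pi, g₂.pi_mem⟩ * ⟨y, hy⟩ := by
    apply Subtype.ext
    rw [AddSubmonoidClass.coe_finsetSum]
    show ∑ i, algebraMap F' F (b i : F') * I.Y ^ (i : ℕ) = g₂.pi * y
    rw [← hsum]
    exact Finset.sum_congr rfl fun i _ => by rw [hb i]
  have hs' := congrArg g₂.res hs
  rw [map_sum, map_mul, g₂.res_pi, zero_mul] at hs'
  have hs'' : ∑ i, I.Φ (I.d'.res (b i)) * I.y₂ ^ (i : ℕ) = 0 := by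
    rw [← hs']
    refine Finset.sum_congr rfl fun i _ => ?_
    rw [map_mul, map_pow, h.res_alpha₂, h.res_Y₂]
  have h0 := h.ind _ hs''
  intro i
  refine h.exists_pi_mul_of_res₁ (r i) (hr i) ?_
  rw [g₁.res_congr _ (hb i).symm, h.res_alpha₁, h0 i]

include h in
/-- **span modulo `ϖ`** -/
theorem span₂ (x : F) (hx : x ∈ g₂.O) :
    ∃ r : Fin I.q → ↥(dliRange L F' F), (∀ i, r i ∈ (g₁.restrict (dliRange L F' F)).O) ∧
      ∃ y ∈ g₂.O, x = ∑ i, ((r i : ↥(dliRange L F' F)) : F) * I.Y ^ (i : ℕ) + g₂.pi * y := by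
  obtain ⟨c, hc⟩ := h.span_res (g₂.res ⟨x, hx⟩)
  have hb : ∀ i, ∃ b : ↥I.d'.Ov, I.d'.res b = c i := fun i => h.surj' (c i)
  choose b hb using hb
  refine ⟨fun i => dliToRange (L := L) (F := F) (b i : F'), fun i => h.alpha_mem₁ (b i), ?_⟩
  set s : ↥g₂.O := ∑ i, (⟨algebraMap F' F (b i : F'), h.alpha_mem₂ (b i)⟩ : ↥g₂.O) *
      (⟨I.Y, h.Y_mem₂⟩ : ↥g₂.O) ^ (i : ℕ) with hs
  have hsres : g₂.res s = g₂.res ⟨x, hx⟩ := by
    rw [hc, hs, map_sum]
    refine Finset.sum_congr rfl fun i _ => ?_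
    rw [map_mul, map_pow, h.res_alpha₂, h.res_Y₂, hb i]
  have hscoe : ((s : ↥g₂.O) : F) = ∑ i, algebraMap F' F (b i : F') * I.Y ^ (i : ℕ) := by
    rw [hs, AddSubmonoidClass.coe_finsetSum]
    rfl
  have h0 : g₂.res ⟨x - (s : F), g₂.O.sub_mem hx s.2⟩ = 0 := by
    rw [g₂.res_sub' hx s.2, ← hsres, sub_self]
  obtain ⟨y, hy, hxy⟩ := g₂.exists_eq_pi_mul _ h0
  refine ⟨y, hy, ?_⟩
  rw [← hxy]
  show x = ∑ i, algebraMap F' F (b i : F') * I.Y ^ (i : ℕ) + (x - (s : F))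
  rw [← hscoe]
  ring

include h in
/-- **the trace of the residue extension at `g₂` vanishes** -/
theorem tr₂ (c : F) (hc : c ∈ g₂.O) (C : Matrix (Fin I.q) (Fin I.q) ↥(dliRange L F' F))
    (hC : ∀ i j, C i j ∈ (g₁.restrict (dliRange L F' F)).O)
    (hcC : ∀ j : Fin I.q, ∃ y ∈ g₂.O, c * I.Y ^ (j : ℕ) =
      ∑ i, ((C i j : ↥(dliRange L F' F)) : F) * I.Y ^ (i : ℕ) + g₂.pi * y) :
    ∃ t ∈ (g₁.restrict (dliRange L F' F)).O,
      C.trace = (g₁.restrict (dliRange L F' F)).pi * t := by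
  have hb : ∀ i j, ∃ b : ↥I.d'.Ov,
      algebraMap F' F (b : F') = ((C i j : ↥(dliRange L F' F)) : F) :=
    fun i j => h.exists_of_mem₁ (C i j) (hC i j)
  choose b hb using hb
  -- the residue relation
  have hrel : ∀ j : Fin I.q, g₂.res ⟨c, hc⟩ * I.y₂ ^ (j : ℕ) =
      ∑ i, I.Φ (I.d'.res (b i j)) * I.y₂ ^ (i : ℕ) := by
    intro j
    obtain ⟨y, hy, hcy⟩ := hcC j
    have hs : (⟨c, hc⟩ : ↥g₂.O) * (⟨I.Y, h.Y_mem₂⟩ : ↥g₂.O) ^ (j : ℕ) =
        (∑ i, (⟨algebraMap F' F (b i j : F'), h.alpha_mem₂ (b i j)⟩ : ↥g₂.O) *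
          (⟨I.Y, h.Y_mem₂⟩ : ↥g₂.O) ^ (i : ℕ)) + ⟨g₂.pi, g₂.pi_mem⟩ * ⟨y, hy⟩ := by
      apply Subtype.ext
      rw [Subring.coe_add, AddSubmonoidClass.coe_finsetSum]
      show c * I.Y ^ (j : ℕ) = ∑ i, algebraMap F' F (b i j : F') * I.Y ^ (i : ℕ) + g₂.pi * y
      rw [hcy]
      congr 1
      exact Finset.sum_congr rfl fun i _ => by rw [hb i j]
    have hs' := congrArg g₂.res hs
    rw [map_mul, map_pow, h.res_Y₂, map_add, map_mul, g₂.res_pi, zero_mul, add_zero,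
      map_sum] at hs'
    rw [hs']
    refine Finset.sum_congr rfl fun i _ => ?_
    rw [map_mul, map_pow, h.res_alpha₂, h.res_Y₂]
  have htr := dli_trace_zero h.prime h.char I.Φ I.y₂
    (by obtain ⟨J', hJ'⟩ := h.Ypow; exact ⟨_, hJ'⟩) h.ind h.span_res (g₂.res ⟨c, hc⟩)
    (Matrix.of fun i j => I.d'.res (b i j)) hrel
  -- the trace of `C` has zero residue at `g₁`
  have hmem : ((C.trace : ↥(dliRange L F' F)) : F) ∈ g₁.O := by
    rw [Matrix.trace, AddSubmonoidClass.coe_finsetSum]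
    exact g₁.O.sum_mem fun i _ => hC i i
  refine h.exists_pi_mul_of_res₁ C.trace hmem ?_
  have h1 : ((C.trace : ↥(dliRange L F' F)) : F) =
      algebraMap F' F ((∑ i, b i i : ↥I.d'.Ov) : F') := by
    rw [Matrix.trace, AddSubmonoidClass.coe_finsetSum, AddSubmonoidClass.coe_finsetSum, map_sum]
    exact Finset.sum_congr rfl fun i _ => (hb i i).symm
  rw [g₁.res_congr _ h1, h.res_alpha₁, map_sum]
  exact htr

include h in
/-- the degree -/
theorem finrank_eq : Module.finrank ↥(dliRange L F' F) F = I.q + 1 := by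
  rw [dli_finrank_range]
  refine le_antisymm I.deg_le ?_
  haveI := I.fin
  have hli : LinearIndependent F' (fun l : Fin (I.q + 1) => I.Y ^ (l : ℕ)) := by
    rw [Fintype.linearIndependent_iff]
    intro a ha
    refine I.eq_zero_of_sum_eq_zero a ?_
    rw [← ha]
    exact Finset.sum_congr rfl fun l _ => by rw [Algebra.smul_def]
  have := hli.fintype_card_le_finrank
  rwa [Fintype.card_fin] at this

include h in
/-- the separating element `f₀ ≡ (1, 0)` -/
theorem exists_f₀ : ∃ f₀ : F, ∃ (h₁ : f₀ ∈ g₁.O) (h₂ : f₀ ∈ g₂.O),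
    g₁.res ⟨f₀, h₁⟩ = 1 ∧ g₂.res ⟨f₀, h₂⟩ = 0 := by
  obtain ⟨f, hf⟩ := h.surj ((1 : ↥E), (0 : ↥E))
  refine ⟨(f : F), (h.O₁ _).2 f.2.1, (h.O₂ _).2 f.2.2, ?_, ?_⟩
  · apply Subtype.ext
    rw [h.res₁]
    have h1 : (I.res f).1 = 1 := by rw [hf]
    rw [← h1]
    rfl
  · apply Subtype.ext
    rw [h.res₂]
    have h1 : (I.res f).2 = 0 := by rw [hf]
    rw [← h1]
    rfl

/-- **the ferocious datum of a Kronecker input** -/
noncomputable def ferocious : DliFerocious I.q g₁ g₂ (dliRange L F' F) ↥E where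
  gE := g₁.restrict (dliRange L F' F)
  mem₁ := fun e => Iff.rfl
  mem₂ := fun e => h.mem₂_iff e
  one₁ := fun x hx => by
    obtain ⟨b, hb⟩ := h.surj' (g₁.res ⟨x, hx⟩)
    refine ⟨dliToRange (L := L) (F := F) (b : F'), h.alpha_mem₁ b, ?_⟩
    refine (g₁.res_sub' hx (h.alpha_mem₁ b)).trans ?_
    rw [h.res_alpha₁, hb, sub_self]
  f₀ := h.exists_f₀.choose
  f₀_mem₁ := h.exists_f₀.choose_spec.choose
  f₀_mem₂ := h.exists_f₀.choose_spec.choose_spec.choose
  f₀_res₁ := h.exists_f₀.choose_spec.choose_spec.choose_spec.1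
  f₀_res₂ := h.exists_f₀.choose_spec.choose_spec.choose_spec.2
  β := fun i => I.Y ^ (i : ℕ)
  β_mem₁ := fun i => g₁.O.pow_mem h.Y_mem₁ _
  β_mem₂ := fun i => g₂.O.pow_mem h.Y_mem₂ _
  ind₂ := fun r hr hy => h.ind₂ r hr hy
  span₂ := fun x hx => h.span₂ x hx
  tr₂ := fun c hc C hC hcC => h.tr₂ c hc C hC hcC
  deg := h.finrank_eq

include h in
/-- **the norm to the lower level raises the level** -/
theorem norm_raises : DlNormRaises g₁ g₂ (dliRange L F' F) := dli_norm_raises h.ferocious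

end DliKron

end Kron

end Fermat.Agent.Delta
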