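/-
DELTA / I1 (helper9), part 18: **transport of "the norm raises the level" by an automorphism**.

`σ : F ≃ₐ[K] F`, places `g₁' = g₁ ∘ σ`, `g₂' = g₂ ∘ σ` (only the valuation rings matter):
`DlNormRaises g₁ g₂ E → DlNormRaises g₁' g₂' (E.map σ.symm)` (`dli_norm_raises_swap`), with the
transport of the degree (`dli_finrank_map`) and of the norm condition (`dli_norm_cond_map`).
Applied with `σ = w` (Atkin–Lehner), `g₁ = v_∞`, `g₂ = v_0`: the second norm relation of `dli_toric`.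
-/
import Fermat.Agent.Lib.Delta.Toric.Place

set_option autoImplicit false
set_option linter.unusedSectionVars false
set_option linter.unusedVariables false
set_option linter.style.haveILetI false

namespace Fermat.Agent.Delta

open Module

variable {K k : Type*} [Field K] [Field k] {B : DlBase K k} {F κ κ' : Type*} [Field F]
  [Algebra K F] [Field κ] [Algebra k κ] [Field κ'] [Algebra k κ']

/-- the unit filtration of `g' = g ∘ σ` -/
theorem dli_oneMod_of_equiv (σ : F ≃ₐ[K] F) (g : DlPlace B F κ) (g' : DlPlace B F κ')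
    (hO : ∀ f : F, f ∈ g'.O ↔ σ f ∈ g.O) (n : ℕ) (x : F) :
    g'.OneMod n x ↔ g.OneMod n (σ x) := by
  have hpi : σ g'.pi = g.pi := σ.commutes B.ϖ
  constructor
  · rintro ⟨b, hb, rfl⟩
    refine ⟨σ b, (hO b).1 hb, ?_⟩
    rw [map_add, map_one, map_mul, map_pow, hpi]
  · rintro ⟨b, hb, hx⟩
    refine ⟨σ.symm b, (hO _).2 (by rw [AlgEquiv.apply_symm_apply]; exact hb), ?_⟩
    apply σ.injective
    rw [hx, map_add, map_one, map_mul, map_pow, hpi, AlgEquiv.apply_symm_apply]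

variable (σ : F ≃ₐ[K] F) (E : IntermediateField K F)

/-- `σ : σ⁻¹ E → E` -/
noncomputable def dliMapEquiv : ↥(E.map (σ.symm : F →ₐ[K] F)) ≃+* ↥E :=
  (E.equivMap (σ.symm : F →ₐ[K] F)).symm.toRingEquiv

theorem coe_dliMapEquiv_symm (e : ↥E) :
    (((dliMapEquiv σ E).symm e : ↥(E.map (σ.symm : F →ₐ[K] F))) : F) = σ.symm (e : F) := rfl

theorem coe_dliMapEquiv (e : ↥(E.map (σ.symm : F →ₐ[K] F))) :
    ((dliMapEquiv σ E e : ↥E) : F) = σ (e : F) := by
  have h := coe_dliMapEquiv_symm σ E (dliMapEquiv σ E e)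
  rw [RingEquiv.symm_apply_apply] at h
  rw [h, AlgEquiv.apply_symm_apply]

theorem dli_map_comm :
    (algebraMap ↥E F).comp (dliMapEquiv σ E : ↥(E.map (σ.symm : F →ₐ[K] F)) →+* ↥E) =
      ((σ.toRingEquiv : F ≃+* F) : F →+* F).comp
        (algebraMap ↥(E.map (σ.symm : F →ₐ[K] F)) F) := by
  ext e
  exact coe_dliMapEquiv σ E e

/-- the degree of `F` over `σ⁻¹ E` -/
theorem dli_finrank_map : finrank ↥(E.map (σ.symm : F →ₐ[K] F)) F = finrank ↥E F :=
  Algebra.finrank_eq_of_equiv_equiv (dliMapEquiv σ E) σ.toRingEquiv (dli_map_comm σ E)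

/-- the norm to `σ⁻¹ E` -/
theorem dli_norm_map (z : F) :
    Algebra.norm ↥(E.map (σ.symm : F →ₐ[K] F)) z =
      (dliMapEquiv σ E).symm (Algebra.norm ↥E (σ z)) :=
  Algebra.norm_eq_of_equiv_equiv (dliMapEquiv σ E) σ.toRingEquiv (dli_map_comm σ E) z

theorem dli_sigma_norm_map (z : F) :
    σ (algebraMap ↥(E.map (σ.symm : F →ₐ[K] F)) F
      (Algebra.norm ↥(E.map (σ.symm : F →ₐ[K] F)) z)) =
      algebraMap ↥E F (Algebra.norm ↥E (σ z)) := by
  rw [dli_norm_map]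
  show σ (σ.symm _) = _
  rw [AlgEquiv.apply_symm_apply]
  rfl

/-- **transport of "the norm raises the level"** -/
theorem dli_norm_raises_swap {g₁ g₁' : DlPlace B F κ} {g₂ g₂' : DlPlace B F κ'}
    (h₁ : ∀ f : F, f ∈ g₁'.O ↔ σ f ∈ g₁.O) (h₂ : ∀ f : F, f ∈ g₂'.O ↔ σ f ∈ g₂.O)
    (hN : DlNormRaises g₁ g₂ E) : DlNormRaises g₁' g₂' (E.map (σ.symm : F →ₐ[K] F)) := by
  intro n z hn hz hz1
  have hσz : σ z ≠ 0 := fun h0 => hz (by
    have := congrArg σ.symm h0
    simpa using this)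
  have h := hN n (σ z) hn hσz ((dli_oneMod_of_equiv σ g₂ g₂' h₂ n z).1 hz1)
  rw [dli_oneMod_of_equiv σ g₁ g₁' h₁, map_div₀, dli_sigma_norm_map]
  exact h

/-- transport of the norm condition -/
theorem dli_norm_cond_map {p : ℕ} {z : F}
    (h : ∃ c : K, c ≠ 0 ∧ ∃ y : ↥E, Algebra.norm ↥E (σ z) = algebraMap K ↥E c * y ^ p) :
    ∃ c : K, c ≠ 0 ∧ ∃ y : ↥(E.map (σ.symm : F →ₐ[K] F)),
      Algebra.norm ↥(E.map (σ.symm : F →ₐ[K] F)) z =
        algebraMap K ↥(E.map (σ.symm : F →ₐ[K] F)) c * y ^ p := by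
  obtain ⟨c, hc, y, hy⟩ := h
  refine ⟨c, hc, (dliMapEquiv σ E).symm y, ?_⟩
  rw [dli_norm_map, hy, map_mul, map_pow]
  congr 1
  apply Subtype.ext
  rw [coe_dliMapEquiv_symm]
  show σ.symm (algebraMap K F c) = algebraMap K F c
  exact σ.symm.commutes c

end Fermat.Agent.Delta
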