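/-
DELTA / I1 (helper9), part 19: **the two norm relations at a DVR level**.

`(L, O, π, k)`, `char k = q`, `N'` invertible in `k`, `F' = TaF L N' ⊆ F = TaF L (N' * q)` (via
`heckeAlphaBar`), `W : T2iAL L N' q`, `Fr : T2iFrob k N' q`, `g₁ = v_∞ = dliInf …`,
`g₂ = v_0 = dliZero …`:
* `dliE1 L N' q = dliRange L F' F` : the subfield of level `N'` (`finrank = q + 1`);
* `dli_kron : DliKron (t2iInput …) (dliInf …) (dliZero …)`;
* **`dli_norm_raises_inf : DlNormRaises v_∞ v_0 E₁`**;
* **`dli_norm_raises_zero : DlNormRaises v_0 v_∞ E₂`**, `E₂ = dliE2 W = w⁻¹ E₁`, with the degree.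
-/
import Fermat.Agent.Lib.Delta.Toric.NormKron
import Fermat.Agent.Lib.Delta.Toric.NormSwap
import Fermat.Agent.Lib.Delta.Toric.InstGen
import Fermat.Agent.Lib.T2.Inst.KronSer

set_option autoImplicit false
set_option linter.unusedSectionVars false
set_option linter.unusedVariables false
set_option linter.style.haveILetI false
set_option synthInstance.maxHeartbeats 400000

open HahnSeries ModularCurve Fermat.Agent.T1 Fermat.Agent.T2 Module

noncomputable section

namespace Fermat.Agent.Delta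

attribute [local instance] t2iAlgebra t2i_isScalarTower

variable {L : Type*} [Field L] [Algebra ℚ L] (O : ValuationSubring L) {k : Type*} [Field k]
  (π : ↥O →+* k) [IsDiscreteValuationRing ↥O] (hπ : Function.Surjective π) [IsAlgClosed k]
  {N' q : ℕ} [NeZero N'] [hq : Fact q.Prime] [CharP k q] (hN' : (N' : k) ≠ 0)
  (W : T2iAL L N' q) (Fr : T2iFrob k N' q) {ϖ : ↥O} (hϖ : Irreducible ϖ)

/-- the subfield of level `N'` of `F = TaF L (N' * q)` -/
abbrev dliE1 (L : Type*) [Field L] [Algebra ℚ L] (N' q : ℕ) [NeZero N'] [NeZero q] :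
    IntermediateField L ↥(TaF L (N' * q)) :=
  dliRange L ↥(TaF L N') ↥(TaF L (N' * q))

/-- the second subfield of level `N'`: `w⁻¹ E₁` -/
abbrev dliE2 : IntermediateField L ↥(TaF L (N' * q)) :=
  (dliE1 L N' q).map (W.w.symm : ↥(TaF L (N' * q)) →ₐ[L] ↥(TaF L (N' * q)))

/-- independence of `1, j̄, …, j̄^(q-1)` over `Φ(E)` -/
theorem dli_kron_ind (c : Fin q → ↥(modularFunctionFieldFullC k N'))
    (hc : ∑ i, Fr.Φ (c i) * t2iJb k N' ^ (i : ℕ) = 0) : ∀ i, c i = 0 := by
  have h1 := congrArg (Subtype.val : ↥(modularFunctionFieldFullC k N') → LaurentSeries k) hc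
  rw [AddSubmonoidClass.coe_finsetSum, ZeroMemClass.coe_zero] at h1
  set c' : ℕ → LaurentSeries k := fun l =>
    if hl : l < q then ((c ⟨l, hl⟩ : ↥(modularFunctionFieldFullC k N')) : LaurentSeries k) else 0
    with hc'
  have h2 : ∑ l ∈ Finset.range q, qExpand k q (c' l) * jqModC k ^ l = 0 := by
    rw [← Fin.sum_univ_eq_sum_range (fun l => qExpand k q (c' l) * jqModC k ^ l) q, ← h1]
    refine Finset.sum_congr rfl fun i _ => ?_
    rw [MulMemClass.coe_mul, SubmonoidClass.coe_pow, Fr.coe_Φ, hc']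
    simp only [i.2, dif_pos]
    rfl
  intro i
  have h3 := t2kr_indep q c' h2 i (Finset.mem_range.2 i.2)
  rw [hc'] at h3
  simp only [i.2, dif_pos] at h3
  exact Subtype.ext h3

/-- **the link between the Kronecker input and the two Gauss places** -/
theorem dli_kron :
    DliKron (t2iInput O π hπ hN' W Fr) (dliInf O π hπ hN' W Fr hϖ) (dliZero O π hπ hN' W Fr hϖ) where
  hA := rfl
  O₁ := fun f => Iff.rfl
  res₁ := fun f hf => rfl
  O₂ := fun f => Iff.rfl
  res₂ := fun f hf => rfl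
  surj := t2i_res_surjective O π hπ hN' W Fr
  surj' := t2iBase_res_surjective O π hπ N' hN'
  prime := hq.out
  char := by
    have h1 : ((q : ℕ) : ↥(modularFunctionFieldFullC k N')) =
        algebraMap k ↥(modularFunctionFieldFullC k N') ((q : ℕ) : k) := by
      rw [map_natCast]
    show ((q : ℕ) : ↥(modularFunctionFieldFullC k N')) = 0
    rw [h1, CharP.cast_eq_zero, map_zero]
  Ypow := by
    refine ⟨⟨taJ N', taJ_mem_taOv O π hπ N'⟩, ?_⟩
    apply Subtype.ext
    show ((Fr.Φ _ : ↥(modularFunctionFieldFullC k N')) : LaurentSeries k) = _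
    rw [Fr.coe_Φ]
    show qExpand k q (taResN O π hπ N' ⟨taJ N', taJ_mem_taOv O π hπ N'⟩) = (jqModC k) ^ q
    rw [taResN_taJ, t2i_jq_pow]
  ind := dli_kron_ind Fr

/-- **the norm to the level `N'` raises the level from `v_0` to `v_∞`** -/
theorem dli_norm_raises_inf :
    DlNormRaises (dliInf O π hπ hN' W Fr hϖ) (dliZero O π hπ hN' W Fr hϖ) (dliE1 L N' q) :=
  (dli_kron O π hπ hN' W Fr hϖ).norm_raises

include O π hπ hN' W Fr in
theorem dli_finrank_E1 : finrank ↥(dliE1 L N' q) ↥(TaF L (N' * q)) = q + 1 := by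
  obtain ⟨ϖ, hϖ⟩ := IsDiscreteValuationRing.exists_irreducible ↥O
  exact (dli_kron O π hπ hN' W Fr hϖ).finrank_eq

include O π hπ hN' Fr in
theorem dli_finrank_E2 : finrank ↥(dliE2 W) ↥(TaF L (N' * q)) = q + 1 := by
  rw [dliE2, dli_finrank_map]
  exact dli_finrank_E1 O π hπ hN' W Fr

/-- **the norm to the second copy of the level `N'` raises the level from `v_∞` to `v_0`** -/
theorem dli_norm_raises_zero :
    DlNormRaises (dliZero O π hπ hN' W Fr hϖ) (dliInf O π hπ hN' W Fr hϖ) (dliE2 W) := by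
  refine dli_norm_raises_swap W.w (dliE1 L N' q) (g₁ := dliInf O π hπ hN' W Fr hϖ)
    (g₂ := dliZero O π hπ hN' W Fr hϖ) (fun f => Iff.rfl) (fun f => ?_)
    (dli_norm_raises_inf O π hπ hN' W Fr hϖ)
  show f ∈ taOv O π hπ (N' * q) ↔ W.w (W.w f) ∈ taOv O π hπ (N' * q)
  rw [W.w_w]

end Fermat.Agent.Delta
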