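/-
DELTA / I1 (helper9), part 20: **the two norm relations at an inertia level `L_H = tbFix 𝔓 H`**.

`F = tbLevF 𝔓 (N' * p) H`, `E₁ = dliE1H 𝔓 H N'` the subfield of level `N'` (image of `heckeAlphaBar`),
`E₂ = dliE2H 𝔓 H N' h = w⁻¹ E₁` (`w = (t2iALFix 𝔓 H N' h).w`), both of index `p + 1`:
* `dliH_norm_raises_inf : DlNormRaises (dliInfH …) (dliZeroH …) E₁`;
* `dliH_norm_raises_zero : DlNormRaises (dliZeroH …) (dliInfH …) E₂`;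
* `dliH_finrank_E1`, `dliH_finrank_E2`, finiteness instances; `dliH_norm_cond_E2` (the norm condition
  for `E₂` is the norm condition for `E₁` applied to `w z`).
These are the hypotheses `hd₁ hd₂ h₁ h₂` of `dli_toric`.
-/
import Fermat.Agent.Lib.Delta.Toric.NormInst
import Fermat.Agent.Lib.Delta.Toric.InstH

set_option autoImplicit false
set_option linter.unusedSectionVars false
set_option linter.unusedVariables false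
set_option linter.style.haveILetI false
set_option synthInstance.maxHeartbeats 400000

open HahnSeries ModularCurve Fermat.Agent.T1 Fermat.Agent.T2 Fermat.Agent.TW Fermat.Agent.S05Lib
  Module

noncomputable section

namespace Fermat.Agent.Delta

variable (𝔓 : FFPlace) (H : Subgroup 𝔓.I) [H.FiniteIndex]

attribute [local instance] t2i_dvr t2i_isAlgClosed t2i_charP t2i_fact

attribute [local instance 10000] dliAlgF dliAlgE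

variable {ϖ : ↥(tbFixO 𝔓 H)} (hϖ : Irreducible ϖ) (N' : ℕ) [NeZero N'] (h : ¬ 𝔓.p ∣ N')

/-- the subfield of level `N'` of `F = tbLevF 𝔓 (N' * p) H` -/
abbrev dliE1H : IntermediateField ↥(tbFix 𝔓 H) ↥(tbLevF 𝔓 (N' * 𝔓.p) H) :=
  dliE1 ↥(tbFix 𝔓 H) N' 𝔓.p

/-- the second subfield of level `N'` of `F`: `w⁻¹ E₁` -/
abbrev dliE2H : IntermediateField ↥(tbFix 𝔓 H) ↥(tbLevF 𝔓 (N' * 𝔓.p) H) :=
  dliE2 (t2iALFix 𝔓 H N' h)

/-- **the norm to `E₁` raises the level from `v_0` to `v_∞`** -/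
theorem dliH_norm_raises_inf :
    DlNormRaises (dliInfH 𝔓 H hϖ N' h) (dliZeroH 𝔓 H hϖ N' h) (dliE1H 𝔓 H N') :=
  dli_norm_raises_inf (tbFixO 𝔓 H) (tbFixRes 𝔓 H) (tbFixRes_surjective 𝔓 H)
    (t2i_natCast_ne_zero 𝔓 h) (t2iALFix 𝔓 H N' h) (t2iFrobFix 𝔓 N') hϖ

/-- **the norm to `E₂` raises the level from `v_∞` to `v_0`** -/
theorem dliH_norm_raises_zero :
    DlNormRaises (dliZeroH 𝔓 H hϖ N' h) (dliInfH 𝔓 H hϖ N' h) (dliE2H 𝔓 H N' h) :=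
  dli_norm_raises_zero (tbFixO 𝔓 H) (tbFixRes 𝔓 H) (tbFixRes_surjective 𝔓 H)
    (t2i_natCast_ne_zero 𝔓 h) (t2iALFix 𝔓 H N' h) (t2iFrobFix 𝔓 N') hϖ

include h in
theorem dliH_finrank_E1 :
    finrank ↥(dliE1H 𝔓 H N') ↥(tbLevF 𝔓 (N' * 𝔓.p) H) = 𝔓.p + 1 :=
  dli_finrank_E1 (tbFixO 𝔓 H) (tbFixRes 𝔓 H) (tbFixRes_surjective 𝔓 H)
    (t2i_natCast_ne_zero 𝔓 h) (t2iALFix 𝔓 H N' h) (t2iFrobFix 𝔓 N')

theorem dliH_finrank_E2 :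
    finrank ↥(dliE2H 𝔓 H N' h) ↥(tbLevF 𝔓 (N' * 𝔓.p) H) = 𝔓.p + 1 :=
  dli_finrank_E2 (tbFixO 𝔓 H) (tbFixRes 𝔓 H) (tbFixRes_surjective 𝔓 H)
    (t2i_natCast_ne_zero 𝔓 h) (t2iALFix 𝔓 H N' h) (t2iFrobFix 𝔓 N')

include h in
theorem dliH_finite_E1 : FiniteDimensional ↥(dliE1H 𝔓 H N') ↥(tbLevF 𝔓 (N' * 𝔓.p) H) :=
  Module.finite_of_finrank_pos (by rw [dliH_finrank_E1 𝔓 H N' h]; omega)

theorem dliH_finite_E2 : FiniteDimensional ↥(dliE2H 𝔓 H N' h) ↥(tbLevF 𝔓 (N' * 𝔓.p) H) :=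
  Module.finite_of_finrank_pos (by rw [dliH_finrank_E2 𝔓 H N' h]; omega)

/-- the norm condition for `E₂` is the norm condition for `E₁` applied to `w z` -/
theorem dliH_norm_cond_E2 {p : ℕ} {z : ↥(tbLevF 𝔓 (N' * 𝔓.p) H)}
    (hz : ∃ c : ↥(tbFix 𝔓 H), c ≠ 0 ∧ ∃ y : ↥(dliE1H 𝔓 H N'),
      Algebra.norm ↥(dliE1H 𝔓 H N') ((t2iALFix 𝔓 H N' h).w z) =
        algebraMap ↥(tbFix 𝔓 H) ↥(dliE1H 𝔓 H N') c * y ^ p) :
    ∃ c : ↥(tbFix 𝔓 H), c ≠ 0 ∧ ∃ y : ↥(dliE2H 𝔓 H N' h),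
      Algebra.norm ↥(dliE2H 𝔓 H N' h) z =
        algebraMap ↥(tbFix 𝔓 H) ↥(dliE2H 𝔓 H N' h) c * y ^ p :=
  dli_norm_cond_map (t2iALFix 𝔓 H N' h).w (dliE1H 𝔓 H N') hz

/-- membership in `E₁`: the functions coming from level `N'` -/
theorem mem_dliE1H (f : ↥(tbLevF 𝔓 (N' * 𝔓.p) H)) :
    f ∈ dliE1H 𝔓 H N' ↔ ∃ b : ↥(tbLevF 𝔓 N' H), heckeAlphaBar ↥(tbFix 𝔓 H) N' 𝔓.p b = f :=
  Iff.rfl

end Fermat.Agent.Delta
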