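/-
DELTA / I1 (helper9), part 15: **the tame level `H₁`**.

`H₁ = dliH1 𝔓 ≤ 𝔓.I` is the subgroup of the inertia group acting trivially on `μ_p` (`p = 𝔓.p`):
normal, of index `p - 1`.  Its fixed field `L₁ = tbFix 𝔓 H₁ = K₀(ζ_p)` contains a primitive `p`-th
root of unity `ζ = dliZeta 𝔓`; `ϖ₁ = dliPi1 𝔓 = 1 - ζ` is a uniformiser of `O₁ = tbFixO 𝔓 H₁`
(`dliPi1_irreducible`), and `p = η · ϖ₁ ^ (p - 1)` with `η = dliEta 𝔓` a unit of `O₁` (`dli_p_eq`).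
This is the base over which `dli_toric` is applied.
-/
import Fermat.Agent.Lib.Delta.Toric.InstH
import Fermat.Agent.Lib.Delta.Peu.Sums

set_option autoImplicit false
set_option linter.unusedSectionVars false
set_option linter.unusedVariables false
set_option linter.style.haveILetI false

open Fermat.Agent.T1 Fermat.Agent.TW Fermat.Agent.S05Lib

noncomputable section

namespace Fermat.Agent.Delta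

local notation "Qb" => AlgebraicClosure ℚ
local notation "GQ" => (AlgebraicClosure ℚ ≃ₐ[ℚ] AlgebraicClosure ℚ)

variable (𝔓 : FFPlace)

/-- **the tame level**: the elements of the inertia group acting trivially on `μ_p` -/
def dliH1 : Subgroup 𝔓.I where
  carrier := {σ | ∀ ζ : Qb, ζ ^ 𝔓.p = 1 → ((σ : 𝔓.I) : GQ) ζ = ζ}
  one_mem' := fun ζ _ => rfl
  mul_mem' := by
    intro a b ha hb ζ hζ
    show ((a : GQ) * (b : GQ)) ζ = ζ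
    rw [AlgEquiv.mul_apply, hb ζ hζ, ha ζ hζ]
  inv_mem' := by
    intro a ha ζ hζ
    show ((a : GQ)⁻¹) ζ = ζ
    have h1 := ha ζ hζ
    calc ((a : GQ)⁻¹) ζ = ((a : GQ)⁻¹) ((a : GQ) ζ) := by rw [h1]
      _ = ((a : GQ)⁻¹ * (a : GQ)) ζ := rfl
      _ = ζ := by rw [inv_mul_cancel]; rfl

theorem mem_dliH1 {σ : 𝔓.I} :
    σ ∈ dliH1 𝔓 ↔ ∀ ζ : Qb, ζ ^ 𝔓.p = 1 → ((σ : 𝔓.I) : GQ) ζ = ζ := Iff.rfl

/-- it is enough to fix one primitive root -/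
theorem mem_dliH1_iff {ζ : Qb} (hζ : IsPrimitiveRoot ζ 𝔓.p) {σ : 𝔓.I} :
    σ ∈ dliH1 𝔓 ↔ ((σ : 𝔓.I) : GQ) ζ = ζ := by
  refine ⟨fun h => h ζ hζ.pow_eq_one, fun h ξ hξ => ?_⟩
  obtain ⟨i, -, rfl⟩ := hζ.eq_pow_of_pow_eq_one hξ
  rw [map_pow, h]

instance dliH1_normal : (dliH1 𝔓).Normal := by
  refine ⟨fun σ hσ τ ζ hζ => ?_⟩
  show ((τ : GQ) * (σ : GQ) * (τ : GQ)⁻¹) ζ = ζ
  have h1 : ((τ : GQ)⁻¹ ζ) ^ 𝔓.p = 1 := by rw [← map_pow, hζ, map_one]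
  have h2 := hσ _ h1
  calc ((τ : GQ) * (σ : GQ) * (τ : GQ)⁻¹) ζ = (τ : GQ) ((σ : GQ) ((τ : GQ)⁻¹ ζ)) := rfl
    _ = (τ : GQ) ((τ : GQ)⁻¹ ζ) := by rw [h2]
    _ = ((τ : GQ) * (τ : GQ)⁻¹) ζ := rfl
    _ = ζ := by rw [mul_inv_cancel]; rfl

instance dli_neZero_p : NeZero ((𝔓.p : ℕ) : ℚ) := ⟨by exact_mod_cast 𝔓.hp.ne_zero⟩

/-- a primitive `p`-th root of unity -/
def dliZeta : Qb := (HasEnoughRootsOfUnity.exists_primitiveRoot Qb 𝔓.p).choose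

theorem dliZeta_prim : IsPrimitiveRoot (dliZeta 𝔓) 𝔓.p :=
  (HasEnoughRootsOfUnity.exists_primitiveRoot Qb 𝔓.p).choose_spec

/-- `H₁` is the stabiliser of any primitive root -/
theorem dliH1_eq_stabilizer {ζ : Qb} (hζ : IsPrimitiveRoot ζ 𝔓.p) :
    dliH1 𝔓 = MulAction.stabilizer ↥𝔓.I ζ := by
  ext σ
  rw [mem_dliH1_iff 𝔓 hζ, MulAction.mem_stabilizer_iff]
  rfl

instance dliH1_finiteIndex : (dliH1 𝔓).FiniteIndex := by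
  rw [dliH1_eq_stabilizer 𝔓 (dliZeta_prim 𝔓)]
  exact tb_finiteIndex_stabilizer 𝔓 _

/-- the index of `H₁` is at most `p - 1` -/
theorem dliH1_index_le : (dliH1 𝔓).index ≤ 𝔓.p - 1 := by
  classical
  have hζ := dliZeta_prim 𝔓
  rw [dliH1_eq_stabilizer 𝔓 hζ, MulAction.index_stabilizer]
  have hsub : MulAction.orbit ↥𝔓.I (dliZeta 𝔓) ⊆ ↑(primitiveRoots 𝔓.p Qb) := by
    rintro _ ⟨σ, rfl⟩
    rw [Finset.mem_coe, mem_primitiveRoots 𝔓.hp.pos]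
    exact hζ.map_of_injective (f := ((σ : 𝔓.I) : GQ)) (AlgEquiv.injective _)
  calc (MulAction.orbit ↥𝔓.I (dliZeta 𝔓)).ncard
      ≤ (↑(primitiveRoots 𝔓.p Qb) : Set Qb).ncard :=
        Set.ncard_le_ncard hsub (Finset.finite_toSet _)
    _ = (primitiveRoots 𝔓.p Qb).card := Set.ncard_coe_finset _
    _ = 𝔓.p - 1 := by rw [hζ.card_primitiveRoots, Nat.totient_prime 𝔓.hp]

theorem dliZeta_mem : dliZeta 𝔓 ∈ tbFix 𝔓 (dliH1 𝔓) := by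
  rw [mem_tbFix]
  intro σ hσ
  exact hσ _ (dliZeta_prim 𝔓).pow_eq_one

/-- `ord (1 - ζ) = 1 / (p - 1)` -/
theorem dli_is_one_sub_zeta : 𝔓.v.Is (1 - dliZeta 𝔓) (1 / ((𝔓.p : ℚ) - 1)) := by
  have h := dlp_is_zeta_pow_sub_one (v := 𝔓.v) 𝔓.hp (dliZeta_prim 𝔓) 𝔓.is_p (m := 1)
    (fun h => 𝔓.hp.one_lt.ne' (Nat.dvd_one.mp h))
  rw [pow_one] at h
  have := h.neg
  rwa [neg_sub] at this

theorem dli_p_sub_one_pos : (0 : ℚ) < (𝔓.p : ℚ) - 1 := by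
  have : (1 : ℚ) < 𝔓.p := by exact_mod_cast 𝔓.hp.one_lt
  linarith

/-- the index of `H₁` is exactly `p - 1` -/
theorem dliH1_index : (dliH1 𝔓).index = 𝔓.p - 1 := by
  refine le_antisymm (dliH1_index_le 𝔓) ?_
  have h0 : (⟨1 - dliZeta 𝔓, (tbFix 𝔓 (dliH1 𝔓)).sub_mem (tbFix 𝔓 (dliH1 𝔓)).one_mem
      (dliZeta_mem 𝔓)⟩ : ↥(tbFix 𝔓 (dliH1 𝔓))) ≠ 0 := by
    intro h
    exact (dli_is_one_sub_zeta 𝔓).ne_zero (congrArg Subtype.val h)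
  obtain ⟨n, hn⟩ := tb_index_mul_ord 𝔓 (dliH1 𝔓) _ h0
  have hord : 𝔓.v.ord (1 - dliZeta 𝔓) = 1 / ((𝔓.p : ℚ) - 1) := (dli_is_one_sub_zeta 𝔓).ord_eq
  simp only [] at hn
  rw [hord] at hn
  have hpos := dli_p_sub_one_pos 𝔓
  have hidx : (0 : ℚ) < (dliH1 𝔓).index := by exact_mod_cast tb_index_pos 𝔓 (dliH1 𝔓)
  have hn1 : (1 : ℤ) ≤ n := by
    have : (0 : ℚ) < n := by
      rw [← hn]; positivity
    exact_mod_cast this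
  have h2 : ((dliH1 𝔓).index : ℚ) = n * ((𝔓.p : ℚ) - 1) := by
    field_simp at hn
    linarith
  have h3 : ((𝔓.p : ℚ) - 1) ≤ ((dliH1 𝔓).index : ℚ) := by
    rw [h2]
    have : (1 : ℚ) ≤ n := by exact_mod_cast hn1
    nlinarith
  have h4 : ((𝔓.p - 1 : ℕ) : ℚ) = (𝔓.p : ℚ) - 1 := by
    rw [Nat.cast_sub 𝔓.hp.one_lt.le, Nat.cast_one]
  rw [← h4] at h3
  exact_mod_cast h3

/-- orders at the tame level lie in `(1/(p-1)) ℤ` -/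
theorem dli_tame_ord (z : ↥(tbFix 𝔓 (dliH1 𝔓))) (hz : z ≠ 0) :
    ∃ n : ℤ, ((𝔓.p : ℚ) - 1) * 𝔓.v.ord (z : Qb) = n := by
  obtain ⟨n, hn⟩ := tb_index_mul_ord 𝔓 (dliH1 𝔓) z hz
  refine ⟨n, ?_⟩
  rw [← hn, dliH1_index, Nat.cast_sub 𝔓.hp.one_lt.le, Nat.cast_one]

/-- `ζ_p` as an element of `L₁` -/
def dliZeta1 : ↥(tbFix 𝔓 (dliH1 𝔓)) := ⟨dliZeta 𝔓, dliZeta_mem 𝔓⟩

theorem dliZeta1_prim : IsPrimitiveRoot (dliZeta1 𝔓) 𝔓.p :=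
  IsPrimitiveRoot.of_map_of_injective (f := (tbFix 𝔓 (dliH1 𝔓)).val)
    (by exact dliZeta_prim 𝔓) Subtype.val_injective

/-- **the uniformiser `1 - ζ_p`** of the tame level -/
def dliPi1 : ↥(tbFixO 𝔓 (dliH1 𝔓)) :=
  ⟨1 - dliZeta1 𝔓, by
    rw [mem_tbFixO]
    exact ((dli_is_one_sub_zeta 𝔓).ge).mono (by
      have := dli_p_sub_one_pos 𝔓
      positivity)⟩

@[simp] theorem coe_dliPi1 :
    (((dliPi1 𝔓 : ↥(tbFixO 𝔓 (dliH1 𝔓))) : ↥(tbFix 𝔓 (dliH1 𝔓))) : Qb) = 1 - dliZeta 𝔓 := rfl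

theorem dliPi1_is : 𝔓.v.Is (((dliPi1 𝔓 : ↥(tbFixO 𝔓 (dliH1 𝔓))) : ↥(tbFix 𝔓 (dliH1 𝔓))) : Qb)
    (1 / ((𝔓.p : ℚ) - 1)) := dli_is_one_sub_zeta 𝔓

/-- **`1 - ζ_p` is a uniformiser of `O₁`** -/
theorem dliPi1_irreducible : Irreducible (dliPi1 𝔓) := by
  have hpos := dli_p_sub_one_pos 𝔓
  rw [irreducible_iff]
  constructor
  · intro hu
    obtain ⟨b, hb⟩ := isUnit_iff_exists_inv.mp hu
    have hb' : (1 - dliZeta 𝔓) * (((b : ↥(tbFixO 𝔓 (dliH1 𝔓))) : ↥(tbFix 𝔓 (dliH1 𝔓))) : Qb) = 1 := by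
      have := congrArg (fun t : ↥(tbFixO 𝔓 (dliH1 𝔓)) => ((t : ↥(tbFix 𝔓 (dliH1 𝔓))) : Qb)) hb
      simpa using this
    have hbge : 𝔓.v.Ge (((b : ↥(tbFixO 𝔓 (dliH1 𝔓))) : ↥(tbFix 𝔓 (dliH1 𝔓))) : Qb) 0 :=
      (mem_tbFixO 𝔓 (dliH1 𝔓) _).1 b.2
    have h1 := ((dli_is_one_sub_zeta 𝔓).gt (s := 0) (by positivity)).mul_ge hbge
    rw [hb', add_zero] at h1
    exact QVal.is_one.not_gt h1 le_rfl
  · intro a b hab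
    have hab' : (1 - dliZeta 𝔓) = (((a : ↥(tbFixO 𝔓 (dliH1 𝔓))) : ↥(tbFix 𝔓 (dliH1 𝔓))) : Qb) *
        (((b : ↥(tbFixO 𝔓 (dliH1 𝔓))) : ↥(tbFix 𝔓 (dliH1 𝔓))) : Qb) := by
      have := congrArg (fun t : ↥(tbFixO 𝔓 (dliH1 𝔓)) => ((t : ↥(tbFix 𝔓 (dliH1 𝔓))) : Qb)) hab
      simpa using this
    have hne : (1 - dliZeta 𝔓) ≠ 0 := (dli_is_one_sub_zeta 𝔓).ne_zero
    have ha0 : (((a : ↥(tbFixO 𝔓 (dliH1 𝔓))) : ↥(tbFix 𝔓 (dliH1 𝔓))) : Qb) ≠ 0 := by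
      intro h; rw [h, zero_mul] at hab'; exact hne hab'
    have hb0 : (((b : ↥(tbFixO 𝔓 (dliH1 𝔓))) : ↥(tbFix 𝔓 (dliH1 𝔓))) : Qb) ≠ 0 := by
      intro h; rw [h, mul_zero] at hab'; exact hne hab'
    have ha0' : (a : ↥(tbFix 𝔓 (dliH1 𝔓))) ≠ 0 := fun h => ha0 (by rw [h]; rfl)
    have hb0' : (b : ↥(tbFix 𝔓 (dliH1 𝔓))) ≠ 0 := fun h => hb0 (by rw [h]; rfl)
    obtain ⟨m, hm⟩ := dli_tame_ord 𝔓 _ ha0'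
    obtain ⟨n, hn⟩ := dli_tame_ord 𝔓 _ hb0'
    have hage : 0 ≤ 𝔓.v.ord (((a : ↥(tbFixO 𝔓 (dliH1 𝔓))) : ↥(tbFix 𝔓 (dliH1 𝔓))) : Qb) :=
      ((mem_tbFixO 𝔓 (dliH1 𝔓) _).1 a.2).resolve_left ha0
    have hbge : 0 ≤ 𝔓.v.ord (((b : ↥(tbFixO 𝔓 (dliH1 𝔓))) : ↥(tbFix 𝔓 (dliH1 𝔓))) : Qb) :=
      ((mem_tbFixO 𝔓 (dliH1 𝔓) _).1 b.2).resolve_left hb0
    have hsum : 𝔓.v.ord (((a : ↥(tbFixO 𝔓 (dliH1 𝔓))) : ↥(tbFix 𝔓 (dliH1 𝔓))) : Qb) +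
        𝔓.v.ord (((b : ↥(tbFixO 𝔓 (dliH1 𝔓))) : ↥(tbFix 𝔓 (dliH1 𝔓))) : Qb) =
        1 / ((𝔓.p : ℚ) - 1) := by
      rw [← 𝔓.v.ord_mul' ha0 hb0, ← hab']
      exact (dli_is_one_sub_zeta 𝔓).ord_eq
    have hmn : (m : ℚ) + n = 1 := by
      rw [← hm, ← hn, ← mul_add, hsum]
      field_simp
    have hm0 : (0 : ℚ) ≤ m := by rw [← hm]; positivity
    have hn0 : (0 : ℚ) ≤ n := by rw [← hn]; positivity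
    have hmn' : m + n = 1 := by exact_mod_cast hmn
    have hm0' : (0 : ℤ) ≤ m := by exact_mod_cast hm0
    have hn0' : (0 : ℤ) ≤ n := by exact_mod_cast hn0
    have hcase : m = 0 ∨ n = 0 := by omega
    rcases hcase with h0 | h0
    · left
      refine tb_isUnit_of_ord_eq_zero 𝔓 (dliH1 𝔓) a ⟨ha0, ?_⟩
      rw [h0, Int.cast_zero] at hm
      rcases mul_eq_zero.1 hm with h | h
      · exact absurd h hpos.ne'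
      · exact h
    · right
      refine tb_isUnit_of_ord_eq_zero 𝔓 (dliH1 𝔓) b ⟨hb0, ?_⟩
      rw [h0, Int.cast_zero] at hn
      rcases mul_eq_zero.1 hn with h | h
      · exact absurd h hpos.ne'
      · exact h

/-- `p / (1 - ζ_p) ^ (p - 1)` has order zero -/
theorem dli_is_eta : 𝔓.v.Is ((𝔓.p : Qb) / (1 - dliZeta 𝔓) ^ (𝔓.p - 1)) 0 := by
  have h := 𝔓.is_p.div ((dli_is_one_sub_zeta 𝔓).pow (𝔓.p - 1))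
  refine h.congr ?_
  have hpos := dli_p_sub_one_pos 𝔓
  rw [Nat.cast_sub 𝔓.hp.one_lt.le, Nat.cast_one]
  field_simp
  ring

/-- **the unit `η = p / (1 - ζ_p) ^ (p - 1)`** -/
def dliEta : ↥(tbFixO 𝔓 (dliH1 𝔓)) :=
  ⟨(𝔓.p : ↥(tbFix 𝔓 (dliH1 𝔓))) / (1 - dliZeta1 𝔓) ^ (𝔓.p - 1), by
    rw [mem_tbFixO]
    exact (dli_is_eta 𝔓).ge⟩

theorem coe_dliEta :
    (((dliEta 𝔓 : ↥(tbFixO 𝔓 (dliH1 𝔓))) : ↥(tbFix 𝔓 (dliH1 𝔓))) : Qb) =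
      (𝔓.p : Qb) / (1 - dliZeta 𝔓) ^ (𝔓.p - 1) := rfl

theorem dliEta_isUnit : IsUnit (dliEta 𝔓) :=
  tb_isUnit_of_ord_eq_zero 𝔓 (dliH1 𝔓) _ (dli_is_eta 𝔓)

/-- **`p = η · ϖ₁ ^ (p - 1)`** -/
theorem dli_p_eq :
    (𝔓.p : ↥(tbFix 𝔓 (dliH1 𝔓))) =
      ((dliEta 𝔓 : ↥(tbFixO 𝔓 (dliH1 𝔓))) : ↥(tbFix 𝔓 (dliH1 𝔓))) *
        ((dliPi1 𝔓 : ↥(tbFixO 𝔓 (dliH1 𝔓))) : ↥(tbFix 𝔓 (dliH1 𝔓))) ^ (𝔓.p - 1) := by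
  have hne : (1 - dliZeta1 𝔓) ≠ 0 := by
    intro h
    exact (dli_is_one_sub_zeta 𝔓).ne_zero (congrArg Subtype.val h)
  show (𝔓.p : ↥(tbFix 𝔓 (dliH1 𝔓))) =
    (𝔓.p : ↥(tbFix 𝔓 (dliH1 𝔓))) / (1 - dliZeta1 𝔓) ^ (𝔓.p - 1) * (1 - dliZeta1 𝔓) ^ (𝔓.p - 1)
  rw [div_mul_cancel₀ _ (pow_ne_zero _ hne)]

/-- the residue of `η` is not zero -/
theorem dli_res_eta_ne_zero : tbFixRes 𝔓 (dliH1 𝔓) (dliEta 𝔓) ≠ 0 :=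
  ((dliEta_isUnit 𝔓).map (tbFixRes 𝔓 (dliH1 𝔓))).ne_zero

/-- **the base at the tame level** -/
def dliBase1 : DlBase ↥(tbFix 𝔓 (dliH1 𝔓)) (IsLocalRing.ResidueField ↥𝔓.P) :=
  dliBaseH 𝔓 (dliH1 𝔓) (dliPi1_irreducible 𝔓)

/-- the hypothesis `hη` of `dli_toric` at the tame level -/
theorem dliBase1_p_eq :
    (𝔓.p : ↥(tbFix 𝔓 (dliH1 𝔓))) =
      ((dliEta 𝔓 : ↥(dliBase1 𝔓).A) : ↥(tbFix 𝔓 (dliH1 𝔓))) * (dliBase1 𝔓).ϖ ^ (𝔓.p - 1) :=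
  dli_p_eq 𝔓

end Fermat.Agent.Delta
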