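/-
DELTA / I1 (helper9), part 21: **(I1) at the tame level `H₁`** — `dli_toric` with all the level
data filled in.

`F = tbLevF 𝔓 (N' * p) H₁`, `v_∞ = dliInf1 𝔓 N' h`, `v_0 = dliZero1 𝔓 N' h`, `ϖ = 1 - ζ_p`,
`p = η ϖ^(p-1)`.  For a nodal ring `nd : DliNod v_∞ v_0` (e.g. the local ring of one node) and
`z = c w^p (1 + ϖ b)` (`w ∈ On^×`, `b ∈ On`) such that `N_{F/E₁}(z)` and `N_{F/E₁}(w_p z)` are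
`p`-th powers up to constants (`E₁` = functions of level `N'`):
`z = c' w'^p (1 + ϖ^p b')`, `b' ∈ On`, `res b' = (u₁^p + η̄ u₁, u₂^p + η̄ u₂)` (`dliH1_toric`).
-/
import Fermat.Agent.Lib.Delta.Toric.NormH
import Fermat.Agent.Lib.Delta.Toric.Tame
import Fermat.Agent.Lib.Delta.Toric.Main

set_option autoImplicit false
set_option linter.unusedSectionVars false
set_option linter.unusedVariables false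
set_option linter.style.haveILetI false
set_option synthInstance.maxHeartbeats 400000

open HahnSeries ModularCurve Fermat.Agent.T1 Fermat.Agent.T2 Fermat.Agent.TW Fermat.Agent.S05Lib
  Module

noncomputable section

namespace Fermat.Agent.Delta

variable (𝔓 : FFPlace)

attribute [local instance] t2i_dvr t2i_isAlgClosed t2i_charP t2i_fact

attribute [local instance 10000] dliAlgF dliAlgE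

variable (N' : ℕ) [NeZero N'] (h : ¬ 𝔓.p ∣ N')

/-- `v_∞` at the tame level -/
abbrev dliInf1 : DlPlace (dliBase1 𝔓) ↥(tbLevF 𝔓 (N' * 𝔓.p) (dliH1 𝔓)) ↥(tbBarF 𝔓 N') :=
  dliInfH 𝔓 (dliH1 𝔓) (dliPi1_irreducible 𝔓) N' h

/-- `v_0` at the tame level -/
abbrev dliZero1 : DlPlace (dliBase1 𝔓) ↥(tbLevF 𝔓 (N' * 𝔓.p) (dliH1 𝔓)) ↥(tbBarF 𝔓 N') :=
  dliZeroH 𝔓 (dliH1 𝔓) (dliPi1_irreducible 𝔓) N' h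

/-- **(I1) at the tame level** -/
theorem dliH1_toric (nd : DliNod (dliInf1 𝔓 N' h) (dliZero1 𝔓 N' h))
    {z : ↥(tbLevF 𝔓 (N' * 𝔓.p) (dliH1 𝔓))}
    (hN₁ : ∃ c : ↥(tbFix 𝔓 (dliH1 𝔓)), c ≠ 0 ∧ ∃ y : ↥(dliE1H 𝔓 (dliH1 𝔓) N'),
      Algebra.norm ↥(dliE1H 𝔓 (dliH1 𝔓) N') z =
        algebraMap ↥(tbFix 𝔓 (dliH1 𝔓)) ↥(dliE1H 𝔓 (dliH1 𝔓) N') c * y ^ 𝔓.p)
    (hN₂ : ∃ c : ↥(tbFix 𝔓 (dliH1 𝔓)), c ≠ 0 ∧ ∃ y : ↥(dliE1H 𝔓 (dliH1 𝔓) N'),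
      Algebra.norm ↥(dliE1H 𝔓 (dliH1 𝔓) N') ((t2iALFix 𝔓 (dliH1 𝔓) N' h).w z) =
        algebraMap ↥(tbFix 𝔓 (dliH1 𝔓)) ↥(dliE1H 𝔓 (dliH1 𝔓) N') c * y ^ 𝔓.p)
    (hI : DliShape nd 𝔓.p 1 z) :
    ∃ c : ↥(tbFix 𝔓 (dliH1 𝔓)), c ≠ 0 ∧ ∃ w ∈ nd.On, w⁻¹ ∈ nd.On ∧ w ≠ 0 ∧
      ∃ (b : ↥(tbLevF 𝔓 (N' * 𝔓.p) (dliH1 𝔓))) (hb : b ∈ nd.On),
        z = algebraMap ↥(tbFix 𝔓 (dliH1 𝔓)) ↥(tbLevF 𝔓 (N' * 𝔓.p) (dliH1 𝔓)) c * w ^ 𝔓.p *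
          (1 + (dliInf1 𝔓 N' h).pi ^ 𝔓.p * b) ∧
        (∃ u : ↥(tbBarF 𝔓 N'), (dliInf1 𝔓 N' h).res ⟨b, nd.le₁ hb⟩ =
          u ^ 𝔓.p + algebraMap (IsLocalRing.ResidueField ↥𝔓.P) ↥(tbBarF 𝔓 N')
            (tbFixRes 𝔓 (dliH1 𝔓) (dliEta 𝔓)) * u) ∧
        (∃ u : ↥(tbBarF 𝔓 N'), (dliZero1 𝔓 N' h).res ⟨b, nd.le₂ hb⟩ =
          u ^ 𝔓.p + algebraMap (IsLocalRing.ResidueField ↥𝔓.P) ↥(tbBarF 𝔓 N')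
            (tbFixRes 𝔓 (dliH1 𝔓) (dliEta 𝔓)) * u) := by
  haveI := dliH_finite_E1 𝔓 (dliH1 𝔓) N' h
  haveI := dliH_finite_E2 𝔓 (dliH1 𝔓) N' h
  exact dli_toric nd 𝔓.hp (dliEta 𝔓) (dliBase1_p_eq 𝔓) (dliE1H 𝔓 (dliH1 𝔓) N')
    (dliE2H 𝔓 (dliH1 𝔓) N' h) (dliH_finrank_E1 𝔓 (dliH1 𝔓) N' h)
    (dliH_finrank_E2 𝔓 (dliH1 𝔓) N' h)
    (dliH_norm_raises_inf 𝔓 (dliH1 𝔓) (dliPi1_irreducible 𝔓) N' h)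
    (dliH_norm_raises_zero 𝔓 (dliH1 𝔓) (dliPi1_irreducible 𝔓) N' h) hN₁
    (dliH_norm_cond_E2 𝔓 (dliH1 𝔓) N' h hN₂) hI

end Fermat.Agent.Delta
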