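/-
DELTA / I1 (helper8): **(A) of (LC) — the leading `q`-coefficient of the norm along `α`**.

`ℓ` an odd prime, `ℓ ∤ N`, `f ∈ F_{Nℓ}(ℚ̄)`:
  `lc (N_α f) = lc f · lc (w_ℓ f) ^ ℓ`
(`dlil_lc_norm`), from the `q`-expansion of the norm
`(N_α f)(q^ℓ) = f(q^ℓ) · ∏_{b<ℓ} (w f)(ζ^b q)` (`t3k_norm_expand`): `lc (g(q^ℓ)) = lc g`,
`lc (g(c q)) = c ^ (ord g) · lc g`, and `∏_{b<ℓ} ζ ^ (b m) = ζ ^ (m ℓ (ℓ-1)/2) = 1` for `ℓ` odd.

(The level-`H` forms are in `LcNormH.lean`.)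
-/
import Fermat.Agent.Lib.T3.Hecke.Emb
import Fermat.Agent.Lib.Delta.Toric.Descent

set_option autoImplicit false
set_option linter.unusedSectionVars false
set_option linter.unusedVariables false
set_option linter.style.haveILetI false
set_option synthInstance.maxHeartbeats 400000

open ModularCurve AlgebraicCurve IntermediateField HahnSeries Module
open Fermat.Agent.T1 Fermat.Agent.T2 Fermat.Agent.T3 Fermat.Agent.S24Lib Fermat.Agent.T1.KMod

noncomputable section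

namespace Fermat.Agent.Delta

local notation "Qb" => AlgebraicClosure ℚ

/-! ### leading coefficients of Laurent series -/

section LS

variable {K : Type*} [Field K]

/-- `lc (g(q^ℓ)) = lc g` -/
theorem dlil_lc_qExpand (ℓ : ℕ) [NeZero ℓ] (g : LaurentSeries K) :
    (qExpand K ℓ g).leadingCoeff = g.leadingCoeff := by
  rcases eq_or_ne g 0 with rfl | hg
  · rw [map_zero]
  rw [HahnSeries.leadingCoeff_eq, HahnSeries.leadingCoeff_eq,
    Fermat.Agent.S24Lib.order_qExpand ℓ hg, qExpand_coeff_mul]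

/-- the order of a twist -/
theorem dlil_order_tkrTw (c : Kˣ) (g : LaurentSeries K) : (tkrTw c g).order = g.order := by
  rcases eq_or_ne g 0 with rfl | hg
  · rw [map_zero]
  apply Fermat.Agent.S24Lib.order_eq_of_coeff
  · rw [tkrTw_coeff]
    exact mul_ne_zero (Units.ne_zero _) (fun h => hg (HahnSeries.coeff_order_eq_zero.mp h))
  · intro k hk
    rw [tkrTw_coeff, HahnSeries.coeff_eq_zero_of_lt_order hk, mul_zero]

/-- `lc (g(c q)) = c ^ (ord g) · lc g` -/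
theorem dlil_lc_tkrTw (c : Kˣ) (g : LaurentSeries K) :
    (tkrTw c g).leadingCoeff = ((c ^ g.order : Kˣ) : K) * g.leadingCoeff := by
  rw [HahnSeries.leadingCoeff_eq, HahnSeries.leadingCoeff_eq, dlil_order_tkrTw, tkrTw_coeff]

/-- leading coefficients of finite products -/
theorem dlil_lc_prod {ι : Type*} (s : Finset ι) (g : ι → LaurentSeries K) :
    (∏ i ∈ s, g i).leadingCoeff = ∏ i ∈ s, (g i).leadingCoeff := by
  classical
  induction s using Finset.induction_on with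
  | empty => rw [Finset.prod_empty, Finset.prod_empty, HahnSeries.leadingCoeff_one]
  | insert a s ha ih =>
    rw [Finset.prod_insert ha, Finset.prod_insert ha, HahnSeries.leadingCoeff_mul, ih]

end LS

/-! ### roots of unity -/

section Zeta

/-- `∏_{b<ℓ} (ζ^b)^m = 1` for `ℓ` odd, `ζ^ℓ = 1` -/
theorem dlil_prod_zeta {G : Type*} [CommGroup G] {ℓ : ℕ} (hodd : Odd ℓ) {ζ : G} (hζ : ζ ^ ℓ = 1)
    (m : ℤ) : ∏ b : Fin ℓ, (ζ ^ (b : ℕ)) ^ m = 1 := by
  have h1 : ∀ b : Fin ℓ, (ζ ^ (b : ℕ)) ^ m = (ζ ^ m) ^ (b : ℕ) := by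
    intro b
    rw [← zpow_natCast, ← zpow_mul, mul_comm, zpow_mul, zpow_natCast]
  rw [Finset.prod_congr rfl (fun b _ => h1 b), Fin.prod_univ_eq_prod_range (fun b => (ζ ^ m) ^ b) ℓ,
    Finset.prod_pow_eq_pow_sum, Finset.sum_range_id]
  obtain ⟨t, ht⟩ := hodd
  have h2 : ℓ * (ℓ - 1) / 2 = ℓ * t := by
    rw [ht]
    have : (2 * t + 1) * (2 * t + 1 - 1) = 2 * ((2 * t + 1) * t) := by
      rw [Nat.add_sub_cancel]; ring
    rw [this, Nat.mul_div_cancel_left _ (by norm_num : 0 < 2)]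
  have h3 : (ζ ^ m) ^ ℓ = 1 := by
    rw [← zpow_natCast, ← zpow_mul, mul_comm, zpow_mul, zpow_natCast, hζ, one_zpow]
  rw [h2, pow_mul, h3, one_pow]

end Zeta

/-! ### the norm -/

section Norm

variable (N ℓ : ℕ) [NeZero N] [hℓ : Fact ℓ.Prime] (h : ¬ ℓ ∣ N)

/-- **`lc (N_α f) = lc f · lc (w_ℓ f) ^ ℓ`** (`ℓ` odd) -/
theorem dlil_lc_norm (hodd : ℓ ≠ 2) (f : ↥(modularFunctionFieldBar (N * ℓ))) :
    dliLc N (@Algebra.norm ↥(modularFunctionFieldBar N) ↥(modularFunctionFieldBar (N * ℓ)) _ _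
        (algebraAlong (heckeAlphaBar Qb N ℓ)) f) =
      dliLc (N * ℓ) f * dliLc (N * ℓ) (t2w Qb N ℓ h f) ^ ℓ := by
  haveI : NeZero ((ℓ : ℕ) : Qb) := ⟨by exact_mod_cast hℓ.out.ne_zero⟩
  obtain ⟨ζ₀, hζ₀⟩ := HasEnoughRootsOfUnity.exists_primitiveRoot Qb ℓ
  have hζ₀u : IsUnit ζ₀ := hζ₀.isUnit hℓ.out.ne_zero
  set ζ : Qbˣ := hζ₀u.unit with hζ
  have hζp : IsPrimitiveRoot (ζ : Qb) ℓ := hζ₀
  have hζ1 : ζ ^ ℓ = 1 := (IsPrimitiveRoot.coe_units_iff.mp hζp).pow_eq_one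
  have hoddℓ : Odd ℓ := hℓ.out.odd_of_ne_two hodd
  have key := congrArg HahnSeries.leadingCoeff (t3k_norm_expand N ℓ h hζp f)
  rw [t3kBase_apply, dlil_lc_qExpand, HahnSeries.leadingCoeff_mul, t3kInf_apply, dlil_lc_qExpand,
    dlil_lc_prod] at key
  rw [dliLc, key, dliLc, dliLc]
  congr 1
  have h2 : ∀ b : Fin ℓ, (t3kTw N ℓ h (ζ ^ (b : ℕ)) f).leadingCoeff =
      (((ζ ^ (b : ℕ)) ^ ((t2w Qb N ℓ h f : ↥(modularFunctionFieldBar (N * ℓ))) :
        LaurentSeries Qb).order : Qbˣ) : Qb) *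
      ((t2w Qb N ℓ h f : ↥(modularFunctionFieldBar (N * ℓ))) : LaurentSeries Qb).leadingCoeff := by
    intro b
    rw [t3kTw_apply, dlil_lc_tkrTw]
  rw [Finset.prod_congr rfl (fun b _ => h2 b), Finset.prod_mul_distrib, Finset.prod_const,
    Finset.card_univ, Fintype.card_fin, ← Units.coe_prod, dlil_prod_zeta hoddℓ hζ1, Units.val_one,
    one_mul]

/-- the same for `t3pNormAlong` -/
theorem dlil_lc_normAlong (hodd : ℓ ≠ 2) (f : ↥(modularFunctionFieldBar (N * ℓ))) :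
    dliLc N (t3pNormAlong (heckeAlphaBar Qb N ℓ) f) =
      dliLc (N * ℓ) f * dliLc (N * ℓ) (t2w Qb N ℓ h f) ^ ℓ :=
  dlil_lc_norm N ℓ h hodd f

end Norm

end Fermat.Agent.Delta
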