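/-
DELTA / (I1-b) per node (helper9), part 1: **the local ring of a chart at ONE node as a `DliNod`**.

`C.toNodAt hs : DliNod g₁ g₂` (`hs : s ∈ C.G.nodes`) with `On = C.A₁ s.1 _` (helper2's local ring
of the chart at the node, NodeX/Local.lean); no `nodes.Nonempty` and no semilocal intersection.
`C.shape_of_res_pow`: a unit `z₀` of the local ring at the node whose two residues are `p`-th
powers has the shape `z₀ = w^p (1 + ϖ b)` (`DliShape (C.toNodAt hs) p 1 z₀`, with `c = 1`).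
-/
import Fermat.Agent.Lib.Delta.NodeX.Semi

set_option autoImplicit false
set_option linter.unusedSectionVars false
set_option linter.unusedVariables false
set_option linter.style.haveILetI false

namespace Fermat.Agent.Delta

open AlgebraicCurve Fermat.Agent.Curve Fermat.Agent.Curve.PlaceAux Fermat.Agent.T1 Fermat.Agent.T2
  Fermat.Agent.T4

variable {L k : Type*} [Field L] [Field k] {B : DlBase L k} {F κ₁ κ₂ : Type*} [Field F]
  [Algebra L F] [Field κ₁] [Algebra k κ₁] [Field κ₂] [Algebra k κ₂] [IsAlgClosed k]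

namespace DlxChart

variable {g₁ : DlPlace B F κ₁} {g₂ : DlPlace B F κ₂} {σ : Type*} [Fintype σ]
  (C : DlxChart g₁ g₂ σ) {s : Place k κ₁ × Place k κ₂} (hs : s ∈ C.G.nodes)

/-- **the local ring at one node as a `DliNod`** -/
noncomputable def toNodAt : DliNod g₁ g₂ where
  On := C.A₁ s.1 (C.node_fin₁ hs)
  le₁ := fun f hf => C.A₁_le₁ _ _ hf
  le₂ := fun f hf => C.A₁_le₂ hs hf
  algebraMap_mem := fun a => C.algebraMap_mem_A₁ _ _ a
  div_pi := by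
    intro b hb h1 h2
    have hv1 : C.V₁.valuation b < 1 := (dlx_res_eq_zero_iff g₁ C.V₁ C.hV₁ _).mp h1
    have hv2 : C.V₂.valuation b < 1 := (dlx_res_eq_zero_iff g₂ C.V₂ C.hV₂ _).mp h2
    refine ⟨b / g₁.pi, C.div_pi_mem_A₁_node hs hb hv1 hv2, ?_⟩
    rw [mul_div_cancel₀ _ g₁.pi_ne_zero]
  glue_const := by
    intro b hb c₁ c₂ h1 h2
    have hv := C.lres₂_val hs ⟨b, hb⟩
    have h3 : C.lev₁ s.1 (C.node_fin₁ hs) ⟨b, hb⟩ = c₁ := by
      rw [lev₁_eq_iff, lres₁_apply]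
      show DlgVal s.1 (g₁.res ⟨b, _⟩) c₁
      rw [h1]
      exact DlgVal.const _ _
    rw [h3, lres₂_apply] at hv
    have hv' : DlgVal s.2 (g₂.res ⟨b, C.A₁_le₂ hs hb⟩) c₁ := hv
    rw [h2] at hv'
    exact hv'.unique (DlgVal.const _ _)
  inv_mem := by
    intro a ha h1 h2
    have h3 : C.lev₁ s.1 (C.node_fin₁ hs) ⟨a, ha⟩ = 1 := by
      rw [lev₁_eq_iff, lres₁_apply]
      show DlgVal s.1 (g₁.res ⟨a, _⟩) 1
      rw [h1]
      exact DlgVal.one _
    have hu : IsUnit (⟨a, ha⟩ : ↥(C.A₁ s.1 (C.node_fin₁ hs))) := by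
      rw [isUnit_A₁_iff, h3]
      exact one_ne_zero
    obtain ⟨a', ha'⟩ := isUnit_iff_exists_inv.mp hu
    have h4 : a * (a' : F) = 1 := congrArg Subtype.val ha'
    have h5 : a⁻¹ = (a' : F) := by
      rw [eq_comm, ← mul_eq_one_iff_eq_inv₀ (left_ne_zero_of_mul_eq_one h4), mul_comm]
      exact h4
    rw [h5]
    exact a'.2

@[simp] theorem toNodAt_On : (C.toNodAt hs).On = C.A₁ s.1 (C.node_fin₁ hs) := rfl

/-- powers of values -/
theorem _root_.Fermat.Agent.Delta.DlgVal.npow {κ : Type*} [Field κ] [Algebra k κ] {P : Place k κ}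
    {f : κ} {c : k} (h : DlgVal P f c) (n : ℕ) : DlgVal P (f ^ n) (c ^ n) := by
  induction n with
  | zero => rw [pow_zero, pow_zero]; exact DlgVal.one P
  | succ n ih => rw [pow_succ, pow_succ]; exact ih.mul h

/-- a function whose `n`-th power (`n ≥ 1`) has a non-zero value has itself a value -/
theorem _root_.Fermat.Agent.Delta.dlx_exists_val_of_npow {κ : Type*} [Field κ] [Algebra k κ]
    (hgen : ∃ z : κ, IsFunctionFieldGen k κ z) {P : Place k κ} {v : κ} {c : k} {n : ℕ}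
    (hn : n ≠ 0) (h : DlgVal P (v ^ n) c) (hc : c ≠ 0) : ∃ c' : k, DlgVal P v c' ∧ c' ^ n = c := by
  obtain ⟨z, hz⟩ := hgen
  obtain ⟨h0, hord⟩ := h.ord_eq_zero P hc
  have hv0 : v ≠ 0 := fun h' => h0 (by rw [h', zero_pow hn])
  have h1 : P.ord (v ^ n) = (n : ℤ) * P.ord v := by
    have := P.ord_zpow v (n : ℤ)
    rwa [zpow_natCast] at this
  have h2 : P.ord v = 0 := by
    rw [h1] at hord
    rcases mul_eq_zero.mp hord with h3 | h3
    · exact absurd (by exact_mod_cast h3) hn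
    · exact h3
  obtain ⟨c', hc'⟩ := dlg_exists_val hz P (mem_of_ord_nonneg P h2.ge)
  exact ⟨c', hc', (hc'.npow n).unique h⟩

/-- **the shape at a node of a unit whose residues are `p`-th powers**: `z₀ = w^p (1 + ϖ b)` -/
theorem shape_of_res_pow {p : ℕ} (hp : p.Prime) [CharP k p] {z₀ : F}
    (hz : z₀ ∈ C.A₁ s.1 (C.node_fin₁ hs)) (hzi : z₀⁻¹ ∈ C.A₁ s.1 (C.node_fin₁ hs)) (hz0 : z₀ ≠ 0)
    {v₁ : κ₁} {v₂ : κ₂} (h1 : g₁.res ⟨z₀, C.A₁_le₁ _ _ hz⟩ = v₁ ^ p)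
    (h2 : g₂.res ⟨z₀, C.A₁_le₂ hs hz⟩ = v₂ ^ p) :
    DliShape (C.toNodAt hs) p 1 z₀ := by
  haveI : Fact p.Prime := ⟨hp⟩
  set A := C.A₁ s.1 (C.node_fin₁ hs) with hA
  -- the value of `z₀` at the node
  have hu : IsUnit (⟨z₀, hz⟩ : ↥A) := by
    refine isUnit_iff_exists_inv.mpr ⟨⟨z₀⁻¹, hzi⟩, Subtype.ext ?_⟩
    show z₀ * z₀⁻¹ = 1
    exact mul_inv_cancel₀ hz0
  have hc0 : C.lev₁ s.1 (C.node_fin₁ hs) ⟨z₀, hz⟩ ≠ 0 := (C.isUnit_A₁_iff _ _ _).mp hu
  set c₀ := C.lev₁ s.1 (C.node_fin₁ hs) ⟨z₀, hz⟩ with hc₀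
  have hv1 : DlgVal s.1 (v₁ ^ p) c₀ := by
    have := C.lev₁_spec s.1 (C.node_fin₁ hs) ⟨z₀, hz⟩
    rw [lres₁_apply] at this
    rw [← h1]
    exact this
  have hv2 : DlgVal s.2 (v₂ ^ p) c₀ := by
    have := C.lres₂_val hs ⟨z₀, hz⟩
    rw [lres₂_apply] at this
    rw [← h2]
    exact this
  obtain ⟨c₁, hc₁, hc₁p⟩ := dlx_exists_val_of_npow C.gen₁ hp.ne_zero hv1 hc0
  obtain ⟨c₂, hc₂, hc₂p⟩ := dlx_exists_val_of_npow C.gen₂ hp.ne_zero hv2 hc0
  have hcc : c₁ = c₂ := by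
    have h3 : c₁ ^ p = c₂ ^ p := by rw [hc₁p, hc₂p]
    exact frobenius_inj k p h3
  subst hcc
  have hc₁0 : c₁ ≠ 0 := fun h => hc0 (by rw [← hc₁p, h, zero_pow hp.ne_zero])
  -- the `p`-th root in the local ring
  obtain ⟨w, hw1, hw2⟩ := C.exists_A₁_node hs hc₁ hc₂
  have hwv : C.lev₁ s.1 (C.node_fin₁ hs) w = c₁ := by
    rw [lev₁_eq_iff, hw1]; exact hc₁
  have hwu : IsUnit w := by rw [isUnit_A₁_iff, hwv]; exact hc₁0
  obtain ⟨w', hw'⟩ := isUnit_iff_exists_inv.mp hwu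
  have hww' : (w : F) * (w' : F) = 1 := congrArg Subtype.val hw'
  have hw0 : (w : F) ≠ 0 := left_ne_zero_of_mul_eq_one hww'
  have hwi : (w : F)⁻¹ = (w' : F) := by
    rw [eq_comm, ← mul_eq_one_iff_eq_inv₀ hw0, mul_comm]; exact hww'
  -- `u = z₀ / w^p ≡ 1`
  set u : ↥A := ⟨z₀, hz⟩ * w' ^ p with hu'
  have hw'1 : C.lres₁ s.1 (C.node_fin₁ hs) w' = v₁⁻¹ := by
    have := congrArg (C.lres₁ s.1 (C.node_fin₁ hs)) hw'
    rw [map_mul, map_one, hw1] at this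
    exact (eq_inv_of_mul_eq_one_right this)
  have hw'2 : C.lres₂ hs w' = v₂⁻¹ := by
    have := congrArg (C.lres₂ hs) hw'
    rw [map_mul, map_one, hw2] at this
    exact (eq_inv_of_mul_eq_one_right this)
  have hv10 : v₁ ≠ 0 := by
    intro h
    have := (hc₁.ord_eq_zero s.1 hc₁0).1
    exact this h
  have hv20 : v₂ ≠ 0 := by
    intro h
    have := (hc₂.ord_eq_zero s.2 hc₁0).1
    exact this h
  have hu1 : C.lres₁ s.1 (C.node_fin₁ hs) u = 1 := by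
    rw [hu', map_mul, map_pow, hw'1, lres₁_apply]
    show g₁.res ⟨z₀, _⟩ * _ = 1
    rw [h1, inv_pow, mul_inv_cancel₀ (pow_ne_zero _ hv10)]
  have hu2 : C.lres₂ hs u = 1 := by
    rw [hu', map_mul, map_pow, hw'2, lres₂_apply]
    show g₂.res ⟨z₀, _⟩ * _ = 1
    rw [h2, inv_pow, mul_inv_cancel₀ (pow_ne_zero _ hv20)]
  -- `u - 1 = ϖ b`
  have hum : ((u - 1 : ↥A) : F) ∈ (C.toNodAt hs).On := (u - 1 : ↥A).2
  obtain ⟨b, hb, hub⟩ := (C.toNodAt hs).div_pi _ hum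
    (by
      have : C.lres₁ s.1 (C.node_fin₁ hs) (u - 1) = 0 := by rw [map_sub, hu1, map_one, sub_self]
      exact this)
    (by
      have : C.lres₂ hs (u - 1) = 0 := by rw [map_sub, hu2, map_one, sub_self]
      exact this)
  refine ⟨1, one_ne_zero, (w : F), w.2, ?_, hw0, b, hb, ?_⟩
  · rw [hwi]; exact w'.2
  · have h3 : ((u - 1 : ↥A) : F) = z₀ * ((w : F)⁻¹) ^ p - 1 := by
      rw [hwi]; rfl
    rw [h3] at hub
    rw [map_one, one_mul, pow_one, ← hub, inv_pow]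
    field_simp
    ring

end DlxChart

end Fermat.Agent.Delta
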