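/-
DELTA / (I1-b) per node (helper9), part 3: **the local `p`-th power representation and the shape at
ONE node of a chart** (abstract in the chart `C : DlxChart g₁ g₂ σ`).

* `C.unit_rep_node`  : `z` a `V₁`-unit whose first residue is a `p`-th power and with `p ∣ ord_V z` at
  the horizontal valuation rings ⇒ `z = g ^ p · z₀`, `z₀ ∈ A_s^×`, `g` a `V₁`-unit
  (helper2's `toCross` + dictionary, helper8's `dlc_unit_rep`);
* **`C.node_shape`** : if moreover the second residues of the `V₂`-normalisations `z / ϖ ^ m` are `p`-th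
  powers, then `z = g ^ p · z₀` with `DliShape (C.toNodAt hs) p 1 z₀`, i.e.
  `z₀ = w ^ p (1 + ϖ b)`, `w ∈ A_s^×`, `b ∈ A_s`.
-/
import Fermat.Agent.Lib.Delta.Toric.NodAt
import Fermat.Agent.Lib.Delta.NodeX.Dict

set_option autoImplicit false
set_option linter.unusedSectionVars false
set_option linter.unusedVariables false
set_option linter.style.haveILetI false

namespace Fermat.Agent.Delta

open AlgebraicCurve Fermat.Agent.Curve Fermat.Agent.Curve.PlaceAux Fermat.Agent.T1 Fermat.Agent.T2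
  Fermat.Agent.T4

variable {L k : Type*} [Field L] [Field k] {B : DlBase L k} {F κ₁ κ₂ : Type*} [Field F]
  [Algebra L F] [Field κ₁] [Algebra k κ₁] [Field κ₂] [Algebra k κ₂] [IsAlgClosed k]

namespace DlxChart

variable {g₁ : DlPlace B F κ₁} {g₂ : DlPlace B F κ₂} {σ : Type*} [Fintype σ]
  (C : DlxChart g₁ g₂ σ) [IsDiscreteValuationRing ↥B.A] [IsNoetherianRing ↥C.P.B]
  {s : Place k κ₁ × Place k κ₂} (hs : s ∈ C.G.nodes)
  (hfin : C.FinAt (C.n₁ s.1 (C.node_fin₁ hs))) (hens : DltHens B.A F)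
  (D : F) (hD0 : D ≠ 0) (hDhor : ∀ V ∈ t4vpHor L C.x, V.valuation D = 1)
  (hD1 : C.V₁.valuation D = 1) (hD2 : C.V₂.valuation D < 1)

include hfin hens hD0 hDhor hD1 hD2 in
/-- **the local `p`-th power representation at a node** -/
theorem unit_rep_node {p : ℕ} (hp0 : p ≠ 0) {z : F} (hz : z ≠ 0) (hz1 : z ∈ g₁.O) {v₁ : κ₁}
    (hv₁ : v₁ ≠ 0) (hr1 : g₁.res ⟨z, hz1⟩ = v₁ ^ p)
    (hhor : ∀ (V : ValuationSubring F) (hV : V ∈ t4vpHor L C.x),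
      (p : ℤ) ∣ (haveI := C.P.dvr V (C.hor_mem hV); dlOrd V z)) :
    ∃ g z₀ : F, g ≠ 0 ∧ z₀ ∈ C.A₁ s.1 (C.node_fin₁ hs) ∧ z₀⁻¹ ∈ C.A₁ s.1 (C.node_fin₁ hs) ∧
      z = g ^ p * z₀ ∧ g ∈ g₁.O ∧ g⁻¹ ∈ g₁.O := by
  set 𝒞 := C.toCross hs hfin hens D hD0 hDhor hD1 hD2 with h𝒞
  have hn : z / g₁.pi ^ (0 : ℤ) ∈ g₁.O := by rw [zpow_zero, div_one]; exact hz1
  have hres : g₁.res ⟨_, hn⟩ = v₁ ^ p := by
    rw [g₁.res_congr hn (show z / g₁.pi ^ (0 : ℤ) = z by rw [zpow_zero, div_one]), hr1]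
  have hy : g₁.res ⟨_, hn⟩ ≠ 0 := by rw [hres]; exact pow_ne_zero _ hv₁
  have hoW : 𝒞.oW z = 0 := C.toCross_oW hs hfin hens D hD0 hDhor hD1 hD2 hz hn hy
  have hsl : 𝒞.slope z = s.1.ord (g₁.res ⟨_, hn⟩) :=
    C.toCross_slope hs hfin hens D hD0 hDhor hD1 hD2 hz hn hy
  obtain ⟨g, z₀, hg, hz₀, hz₀i, e⟩ := dlc_unit_rep 𝒞 p hz
    (by
      intro V hV
      rcases C.vals_cases hV.1.1 with h | h | h
      · exact absurd h hV.2.1
      · exact absurd h hV.2.2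
      · exact hhor V h)
    (by rw [hoW]; exact dvd_zero _)
    (by
      rw [hsl, hres]
      have := s.1.ord_zpow v₁ (p : ℤ)
      rw [zpow_natCast] at this
      rw [this]
      exact dvd_mul_right _ _)
  refine ⟨g, z₀, hg, hz₀, hz₀i, e, ?_⟩
  -- `g` is a unit at `V₁`
  have hz₀0 : z₀ ≠ 0 := by
    rintro rfl
    rw [mul_zero] at e
    exact hz e
  have h1 : C.V₁.valuation z = 1 := by
    have h2 : g₁.res ⟨z, hz1⟩ ≠ 0 := by rw [hr1]; exact pow_ne_zero _ hv₁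
    exact (dlx_res_ne_zero_iff g₁ C.V₁ C.hV₁ hz1).mp h2
  have h2 : C.V₁.valuation z₀ = 1 := by
    have h3 : C.V₁.valuation z₀ ≤ 1 :=
      (C.V₁.valuation_le_one_iff _).mpr ((dlx_mem_iff g₁ C.V₁ C.hV₁ _).mpr (C.A₁_le₁ _ _ hz₀))
    have h4 : C.V₁.valuation z₀⁻¹ ≤ 1 :=
      (C.V₁.valuation_le_one_iff _).mpr ((dlx_mem_iff g₁ C.V₁ C.hV₁ _).mpr (C.A₁_le₁ _ _ hz₀i))
    rw [map_inv₀] at h4
    have h5 : C.V₁.valuation z₀ ≠ 0 := (map_ne_zero _).mpr hz₀0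
    have h6 : 1 ≤ C.V₁.valuation z₀ := (inv_le_one₀ (zero_lt_iff.mpr h5)).mp h4
    exact le_antisymm h3 h6
  have h3 : C.V₁.valuation g ^ p = 1 := by
    have := congrArg C.V₁.valuation e
    rw [map_mul, map_pow, h1, h2, mul_one] at this
    exact this.symm
  have h4 : C.V₁.valuation g = 1 := (pow_eq_one_iff_of_nonneg zero_le hp0).mp h3
  constructor
  · exact (dlx_mem_iff g₁ C.V₁ C.hV₁ _).mp ((C.V₁.valuation_le_one_iff _).mp h4.le)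
  · refine (dlx_mem_iff g₁ C.V₁ C.hV₁ _).mp ((C.V₁.valuation_le_one_iff _).mp ?_)
    rw [map_inv₀, h4, inv_one]

include hfin hens hD0 hDhor hD1 hD2 in
/-- **the shape at a node** of a function whose two reductions are `p`-th powers and whose
horizontal orders are divisible by `p` -/
theorem node_shape {p : ℕ} (hp : p.Prime) [CharP k p] {z : F} (hz : z ≠ 0) (hz1 : z ∈ g₁.O)
    {v₁ : κ₁} (hv₁ : v₁ ≠ 0) (hr1 : g₁.res ⟨z, hz1⟩ = v₁ ^ p)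
    (hr2 : ∀ (m : ℤ) (hm : z / g₂.pi ^ m ∈ g₂.O), g₂.res ⟨_, hm⟩ ≠ 0 →
      ∃ e : κ₂, g₂.res ⟨_, hm⟩ = e ^ p)
    (hhor : ∀ (V : ValuationSubring F) (hV : V ∈ t4vpHor L C.x),
      (p : ℤ) ∣ (haveI := C.P.dvr V (C.hor_mem hV); dlOrd V z)) :
    ∃ g z₀ : F, g ≠ 0 ∧ z = g ^ p * z₀ ∧ DliShape (C.toNodAt hs) p 1 z₀ := by
  obtain ⟨g, z₀, hg, hz₀, hz₀i, e, hg1, hg1i⟩ := C.unit_rep_node hs hfin hens D hD0 hDhor hD1 hD2
    hp.ne_zero hz hz1 hv₁ hr1 hhor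
  have hz₀0 : z₀ ≠ 0 := by
    rintro rfl
    rw [mul_zero] at e
    exact hz e
  refine ⟨g, z₀, hg, e, ?_⟩
  -- the first residue of `z₀`
  have hgres0 : g₁.res ⟨g, hg1⟩ ≠ 0 := by
    intro h0
    have := g₁.res_mul' hg1 hg1i
    rw [h0, zero_mul, g₁.res_congr _ (mul_inv_cancel₀ hg), g₁.res_one'] at this
    exact one_ne_zero this
  have h1 : g₁.res ⟨z₀, C.A₁_le₁ _ _ hz₀⟩ = (v₁ / g₁.res ⟨g, hg1⟩) ^ p := by
    have hmem : g ^ p * z₀ ∈ g₁.O := g₁.O.mul_mem (g₁.O.pow_mem hg1 p) (C.A₁_le₁ _ _ hz₀)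
    have h2 : g₁.res ⟨g ^ p * z₀, hmem⟩ = v₁ ^ p := by
      rw [← hr1]
      exact (g₁.res_congr hz1 e).symm
    rw [g₁.res_mul' (g₁.O.pow_mem hg1 p) (C.A₁_le₁ _ _ hz₀), g₁.res_pow' hg1] at h2
    rw [div_pow, ← h2, mul_comm, mul_div_assoc, div_self (pow_ne_zero _ hgres0), mul_one]
  -- the second residue of `z₀`
  obtain ⟨m', u, hu, hui, hgu⟩ := g₂.exists_zpow_mul_unit g hg
  have hu0 : u ≠ 0 := by
    rintro rfl
    rw [mul_zero] at hgu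
    exact hg hgu
  have hures0 : g₂.res ⟨u, hu⟩ ≠ 0 := by
    intro h0
    have := g₂.res_mul' hu hui
    rw [h0, zero_mul, g₂.res_congr _ (mul_inv_cancel₀ hu0), g₂.res_one'] at this
    exact one_ne_zero this
  have hz₀2 : z₀ ∈ g₂.O := C.A₁_le₂ hs hz₀
  have hz₀2i : z₀⁻¹ ∈ g₂.O := C.A₁_le₂ hs hz₀i
  have hz₀res0 : g₂.res ⟨z₀, hz₀2⟩ ≠ 0 := by
    intro h0
    have := g₂.res_mul' hz₀2 hz₀2i
    rw [h0, zero_mul, g₂.res_congr _ (mul_inv_cancel₀ hz₀0), g₂.res_one'] at this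
    exact one_ne_zero this
  have hpi0 : g₂.pi ≠ 0 := g₂.pi_ne_zero
  have hzm : z / g₂.pi ^ (m' * (p : ℤ)) = u ^ p * z₀ := by
    rw [e, hgu, mul_pow, ← zpow_natCast (g₂.pi ^ m') p, ← zpow_mul]
    field_simp
  have hmem2 : u ^ p * z₀ ∈ g₂.O := g₂.O.mul_mem (g₂.O.pow_mem hu p) hz₀2
  have hm : z / g₂.pi ^ (m' * (p : ℤ)) ∈ g₂.O := by rw [hzm]; exact hmem2
  have hres2 : g₂.res ⟨_, hm⟩ = g₂.res ⟨u, hu⟩ ^ p * g₂.res ⟨z₀, hz₀2⟩ := by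
    rw [g₂.res_congr hm hzm, g₂.res_mul' (g₂.O.pow_mem hu p) hz₀2, g₂.res_pow' hu]
  obtain ⟨e₂, he₂⟩ := hr2 _ hm (by
    rw [hres2]; exact mul_ne_zero (pow_ne_zero _ hures0) hz₀res0)
  have h2 : g₂.res ⟨z₀, C.A₁_le₂ hs hz₀⟩ = (e₂ / g₂.res ⟨u, hu⟩) ^ p := by
    rw [div_pow, ← he₂, hres2, mul_comm, mul_div_assoc, div_self (pow_ne_zero _ hures0), mul_one]
  exact C.shape_of_res_pow hs hp hz₀ hz₀i hz₀0 h1 h2

end DlxChart

end Fermat.Agent.Delta
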