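/-
DELTA / I1 (helper9), part 24: **base change of norms**.

`E ⊆ F`, `E' ⊆ F'` finite field extensions of the same degree, `ιE : E → E'`, `ιF : F → F'` compatible
ring homomorphisms such that `ιF(F)` spans `F'` over `E'`.  Then
`ιE (N_{F/E} z) = N_{F'/E'} (ιF z)` (`dli_norm_baseChange`).

`dli_span_eq_top_of_closure`: the spanning hypothesis for subfields of a big field generated by
`E'` and `ιF(F)`.
-/
import Mathlib

set_option autoImplicit false
set_option linter.unusedSectionVars false
set_option linter.unusedVariables false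
set_option linter.style.haveILetI false

namespace Fermat.Agent.Delta

open Module

theorem dli_norm_baseChange {E F E' F' : Type*} [Field E] [Field F] [Field E'] [Field F']
    [Algebra E F] [Algebra E' F'] [FiniteDimensional E F]
    (ιE : E →+* E') (ιF : F →+* F')
    (hcomm : ∀ e : E, ιF (algebraMap E F e) = algebraMap E' F' (ιE e))
    (hrank : finrank E' F' = finrank E F)
    (hspan : Submodule.span E' (Set.range ιF) = ⊤) (z : F) :
    ιE (Algebra.norm E z) = Algebra.norm E' (ιF z) := by
  classical
  let b : Basis (Fin (finrank E F)) E F := Module.finBasis E F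
  have hrepr : ∀ f : F, ιF f = ∑ i, ιE (b.repr f i) • ιF (b i) := by
    intro f
    conv_lhs => rw [← b.sum_repr f]
    rw [map_sum]
    refine Finset.sum_congr rfl fun i _ => ?_
    rw [Algebra.smul_def, map_mul, hcomm, ← Algebra.smul_def]
  have hsp : ⊤ ≤ Submodule.span E' (Set.range fun i => ιF (b i)) := by
    rw [← hspan]
    apply Submodule.span_le.2
    rintro _ ⟨f, rfl⟩
    rw [hrepr f]
    exact Submodule.sum_mem _ fun i _ =>
      Submodule.smul_mem _ _ (Submodule.subset_span ⟨i, rfl⟩)
  have hli : LinearIndependent E' (fun i => ιF (b i)) :=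
    linearIndependent_of_top_le_span_of_card_eq_finrank hsp (by rw [Fintype.card_fin, hrank])
  let B' : Basis (Fin (finrank E F)) E' F' := Basis.mk hli hsp
  have hB' : ∀ i, B' i = ιF (b i) := fun i => Basis.mk_apply hli hsp i
  rw [Algebra.norm_eq_matrix_det b, Algebra.norm_eq_matrix_det B', RingHom.map_det]
  congr 1
  ext i j
  rw [RingHom.mapMatrix_apply, Matrix.map_apply, Algebra.leftMulMatrix_eq_repr_mul,
    Algebra.leftMulMatrix_eq_repr_mul]
  have h1 : ιF z * B' j = ∑ i, ιE (b.repr (z * b j) i) • B' i := by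
    rw [hB' j, ← map_mul, hrepr (z * b j)]
    exact Finset.sum_congr rfl fun i _ => by rw [hB' i]
  rw [h1, Basis.repr_sum_self]

/-- the spanning hypothesis of `dli_norm_baseChange`: `F'` (inside a big field `Ω`) is generated
as a field by elements of `E'` and of `ιF(F)`, and `F' / E'` is algebraic -/
theorem dli_span_eq_top {E' F' Ω F : Type*} [Field E'] [Field F'] [Field Ω] [Field F]
    [Algebra E' F'] [Algebra.IsAlgebraic E' F'] (val : F' →+* Ω) (ιF : F →+* F') (s : Set Ω)
    (hs : ∀ x : F', val x ∈ Subfield.closure s)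
    (hgen : ∀ a ∈ s, (∃ e : E', val (algebraMap E' F' e) = a) ∨ (∃ f : F, val (ιF f) = a)) :
    Submodule.span E' (Set.range ιF) = ⊤ := by
  set S : Subalgebra E' F' := Algebra.adjoin E' (Set.range ιF) with hS
  have hSspan : Subalgebra.toSubmodule S = Submodule.span E' (Set.range ιF) := by
    rw [hS, Algebra.adjoin_eq_span]
    congr 1
    have h1 : Set.range ιF = ((MonoidHom.mrange (ιF : F →* F') : Submonoid F') : Set F') := by
      ext x
      simp
    rw [h1, Submonoid.closure_eq]
  have hinv : ∀ x ∈ S, x⁻¹ ∈ S := fun x hx =>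
    S.inv_mem_of_algebraic (x := ⟨x, hx⟩) (Algebra.IsAlgebraic.isAlgebraic x)
  let K : Subfield F' := { S.toSubring with inv_mem' := hinv }
  have hK : Subfield.closure s ≤ K.map val := by
    rw [Subfield.closure_le]
    intro a ha
    rcases hgen a ha with ⟨e, rfl⟩ | ⟨f, rfl⟩
    · exact ⟨_, S.algebraMap_mem e, rfl⟩
    · exact ⟨_, Algebra.subset_adjoin ⟨f, rfl⟩, rfl⟩
  rw [← hSspan, eq_top_iff]
  intro x _
  obtain ⟨y, hy, hyx⟩ := hK (hs x)
  have hyx' : y = x := val.injective hyx
  rw [← hyx']
  exact hy

end Fermat.Agent.Delta
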