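/-
DELTA / I1 (helper9), part 25: **the norm conditions of `dliH1_toric` from the vanishing of the two
push-forwards** `α_* x = β_* x = 0` of a Kummer class `x = [div(Φ Z)/p]`, `Z` of level `H`.

* `dli_norm_alpha_bc` : `Φ (N_{α_H} z) = N_{α_ℚ̄} (Φ z)` (base change of norms `L_H → ℚ̄`);
* `dli_pow_descent`   : `Φ n₀ = t ^ m` ⇒ `n₀ = c · y₀ ^ m`, `c ∈ L_H^×`, `y₀` of level `H`;
* `dli_norm_cond_of_pushA`, `dli_norm_cond_of_pushB` : the hypotheses `hN₁`, `hN₂` of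
  `dliH1_toric`.
-/
import Fermat.Agent.Lib.Delta.Toric.Descent
import Fermat.Agent.Lib.Delta.Toric.NormBC
import Fermat.Agent.Lib.Delta.Toric.NormH
import Fermat.Agent.Lib.Delta.Wire.Push
import Fermat.Agent.Lib.T3.Hecke.Emb

set_option autoImplicit false
set_option linter.unusedSectionVars false
set_option linter.unusedVariables false
set_option linter.style.haveILetI false
set_option synthInstance.maxHeartbeats 400000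

open HahnSeries ModularCurve AlgebraicCurve Fermat.Agent.T1 Fermat.Agent.T2 Fermat.Agent.T3
  Fermat.Agent.TW Fermat.Agent.S05Lib Fermat.Agent.Alpha Module Fermat.Agent.S24Lib
  Fermat.Agent.T1.KMod

noncomputable section

namespace Fermat.Agent.Delta

local notation "Qb" => AlgebraicClosure ℚ
local notation "GQ" => (AlgebraicClosure ℚ ≃ₐ[ℚ] AlgebraicClosure ℚ)

variable (𝔓 : FFPlace) (H : Subgroup 𝔓.I)

attribute [local instance] t2i_dvr t2i_isAlgClosed t2i_charP t2i_fact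

attribute [local instance 10000] dliAlgF dliAlgE

section Gen

variable (N' q : ℕ) [NeZero N'] [NeZero q]

/-- going up commutes with `α` -/
theorem dli_tbPhiF_alpha (x : ↥(tbLevF 𝔓 N' H)) :
    tbPhiF 𝔓 (N' * q) H (heckeAlphaBar ↥(tbFix 𝔓 H) N' q x) =
      heckeAlphaBar Qb N' q (tbPhiF 𝔓 N' H x) := by
  apply Subtype.ext
  rw [coe_tbPhiF, coe_heckeAlphaBar, coe_heckeAlphaBar, coe_tbPhiF]

/-- `F_{ℚ̄}(N' q)` is spanned over `α F_{ℚ̄}(N')` by the functions of level `H` -/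
theorem dli_alpha_span (hfin : FiniteAlong Qb (heckeAlphaBar Qb N' q)) :
    letI := algebraAlong (heckeAlphaBar Qb N' q)
    Submodule.span ↥(modularFunctionFieldBar N') (Set.range (tbPhiF 𝔓 (N' * q) H)) = ⊤ := by
  letI := algebraAlong (heckeAlphaBar Qb N' q)
  haveI : Module.Finite ↥(modularFunctionFieldBar N') ↥(modularFunctionFieldBar (N' * q)) := hfin
  haveI : Algebra.IsAlgebraic ↥(modularFunctionFieldBar N') ↥(modularFunctionFieldBar (N' * q)) :=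
    Algebra.IsAlgebraic.of_finite _ _
  refine dli_span_eq_top
    (algebraMap ↥(modularFunctionFieldBar (N' * q)) (LaurentSeries Qb))
    (tbPhiF 𝔓 (N' * q) H)
    (Set.range (algebraMap Qb (LaurentSeries Qb)) ∪
      (⇑(coeffEmb Qb) '' ((modularFunctionFieldFull (N' * q)) : Set (LaurentSeries ℚ))))
    (fun x => mem_laurentBaseChange_iff.mp x.2) ?_
  rintro a (⟨c, rfl⟩ | ⟨z, hz, rfl⟩)
  · left
    refine ⟨algebraMap Qb ↥(modularFunctionFieldBar N') c, ?_⟩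
    show algebraMap ↥(modularFunctionFieldBar (N' * q)) (LaurentSeries Qb)
      (heckeAlphaBar Qb N' q (algebraMap Qb ↥(modularFunctionFieldBar N') c)) = _
    rw [AlgHom.commutes]
    rfl
  · right
    refine ⟨⟨coeffEmb ↥(tbFix 𝔓 H) z, coeffEmb_mem_laurentBaseChange ↥(tbFix 𝔓 H) hz⟩, ?_⟩
    show tbPhi 𝔓 H (coeffEmb ↥(tbFix 𝔓 H) z) = coeffEmb Qb z
    exact tdx_coeffMap_emb (algebraMap ↥(tbFix 𝔓 H) Qb) z

/-- **base change of the norm along `α`** from `L_H` to `ℚ̄` -/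
theorem dli_norm_alpha_bc (hfin : FiniteAlong Qb (heckeAlphaBar Qb N' q))
    (hfinH : FiniteAlong ↥(tbFix 𝔓 H) (heckeAlphaBar ↥(tbFix 𝔓 H) N' q))
    (hrank : finrankAlong Qb (heckeAlphaBar Qb N' q) =
      finrankAlong ↥(tbFix 𝔓 H) (heckeAlphaBar ↥(tbFix 𝔓 H) N' q))
    (z : ↥(tbLevF 𝔓 (N' * q) H)) :
    tbPhiF 𝔓 N' H (t3pNormAlong (heckeAlphaBar ↥(tbFix 𝔓 H) N' q) z) =
      t3pNormAlong (heckeAlphaBar Qb N' q) (tbPhiF 𝔓 (N' * q) H z) := by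
  letI := algebraAlong (heckeAlphaBar Qb N' q)
  letI := algebraAlong (heckeAlphaBar ↥(tbFix 𝔓 H) N' q)
  haveI : FiniteDimensional ↥(tbLevF 𝔓 N' H) ↥(tbLevF 𝔓 (N' * q) H) := hfinH
  exact dli_norm_baseChange (tbPhiF 𝔓 N' H) (tbPhiF 𝔓 (N' * q) H)
    (fun e => dli_tbPhiF_alpha 𝔓 H N' q e) hrank (dli_alpha_span 𝔓 H N' q hfin) z

end Gen

/-! ### Descent of `m`-th roots -/

section Pow

variable (N : ℕ) [NeZero N]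

theorem dli_tbPhiF_algebraMap (c : ↥(tbFix 𝔓 H)) :
    tbPhiF 𝔓 N H (algebraMap ↥(tbFix 𝔓 H) ↥(tbLevF 𝔓 N H) c) =
      algebraMap Qb ↥(modularFunctionFieldBar N) (algebraMap ↥(tbFix 𝔓 H) Qb c) := by
  apply Subtype.ext
  rw [coe_tbPhiF]
  exact tdx_coeffMap_algebraMap (algebraMap ↥(tbFix 𝔓 H) Qb) c

theorem dliLc_tbPhiF (f : ↥(tbLevF 𝔓 N H)) :
    dliLc N (tbPhiF 𝔓 N H f) =
      algebraMap ↥(tbFix 𝔓 H) Qb (f : LaurentSeries ↥(tbFix 𝔓 H)).leadingCoeff := by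
  rw [dliLc, coe_tbPhiF, HahnSeries.leadingCoeff_eq, HahnSeries.leadingCoeff_eq,
    tdx_order_coeffMap, coeffMap_coeff]

/-- **descent of `m`-th roots**: a function of level `H` which is an `m`-th power over `ℚ̄` is a
constant times an `m`-th power at level `H` -/
theorem dli_pow_descent {m : ℕ} (hm : m ≠ 0) (n₀ : ↥(tbLevF 𝔓 N H)) (hn₀ : n₀ ≠ 0)
    (t : ↥(modularFunctionFieldBar N)) (ht : tbPhiF 𝔓 N H n₀ = t ^ m) :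
    ∃ c : ↥(tbFix 𝔓 H), c ≠ 0 ∧ ∃ y₀ : ↥(tbLevF 𝔓 N H),
      n₀ = algebraMap ↥(tbFix 𝔓 H) ↥(tbLevF 𝔓 N H) c * y₀ ^ m := by
  set c : ↥(tbFix 𝔓 H) := (n₀ : LaurentSeries ↥(tbFix 𝔓 H)).leadingCoeff with hc
  have hc0 : c ≠ 0 := by
    rw [hc, HahnSeries.leadingCoeff_ne_zero]
    exact fun h => hn₀ (Subtype.ext h)
  have hcQ : algebraMap ↥(tbFix 𝔓 H) Qb c ≠ 0 := (map_ne_zero _).mpr hc0
  have hΦ0 : tbPhiF 𝔓 N H n₀ ≠ 0 := (map_ne_zero _).mpr hn₀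
  have ht0 : t ≠ 0 := by
    rintro rfl
    rw [zero_pow hm] at ht
    exact hΦ0 ht
  have hlct0 : dliLc N t ≠ 0 := dliLc_ne_zero N ht0
  have hlct : dliLc N t ^ m = algebraMap ↥(tbFix 𝔓 H) Qb c := by
    rw [← dliLc_pow, ← ht, dliLc_tbPhiF]
  -- the normalised root
  set t' : ↥(modularFunctionFieldBar N) :=
    t * algebraMap Qb ↥(modularFunctionFieldBar N) (dliLc N t)⁻¹ with ht'
  have ht'0 : t' ≠ 0 := mul_ne_zero ht0 ((map_ne_zero _).mpr (inv_ne_zero hlct0))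
  have hlct' : dliLc N t' = 1 := by
    rw [ht', dliLc_mul, dliLc_algebraMap, mul_inv_cancel₀ hlct0]
  have hpow : t' ^ m = tbPhiF 𝔓 N H
      (n₀ * algebraMap ↥(tbFix 𝔓 H) ↥(tbLevF 𝔓 N H) c⁻¹) := by
    rw [ht', mul_pow, ← map_pow, inv_pow, hlct, map_mul, dli_tbPhiF_algebraMap, ht]
    simp only [map_inv₀]
  -- it is invariant
  have hinv : ∀ σ : 𝔓.I, σ ∈ H →
      arithmeticRingAut (modularFunctionFieldFull N) ((σ : 𝔓.I) : GQ) t' = t' := by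
    intro σ hσ
    apply dli_eq_of_pow_eq N hm ht'0
    · rw [← map_pow, hpow, t2w_arith_tbPhiF 𝔓 N H σ hσ]
    · rw [dliLc_arith, hlct', map_one]
  obtain ⟨y₀, hy₀⟩ := t2w_exists_tbPhiF_eq 𝔓 N H t' hinv
  refine ⟨c, hc0, y₀, ?_⟩
  have h1 : n₀ * algebraMap ↥(tbFix 𝔓 H) ↥(tbLevF 𝔓 N H) c⁻¹ = y₀ ^ m := by
    apply tbPhiF_injective 𝔓 N H
    rw [← hpow, map_pow, hy₀]
  rw [← h1, mul_comm n₀, ← mul_assoc, ← map_mul, mul_inv_cancel₀ hc0, map_one, one_mul]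

end Pow

/-! ### The norm conditions -/

section Lev

variable [H.FiniteIndex] (N' : ℕ) [NeZero N'] (h : ¬ 𝔓.p ∣ N')

attribute [local instance] t2iAlgebra t2i_isScalarTower

include h in
theorem dli_finrankAlong_alphaH :
    finrankAlong ↥(tbFix 𝔓 H) (heckeAlphaBar ↥(tbFix 𝔓 H) N' 𝔓.p) = 𝔓.p + 1 := by
  rw [← dliH_finrank_E1 𝔓 H N' h]
  exact (dli_finrank_range (L := ↥(tbFix 𝔓 H)) (F' := ↥(tbLevF 𝔓 N' H))
    (F := ↥(tbLevF 𝔓 (N' * 𝔓.p) H))).symm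

include h in
theorem dli_finiteAlong_alphaH :
    FiniteAlong ↥(tbFix 𝔓 H) (heckeAlphaBar ↥(tbFix 𝔓 H) N' 𝔓.p) := by
  have h1 := dli_finrankAlong_alphaH 𝔓 H N' h
  exact Module.finite_of_finrank_pos (by rw [show Module.finrank ↥(tbLevF 𝔓 N' H)
    ↥(tbLevF 𝔓 (N' * 𝔓.p) H) = 𝔓.p + 1 from h1]; omega)

/-- the norm to `E₁` is `α` of the norm along `α` -/
theorem dli_norm_E1_eq (z : ↥(tbLevF 𝔓 (N' * 𝔓.p) H)) :
    Algebra.norm ↥(dliE1H 𝔓 H N') z =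
      dliToRange (L := ↥(tbFix 𝔓 H)) (F := ↥(tbLevF 𝔓 (N' * 𝔓.p) H))
        (t3pNormAlong (heckeAlphaBar ↥(tbFix 𝔓 H) N' 𝔓.p) z) := by
  have h1 := Algebra.norm_eq_of_equiv_equiv
    (dliToRange (L := ↥(tbFix 𝔓 H)) (F' := ↥(tbLevF 𝔓 N' H)) (F := ↥(tbLevF 𝔓 (N' * 𝔓.p) H)))
    (RingEquiv.refl ↥(tbLevF 𝔓 (N' * 𝔓.p) H)) (by ext b; rfl) z
  have h2 : t3pNormAlong (heckeAlphaBar ↥(tbFix 𝔓 H) N' 𝔓.p) z =
      Algebra.norm ↥(tbLevF 𝔓 N' H) z := rfl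
  rw [h2, h1, RingEquiv.apply_symm_apply]
  rfl

include h in
/-- the norm condition at level `H` from a `p`-th root of the norm over `ℚ̄` -/
theorem dli_norm_cond_of_root (z : ↥(tbLevF 𝔓 (N' * 𝔓.p) H)) (hz : z ≠ 0)
    (t : ↥(modularFunctionFieldBar N'))
    (ht : t3pNormAlong (heckeAlphaBar Qb N' 𝔓.p) (tbPhiF 𝔓 (N' * 𝔓.p) H z) = t ^ 𝔓.p) :
    ∃ c : ↥(tbFix 𝔓 H), c ≠ 0 ∧ ∃ y : ↥(dliE1H 𝔓 H N'),
      Algebra.norm ↥(dliE1H 𝔓 H N') z =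
        algebraMap ↥(tbFix 𝔓 H) ↥(dliE1H 𝔓 H N') c * y ^ 𝔓.p := by
  have hfinH := dli_finiteAlong_alphaH 𝔓 H N' h
  have hbc := dli_norm_alpha_bc 𝔓 H N' 𝔓.p (t3h_alphaFinite N' 𝔓.p) hfinH
    (by rw [t3k_finrank_alpha N' 𝔓.p h, dli_finrankAlong_alphaH 𝔓 H N' h]) z
  rw [ht] at hbc
  have hn0 : t3pNormAlong (heckeAlphaBar ↥(tbFix 𝔓 H) N' 𝔓.p) z ≠ 0 := by
    haveI : Module.Finite ↥(tbLevF 𝔓 N' H) ↥(tbLevF 𝔓 (N' * 𝔓.p) H) := hfinH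
    exact (Algebra.norm_ne_zero_iff (R := ↥(tbLevF 𝔓 N' H))).mpr hz
  obtain ⟨c, hc0, y₀, hy₀⟩ := dli_pow_descent 𝔓 H N' 𝔓.hp.ne_zero _ hn0 t hbc
  refine ⟨c, hc0, dliToRange (L := ↥(tbFix 𝔓 H)) (F := ↥(tbLevF 𝔓 (N' * 𝔓.p) H)) y₀, ?_⟩
  rw [dli_norm_E1_eq, hy₀, map_mul, map_pow]
  congr 1

include h in
/-- **`hN₁` of `dliH1_toric`** from `α_* [div(Φ Z)/p] = 0` -/
theorem dli_norm_cond_of_pushA (hp : 𝔓.p ≠ 0) (Z : ↥(tbLevF 𝔓 (N' * 𝔓.p) H))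
    (hZ0 : tbPhiF 𝔓 (N' * 𝔓.p) H Z ≠ 0)
    (hZ : ∀ v : Place Qb ↥(modularFunctionFieldBar (N' * 𝔓.p)),
      (𝔓.p : ℤ) ∣ v.ord (tbPhiF 𝔓 (N' * 𝔓.p) H Z))
    (hA : dlwPushA N' 𝔓.p (alpfClass hp (Units.mk0 (tbPhiF 𝔓 (N' * 𝔓.p) H Z) hZ0) hZ) = 0) :
    ∃ c : ↥(tbFix 𝔓 H), c ≠ 0 ∧ ∃ y : ↥(dliE1H 𝔓 H N'),
      Algebra.norm ↥(dliE1H 𝔓 H N') Z =
        algebraMap ↥(tbFix 𝔓 H) ↥(dliE1H 𝔓 H N') c * y ^ 𝔓.p := by
  have hz : Z ≠ 0 := fun h0 => hZ0 (by rw [h0, map_zero])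
  rw [dlwPushA, dlwPushAlong_class] at hA
  obtain ⟨t, ht⟩ := (alpt_kummer_ker N' 𝔓.p hp _ _).mp hA
  have ht' := congrArg (fun u : (↥(modularFunctionFieldBar N'))ˣ =>
    (u : ↥(modularFunctionFieldBar N'))) ht
  simp only [coe_dlwNormUnit, Units.val_mk0, Units.val_pow_eq_pow_val] at ht'
  exact dli_norm_cond_of_root 𝔓 H N' h Z hz (t : ↥(modularFunctionFieldBar N')) ht'

/-- **`hN₂` of `dliH1_toric`** from `β_* [div(Φ Z)/p] = 0` -/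
theorem dli_norm_cond_of_pushB (hp : 𝔓.p ≠ 0) (Z : ↥(tbLevF 𝔓 (N' * 𝔓.p) H))
    (hZ0 : tbPhiF 𝔓 (N' * 𝔓.p) H Z ≠ 0)
    (hZ : ∀ v : Place Qb ↥(modularFunctionFieldBar (N' * 𝔓.p)),
      (𝔓.p : ℤ) ∣ v.ord (tbPhiF 𝔓 (N' * 𝔓.p) H Z))
    (hB : dlwPushB N' 𝔓.p (alpfClass hp (Units.mk0 (tbPhiF 𝔓 (N' * 𝔓.p) H Z) hZ0) hZ) = 0) :
    ∃ c : ↥(tbFix 𝔓 H), c ≠ 0 ∧ ∃ y : ↥(dliE1H 𝔓 H N'),
      Algebra.norm ↥(dliE1H 𝔓 H N') ((t2iALFix 𝔓 H N' h).w Z) =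
        algebraMap ↥(tbFix 𝔓 H) ↥(dliE1H 𝔓 H N') c * y ^ 𝔓.p := by
  have hz : Z ≠ 0 := fun h0 => hZ0 (by rw [h0, map_zero])
  have hwz : (t2iALFix 𝔓 H N' h).w Z ≠ 0 := (map_ne_zero _).mpr hz
  rw [dlwPushB, dlwPushAlong_class] at hB
  obtain ⟨t, ht⟩ := (alpt_kummer_ker N' 𝔓.p hp _ _).mp hB
  have ht' := congrArg (fun u : (↥(modularFunctionFieldBar N'))ˣ =>
    (u : ↥(modularFunctionFieldBar N'))) ht
  simp only [coe_dlwNormUnit, Units.val_mk0, Units.val_pow_eq_pow_val] at ht'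
  refine dli_norm_cond_of_root 𝔓 H N' h _ hwz (t : ↥(modularFunctionFieldBar N')) ?_
  rw [← ht']
  have h1 : tbPhiF 𝔓 (N' * 𝔓.p) H ((t2iALFix 𝔓 H N' h).w Z) =
      t2w Qb N' 𝔓.p h (tbPhiF 𝔓 (N' * 𝔓.p) H Z) := tbPhiF_t2wLev 𝔓 H N' 𝔓.p h Z
  rw [h1]
  exact (t3k_norm_beta_eq N' 𝔓.p h (tbPhiF 𝔓 (N' * 𝔓.p) H Z)).symm

include h in
/-- **stage 0 of (I1)**: a `p`-torsion point `x` of `J₀(N' p)` fixed by `H ≤ I_𝔓` with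
`α_* x = β_* x = 0` is the Kummer class of a function `Z` of level `H` satisfying the two norm
conditions of `dliH1_toric` -/
theorem dli_kummer_norm_conds (x : JZero (N' * 𝔓.p)) (hx : (𝔓.p : ℤ) • x = 0)
    (hfix : ∀ σ ∈ H, ((σ : 𝔓.I) : GQ) • x = x)
    (hA : dlwPushA N' 𝔓.p x = 0) (hB : dlwPushB N' 𝔓.p x = 0) :
    ∃ (Z : ↥(tbLevF 𝔓 (N' * 𝔓.p) H)) (hZ0 : tbPhiF 𝔓 (N' * 𝔓.p) H Z ≠ 0)
      (hZ : ∀ v : Place Qb ↥(modularFunctionFieldBar (N' * 𝔓.p)),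
        (𝔓.p : ℤ) ∣ v.ord (tbPhiF 𝔓 (N' * 𝔓.p) H Z)),
      alpfClass 𝔓.hp.ne_zero (Units.mk0 (tbPhiF 𝔓 (N' * 𝔓.p) H Z) hZ0) hZ = x ∧
      (∃ c : ↥(tbFix 𝔓 H), c ≠ 0 ∧ ∃ y : ↥(dliE1H 𝔓 H N'),
        Algebra.norm ↥(dliE1H 𝔓 H N') Z =
          algebraMap ↥(tbFix 𝔓 H) ↥(dliE1H 𝔓 H N') c * y ^ 𝔓.p) ∧
      (∃ c : ↥(tbFix 𝔓 H), c ≠ 0 ∧ ∃ y : ↥(dliE1H 𝔓 H N'),
        Algebra.norm ↥(dliE1H 𝔓 H N') ((t2iALFix 𝔓 H N' h).w Z) =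
          algebraMap ↥(tbFix 𝔓 H) ↥(dliE1H 𝔓 H N') c * y ^ 𝔓.p) := by
  obtain ⟨Z, hZ0, hZ, hcl⟩ := dli_kummer_descent (N' * 𝔓.p) 𝔓 H 𝔓.hp.ne_zero x hx hfix
  refine ⟨Z, hZ0, hZ, hcl, ?_, ?_⟩
  · exact dli_norm_cond_of_pushA 𝔓 H N' h 𝔓.hp.ne_zero Z hZ0 hZ (by rw [hcl]; exact hA)
  · exact dli_norm_cond_of_pushB 𝔓 H N' h 𝔓.hp.ne_zero Z hZ0 hZ (by rw [hcl]; exact hB)

end Lev

end Fermat.Agent.Delta
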