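/-
DELTA / (I1-b) (helper9), part 2: **(RES-P)** — the reductions of a function which is, over `ℚ̄`,
a unit `≡ (1, 1)` times a `p`-th power are `p`-th powers.

* `dli_gauss_of_pow`   : `S ^ n` Gauss (`n ≠ 0`) ⇒ `S` Gauss (function field of `X₀(N)` over `ℚ̄`);
* `dli_gauss_descend`  : a Gauss function over `ℚ̄` is `Φ_H` of a Gauss function of a finite level;
* `dli_rho_mem`        : the reduction of a Gauss function of `X₀(N' p)` over `ℚ̄` lies in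
  `k(X₀(N'))`;
* **`dli_res_pow_inf`** : `f ∈ F_H(N' p)`, Gauss at `v_∞`, `Φ f = t · S ^ p` with `t ≡ 1` at `v_∞`
  ⇒ `res_∞ f = e ^ p`;
* **`dli_res_pow_zero`** : the same at `v_0 = v_∞ ∘ w` (for `t ≡ 1` at `v_0`).
-/
import Fermat.Agent.Lib.Delta.Toric.InstH
import Fermat.Agent.Lib.S33.F12.Tors

set_option autoImplicit false
set_option linter.unusedSectionVars false
set_option linter.unusedVariables false
set_option linter.style.haveILetI false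
set_option synthInstance.maxHeartbeats 400000

open HahnSeries ModularCurve AlgebraicCurve Fermat.Agent.T1 Fermat.Agent.T2 Fermat.Agent.TW
  Fermat.Agent.S05Lib Fermat.Agent.S33 Fermat.Agent.S24Lib Fermat.Agent.T1.KMod

noncomputable section

namespace Fermat.Agent.Delta

local notation "Qb" => AlgebraicClosure ℚ

section Gauss

variable (𝔓 : FFPlace) (N : ℕ) [NeZero N]

/-- a function of `X₀(N)` over `ℚ̄` one of whose powers is Gauss is Gauss -/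
theorem dli_gauss_of_pow {S : LaurentSeries Qb} (hS : S ∈ modularFunctionFieldBar N) {n : ℕ}
    (hn : n ≠ 0) (h : TbGauss 𝔓.P (IsLocalRing.residue ↥𝔓.P) (S ^ n)) :
    TbGauss 𝔓.P (IsLocalRing.residue ↥𝔓.P) S := by
  rcases s33g_gauss_or_inv 𝔓 N hS with h1 | h1
  · exact h1
  rcases eq_or_ne S 0 with rfl | hS0
  · exact (tbGaussSubring _ _).zero_mem
  have h2 : TbGauss 𝔓.P (IsLocalRing.residue ↥𝔓.P) (S⁻¹ ^ n) :=
    (tbGaussSubring 𝔓.P (IsLocalRing.residue ↥𝔓.P)).pow_mem h1 n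
  have h3 : S ^ n * S⁻¹ ^ n = 1 := by
    rw [← mul_pow, mul_inv_cancel₀ hS0, one_pow]
  have h4 := tbRhoFun_mul 𝔓.P (IsLocalRing.residue ↥𝔓.P) h h2
  rw [h3, tbRhoFun_one, s33g_rho_pow 𝔓 h1] at h4
  have h5 : tbRhoFun 𝔓.P (IsLocalRing.residue ↥𝔓.P) S⁻¹ ≠ 0 := by
    intro h0
    rw [h0, zero_pow hn, mul_zero] at h4
    exact one_ne_zero h4
  have h6 := tbGauss_inv 𝔓.P (IsLocalRing.residue ↥𝔓.P) h1 h5
  rwa [inv_inv] at h6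

/-- a Gauss function over `ℚ̄` comes from a Gauss function of a finite level -/
theorem dli_gauss_descend {S : LaurentSeries Qb} (hS : S ∈ modularFunctionFieldBar N)
    (hG : TbGauss 𝔓.P (IsLocalRing.residue ↥𝔓.P) S) :
    ∃ (H : Subgroup 𝔓.I) (_ : H.FiniteIndex) (S' : LaurentSeries ↥(tbFix 𝔓 H)),
      S' ∈ tbLevF 𝔓 N H ∧ tbPhi 𝔓 H S' = S ∧ TbGauss (tbFixO 𝔓 H) (tbFixRes 𝔓 H) S' := by
  obtain ⟨H, hH, -, hT⟩ := tbd_exists_level (modularFunctionFieldFull N) 𝔓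
    ({()} : Finset Unit) (fun _ => S) (fun _ _ => hS) ∅
  obtain ⟨fH, hfH, rfl⟩ := hT () (Finset.mem_singleton_self _)
  haveI := hH
  haveI : IsDiscreteValuationRing ↥(tbFixO 𝔓 H) := tbFixO_dvr 𝔓 H
  obtain ⟨ϖ, hϖ⟩ := IsDiscreteValuationRing.exists_irreducible ↥(tbFixO 𝔓 H)
  have hfrac : TaFrac (tbFixO 𝔓 H) fH := ta_frac_of_mem (tbFixO 𝔓 H) N fH hfH
  refine ⟨H, hH, fH, hfH, rfl, ?_⟩
  rcases ta_gauss_or_inv (π := tbFixRes 𝔓 H) (tbFixRes_surjective 𝔓 H) hϖ hfrac with h1 | h1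
  · exact h1
  have h1' : TbGauss (tbFixO 𝔓 H) (tbFixRes 𝔓 H) fH⁻¹ := h1
  rcases eq_or_ne fH 0 with rfl | h0
  · exact (tbGaussSubring _ _).zero_mem
  have hΦ0 : tbPhi 𝔓 H fH ≠ 0 := by
    intro h2
    exact h0 (tbPhi_injective 𝔓 H (by rw [h2, map_zero]))
  have h2 := tbPhi_gauss 𝔓 H h1'
  have h3 : tbPhi 𝔓 H fH * tbPhi 𝔓 H fH⁻¹ = 1 := by
    rw [← map_mul, mul_inv_cancel₀ h0, map_one]
  have h4 := tbRhoFun_mul 𝔓.P (IsLocalRing.residue ↥𝔓.P) hG h2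
  rw [h3, tbRhoFun_one, tbPhi_rho 𝔓 H h1'] at h4
  have h5 : tbRhoFun (tbFixO 𝔓 H) (tbFixRes 𝔓 H) fH⁻¹ ≠ 0 := by
    intro h0'
    rw [h0', mul_zero] at h4
    exact one_ne_zero h4
  have h6 := tbGauss_inv (tbFixO 𝔓 H) (tbFixRes 𝔓 H) h1' h5
  rwa [inv_inv] at h6

end Gauss

variable (𝔓 : FFPlace)

attribute [local instance] t2i_dvr t2i_isAlgClosed t2i_charP t2i_fact
attribute [local instance 10000] dliAlgF dliAlgE

variable (N' : ℕ) [NeZero N'] (h : ¬ 𝔓.p ∣ N')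

include h in
/-- **the reduction of a Gauss function of `X₀(N' p)` over `ℚ̄` is a function of `X₀(N')`** -/
theorem dli_rho_mem {S : LaurentSeries Qb} (hS : S ∈ modularFunctionFieldBar (N' * 𝔓.p))
    (hG : TbGauss 𝔓.P (IsLocalRing.residue ↥𝔓.P) S) :
    tbRhoFun 𝔓.P (IsLocalRing.residue ↥𝔓.P) S ∈ tbBarF 𝔓 N' := by
  obtain ⟨H, hH, S', hS', rfl, hG'⟩ := dli_gauss_descend 𝔓 (N' * 𝔓.p) hS hG
  haveI := hH
  haveI : IsDiscreteValuationRing ↥(tbFixO 𝔓 H) := tbFixO_dvr 𝔓 H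
  obtain ⟨ϖ, hϖ⟩ := IsDiscreteValuationRing.exists_irreducible ↥(tbFixO 𝔓 H)
  have hm : (⟨S', hS'⟩ : ↥(tbLevF 𝔓 (N' * 𝔓.p) H)) ∈ (dliInfH 𝔓 H hϖ N' h).O := hG'
  have h1 := coe_dliInfH_res 𝔓 H hϖ N' h ⟨S', hS'⟩ hm
  rw [tbPhi_rho 𝔓 H hG']
  have h2 : tbRhoFun (tbFixO 𝔓 H) (tbFixRes 𝔓 H) S' =
      (((dliInfH 𝔓 H hϖ N' h).res ⟨⟨S', hS'⟩, hm⟩ : ↥(tbBarF 𝔓 N')) :
        LaurentSeries (IsLocalRing.ResidueField ↥𝔓.P)) := h1.symm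
  rw [h2]
  exact SetLike.coe_mem _

variable (H : Subgroup 𝔓.I) [H.FiniteIndex] {ϖ : ↥(tbFixO 𝔓 H)} (hϖ : Irreducible ϖ)

/-- **(RES-P) at `v_∞`** -/
theorem dli_res_pow_inf (f : ↥(tbLevF 𝔓 (N' * 𝔓.p) H)) (hf : f ∈ (dliInfH 𝔓 H hϖ N' h).O)
    {t S : ↥(modularFunctionFieldBar (N' * 𝔓.p))}
    (ht : s33gOne 𝔓 (t : LaurentSeries Qb))
    (hΦ : tbPhiF 𝔓 (N' * 𝔓.p) H f = t * S ^ 𝔓.p) :
    ∃ e : ↥(tbBarF 𝔓 N'), (dliInfH 𝔓 H hϖ N' h).res ⟨f, hf⟩ = e ^ 𝔓.p := by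
  have hfG : TbGauss (tbFixO 𝔓 H) (tbFixRes 𝔓 H) (f : LaurentSeries ↥(tbFix 𝔓 H)) := hf
  have hΦG := tbPhi_gauss 𝔓 H hfG
  have hΦ' : tbPhi 𝔓 H (f : LaurentSeries ↥(tbFix 𝔓 H)) =
      (t : LaurentSeries Qb) * (S : LaurentSeries Qb) ^ 𝔓.p := by
    have := congrArg (Subtype.val : ↥(modularFunctionFieldBar (N' * 𝔓.p)) → LaurentSeries Qb) hΦ
    rw [coe_tbPhiF] at this
    exact this
  -- `S ^ p` is Gauss
  have ht0 : (t : LaurentSeries Qb) ≠ 0 := by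
    intro h0
    have := ht.2
    rw [h0, tbRhoFun_zero] at this
    exact zero_ne_one this
  have hSp : (S : LaurentSeries Qb) ^ 𝔓.p =
      tbPhi 𝔓 H (f : LaurentSeries ↥(tbFix 𝔓 H)) * (t : LaurentSeries Qb)⁻¹ := by
    rw [hΦ', mul_comm (t : LaurentSeries Qb), mul_assoc, mul_inv_cancel₀ ht0, mul_one]
  have hSpG : TbGauss 𝔓.P (IsLocalRing.residue ↥𝔓.P) ((S : LaurentSeries Qb) ^ 𝔓.p) := by
    rw [hSp]
    exact (tbGaussSubring 𝔓.P (IsLocalRing.residue ↥𝔓.P)).mul_mem hΦG ht.inv.1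
  have hSG := dli_gauss_of_pow 𝔓 (N' * 𝔓.p) S.2 𝔓.hp.ne_zero hSpG
  -- the reduction of `S`
  have hmem := dli_rho_mem 𝔓 N' h S.2 hSG
  refine ⟨⟨_, hmem⟩, ?_⟩
  apply Subtype.ext
  rw [coe_dliInfH_res, ← tbPhi_rho 𝔓 H hfG, hΦ',
    tbRhoFun_mul 𝔓.P (IsLocalRing.residue ↥𝔓.P) ht.1 hSpG, ht.2, one_mul, s33g_rho_pow 𝔓 hSG]
  rfl

/-- **(RES-P) at `v_0`** -/
theorem dli_res_pow_zero (f : ↥(tbLevF 𝔓 (N' * 𝔓.p) H)) (hf : f ∈ (dliZeroH 𝔓 H hϖ N' h).O)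
    {t S : ↥(modularFunctionFieldBar (N' * 𝔓.p))}
    (ht : s33gOne 𝔓 ((t2w Qb N' 𝔓.p h t : ↥(modularFunctionFieldBar (N' * 𝔓.p))) :
      LaurentSeries Qb))
    (hΦ : tbPhiF 𝔓 (N' * 𝔓.p) H f = t * S ^ 𝔓.p) :
    ∃ e : ↥(tbBarF 𝔓 N'), (dliZeroH 𝔓 H hϖ N' h).res ⟨f, hf⟩ = e ^ 𝔓.p := by
  rw [dliZeroH_res]
  refine dli_res_pow_inf 𝔓 N' h H hϖ (t2wLev 𝔓 H N' 𝔓.p h f) hf
    (t := t2w Qb N' 𝔓.p h t) (S := t2w Qb N' 𝔓.p h S) ht ?_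
  rw [tbPhiF_t2wLev, hΦ, map_mul, map_pow]

end Fermat.Agent.Delta
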