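/-
DELTA / (I1-b) per node (helper9), part 4: **the toric presentation at ONE node of a chart at the
tame level `H₁`** (abstract in the chart `C : DlxChart (dliInf1 𝔓 N' h) (dliZero1 𝔓 N' h) σ`).

* `dli_hor_dvd`       : `p ∣ ord_P (Φ f)` at all places of `F_{ℚ̄}(N)` ⇒ `p ∣ ord_V f` at every
  horizontal valuation ring `V` of `F_H(N)` (helper1's `t4ru_cfe_fix`);
* `dli_phi_div_const` : `Φ Z = t S ^ p` ⇒ `Φ (Z / c ^ j) = t S' ^ p` (`c ∈ K_H^×`);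
* `DliNC`             : the norm condition "`N_{F/E}(f) ∈ K^× E^{×p}`", stable under products,
  constants, `p`-th powers and `K`-automorphisms;
* **`dli_node_form`** : for `Z` of level `H₁` with `Φ Z = t S ^ p` (`t ≡ (1, 1)`), `p ∣ div (Φ Z)` and
  the two norm conditions: at every node `s` of the chart
  `Z = c · W ^ p · (1 + ϖ ^ p b)`, `c ∈ K₁^×`, `W ∈ F^×`, `b ∈ A_s`, `res b` of Artin–Schreier type.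
-/
import Fermat.Agent.Lib.Delta.Toric.NodeForm
import Fermat.Agent.Lib.Delta.Toric.ResPow
import Fermat.Agent.Lib.Delta.Toric.MainH
import Fermat.Agent.Lib.Delta.Toric.NormAlpha
import Fermat.Agent.Lib.T4.Reg.UnrCfe

set_option autoImplicit false
set_option linter.unusedSectionVars false
set_option linter.unusedVariables false
set_option linter.style.haveILetI false
set_option synthInstance.maxHeartbeats 400000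

open HahnSeries ModularCurve AlgebraicCurve Fermat.Agent.T1 Fermat.Agent.T2 Fermat.Agent.TW
  Fermat.Agent.S05Lib Fermat.Agent.S33 Fermat.Agent.S24Lib Fermat.Agent.T1.KMod Fermat.Agent.T4
  Module

noncomputable section

namespace Fermat.Agent.Delta

local notation "Qb" => AlgebraicClosure ℚ

/-! ### The norm condition -/

section NC

variable {K F : Type*} [Field K] [Field F] [Algebra K F] (E : IntermediateField K F) (p : ℕ)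

/-- the norm condition: `N_{F/E}(f) ∈ K^× · E^{×p}` -/
def DliNC (f : F) : Prop :=
  ∃ c : K, c ≠ 0 ∧ ∃ y : ↥E, Algebra.norm ↥E f = algebraMap K ↥E c * y ^ p

variable {E p}

theorem DliNC.mul {f f' : F} (hf : DliNC E p f) (hf' : DliNC E p f') : DliNC E p (f * f') := by
  obtain ⟨c, hc, y, hy⟩ := hf
  obtain ⟨c', hc', y', hy'⟩ := hf'
  refine ⟨c * c', mul_ne_zero hc hc', y * y', ?_⟩
  rw [map_mul, hy, hy', map_mul, mul_pow]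
  ring

theorem DliNC.const {c : K} (hc : c ≠ 0) : DliNC E p (algebraMap K F c) := by
  refine ⟨c ^ Module.finrank ↥E F, pow_ne_zero _ hc, 1, ?_⟩
  rw [IsScalarTower.algebraMap_apply K ↥E F c, Algebra.norm_algebraMap, one_pow, mul_one, map_pow]

theorem DliNC.pow_p (g : F) : DliNC E p (g ^ p) := by
  refine ⟨1, one_ne_zero, Algebra.norm ↥E g, ?_⟩
  rw [map_pow, map_one, one_mul]

end NC

variable (𝔓 : FFPlace)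

attribute [local instance] t2i_dvr t2i_isAlgClosed t2i_charP t2i_fact
attribute [local instance 10000] dliAlgF dliAlgE

/-! ### Horizontal orders and constants -/

section Gen

variable (H : Subgroup 𝔓.I) (N : ℕ) [NeZero N]

/-- **horizontal orders**: divisibility of the divisor over `ℚ̄` gives divisibility of the orders at
the horizontal valuation rings of a chart -/
theorem dli_hor_dvd {x : ↥(tbLevF 𝔓 N H)} (V : ValuationSubring ↥(tbLevF 𝔓 N H))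
    (hV : V ∈ t4vpHor ↥(tbFix 𝔓 H) x) [IsDiscreteValuationRing V] {p : ℕ} (f : ↥(tbLevF 𝔓 N H))
    (hf : ∀ P : Place Qb ↥(modularFunctionFieldBar N), (p : ℤ) ∣ P.ord (tbPhiF 𝔓 N H f)) :
    (p : ℤ) ∣ dlOrd V f := by
  obtain ⟨v, rfl, -⟩ := hV
  obtain ⟨P, hP⟩ := t4ru_cfe_fix 𝔓 H N v
  have h1 : dlOrd v.toValuationSubring f = v.ord f := rfl
  rw [h1, ← hP]
  exact hf P

/-- dividing by a power of a constant does not change the class modulo `p`-th powers -/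
theorem dli_phi_div_const (Z : ↥(tbLevF 𝔓 N H)) {t S : ↥(modularFunctionFieldBar N)} {p : ℕ}
    (hp : p ≠ 0) (hΦ : tbPhiF 𝔓 N H Z = t * S ^ p) (c : ↥(tbFix 𝔓 H)) (hc : c ≠ 0) (j : ℤ) :
    ∃ S' : ↥(modularFunctionFieldBar N),
      tbPhiF 𝔓 N H (Z / algebraMap ↥(tbFix 𝔓 H) ↥(tbLevF 𝔓 N H) c ^ j) = t * S' ^ p := by
  have hcQ : algebraMap ↥(tbFix 𝔓 H) Qb c ≠ 0 := (map_ne_zero _).mpr hc
  obtain ⟨γ, hγ⟩ := IsAlgClosed.exists_pow_nat_eq ((algebraMap ↥(tbFix 𝔓 H) Qb c) ^ j)⁻¹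
    (Nat.pos_of_ne_zero hp)
  refine ⟨S * algebraMap Qb ↥(modularFunctionFieldBar N) γ, ?_⟩
  rw [map_div₀, map_zpow₀, dli_tbPhiF_algebraMap, hΦ, mul_pow, ← map_pow, hγ, map_inv₀,
    map_zpow₀, div_eq_mul_inv, mul_assoc]

end Gen

/-! ### The toric presentation at one node -/

section Node

variable (N' : ℕ) [NeZero N'] (h : ¬ 𝔓.p ∣ N')

attribute [local instance] t2iAlgebra t2i_isScalarTower

variable {σ : Type*} [Fintype σ] (C : DlxChart (dliInf1 𝔓 N' h) (dliZero1 𝔓 N' h) σ)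
  [IsNoetherianRing ↥C.P.B]
  {s : Place (IsLocalRing.ResidueField ↥𝔓.P) ↥(tbBarF 𝔓 N') ×
    Place (IsLocalRing.ResidueField ↥𝔓.P) ↥(tbBarF 𝔓 N')} (hs : s ∈ C.G.nodes)
  (hfin : C.FinAt (C.n₁ s.1 (C.node_fin₁ hs)))
  (hens : DltHens (dliBase1 𝔓).A ↥(tbLevF 𝔓 (N' * 𝔓.p) (dliH1 𝔓)))
  (D : ↥(tbLevF 𝔓 (N' * 𝔓.p) (dliH1 𝔓))) (hD0 : D ≠ 0)
  (hDhor : ∀ V ∈ t4vpHor ↥(tbFix 𝔓 (dliH1 𝔓)) C.x, V.valuation D = 1)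
  (hD1 : C.V₁.valuation D = 1) (hD2 : C.V₂.valuation D < 1)

include hfin hens hD0 hDhor hD1 hD2 in
/-- **(I1-b) at one node**: the toric presentation of a Kummer function of the tame level at a node
of the chart -/
theorem dli_node_form (Z : ↥(tbLevF 𝔓 (N' * 𝔓.p) (dliH1 𝔓))) (hZ0 : Z ≠ 0)
    (hZ : ∀ v : Place Qb ↥(modularFunctionFieldBar (N' * 𝔓.p)),
      (𝔓.p : ℤ) ∣ v.ord (tbPhiF 𝔓 (N' * 𝔓.p) (dliH1 𝔓) Z))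
    {t : (↥(modularFunctionFieldBar (N' * 𝔓.p)))ˣ} (ht : t ∈ s33gCong 𝔓 N' h)
    {S : ↥(modularFunctionFieldBar (N' * 𝔓.p))}
    (hΦ : tbPhiF 𝔓 (N' * 𝔓.p) (dliH1 𝔓) Z = (t : ↥(modularFunctionFieldBar (N' * 𝔓.p))) * S ^ 𝔓.p)
    (hN₁ : ∃ c : ↥(tbFix 𝔓 (dliH1 𝔓)), c ≠ 0 ∧ ∃ y : ↥(dliE1H 𝔓 (dliH1 𝔓) N'),
      Algebra.norm ↥(dliE1H 𝔓 (dliH1 𝔓) N') Z =
        algebraMap ↥(tbFix 𝔓 (dliH1 𝔓)) ↥(dliE1H 𝔓 (dliH1 𝔓) N') c * y ^ 𝔓.p)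
    (hN₂ : ∃ c : ↥(tbFix 𝔓 (dliH1 𝔓)), c ≠ 0 ∧ ∃ y : ↥(dliE1H 𝔓 (dliH1 𝔓) N'),
      Algebra.norm ↥(dliE1H 𝔓 (dliH1 𝔓) N') ((t2iALFix 𝔓 (dliH1 𝔓) N' h).w Z) =
        algebraMap ↥(tbFix 𝔓 (dliH1 𝔓)) ↥(dliE1H 𝔓 (dliH1 𝔓) N') c * y ^ 𝔓.p) :
    ∃ c : ↥(tbFix 𝔓 (dliH1 𝔓)), c ≠ 0 ∧ ∃ W : ↥(tbLevF 𝔓 (N' * 𝔓.p) (dliH1 𝔓)), W ≠ 0 ∧
      ∃ (b : ↥(tbLevF 𝔓 (N' * 𝔓.p) (dliH1 𝔓))) (hb : b ∈ C.A₁ s.1 (C.node_fin₁ hs)),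
        Z = algebraMap ↥(tbFix 𝔓 (dliH1 𝔓)) ↥(tbLevF 𝔓 (N' * 𝔓.p) (dliH1 𝔓)) c * W ^ 𝔓.p *
          (1 + (dliInf1 𝔓 N' h).pi ^ 𝔓.p * b) ∧
        (∃ u : ↥(tbBarF 𝔓 N'), (dliInf1 𝔓 N' h).res ⟨b, C.A₁_le₁ _ _ hb⟩ =
          u ^ 𝔓.p + algebraMap (IsLocalRing.ResidueField ↥𝔓.P) ↥(tbBarF 𝔓 N')
            (tbFixRes 𝔓 (dliH1 𝔓) (dliEta 𝔓)) * u) ∧
        (∃ u : ↥(tbBarF 𝔓 N'), (dliZero1 𝔓 N' h).res ⟨b, C.A₁_le₂ hs hb⟩ =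
          u ^ 𝔓.p + algebraMap (IsLocalRing.ResidueField ↥𝔓.P) ↥(tbBarF 𝔓 N')
            (tbFixRes 𝔓 (dliH1 𝔓) (dliEta 𝔓)) * u) := by
  haveI : IsDiscreteValuationRing ↥(dliBase1 𝔓).A := t2i_dvr 𝔓 (dliH1 𝔓)
  set ϖ : ↥(tbFix 𝔓 (dliH1 𝔓)) := (dliBase1 𝔓).ϖ with hϖdef
  have hϖ0 : ϖ ≠ 0 := (dliBase1 𝔓).hϖ
  have hpi : (dliInf1 𝔓 N' h).pi = algebraMap ↥(tbFix 𝔓 (dliH1 𝔓)) ↥(tbLevF 𝔓 (N' * 𝔓.p) (dliH1 𝔓)) ϖ := rfl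
  have hpi2 : (dliZero1 𝔓 N' h).pi = algebraMap ↥(tbFix 𝔓 (dliH1 𝔓)) ↥(tbLevF 𝔓 (N' * 𝔓.p) (dliH1 𝔓)) ϖ := rfl
  have hpi0 : (dliInf1 𝔓 N' h).pi ≠ 0 := (dliInf1 𝔓 N' h).pi_ne_zero
  -- normalise at `V₁`
  obtain ⟨n, Z₁, hZ₁, hZ₁i, hZn⟩ := (dliInf1 𝔓 N' h).exists_zpow_mul_unit Z hZ0
  have hZ₁0 : Z₁ ≠ 0 := by
    rintro rfl
    rw [mul_zero] at hZn
    exact hZ0 hZn
  have hZ₁eq : Z₁ = Z / (dliInf1 𝔓 N' h).pi ^ n := by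
    rw [hZn, mul_div_cancel_left₀ _ (zpow_ne_zero _ hpi0)]
  -- (RES-P) at `v_∞`
  obtain ⟨S₁, hS₁⟩ := dli_phi_div_const 𝔓 (dliH1 𝔓) (N' * 𝔓.p) Z 𝔓.hp.ne_zero hΦ ϖ hϖ0 n
  obtain ⟨e₁, he₁⟩ := dli_res_pow_inf 𝔓 N' h (dliH1 𝔓) (dliPi1_irreducible 𝔓) Z₁ hZ₁
    (t := (t : ↥(modularFunctionFieldBar (N' * 𝔓.p)))) (S := S₁) ht.1
    (by rw [hZ₁eq, hpi]; exact hS₁)
  have hres₁0 : (dliInf1 𝔓 N' h).res ⟨Z₁, hZ₁⟩ ≠ 0 := by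
    intro h0
    have := (dliInf1 𝔓 N' h).res_mul' hZ₁ hZ₁i
    rw [h0, zero_mul, (dliInf1 𝔓 N' h).res_congr _ (mul_inv_cancel₀ hZ₁0), (dliInf1 𝔓 N' h).res_one'] at this
    exact one_ne_zero this
  have he₁0 : e₁ ≠ 0 := by
    rintro rfl
    rw [zero_pow 𝔓.hp.ne_zero] at he₁
    exact hres₁0 he₁
  -- (RES-P) at `v_0`
  have hr2 : ∀ (m : ℤ) (hm : Z₁ / (dliZero1 𝔓 N' h).pi ^ m ∈ (dliZero1 𝔓 N' h).O), (dliZero1 𝔓 N' h).res ⟨_, hm⟩ ≠ 0 →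
      ∃ e : ↥(tbBarF 𝔓 N'), (dliZero1 𝔓 N' h).res ⟨_, hm⟩ = e ^ 𝔓.p := by
    intro m hm _
    obtain ⟨S₂, hS₂⟩ := dli_phi_div_const 𝔓 (dliH1 𝔓) (N' * 𝔓.p) Z 𝔓.hp.ne_zero hΦ ϖ hϖ0 (n + m)
    refine dli_res_pow_zero 𝔓 N' h (dliH1 𝔓) (dliPi1_irreducible 𝔓) _ hm
      (t := (t : ↥(modularFunctionFieldBar (N' * 𝔓.p)))) (S := S₂) ht.2 ?_
    rw [hZ₁eq, hpi2, hpi, div_div, ← zpow_add₀ ((map_ne_zero _).mpr hϖ0)]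
    exact hS₂
  -- horizontal orders
  have hhor : ∀ (V : ValuationSubring ↥(tbLevF 𝔓 (N' * 𝔓.p) (dliH1 𝔓)))
      (hV : V ∈ t4vpHor ↥(tbFix 𝔓 (dliH1 𝔓)) C.x),
      (𝔓.p : ℤ) ∣ (haveI := C.P.dvr V (C.hor_mem hV); dlOrd V Z₁) := by
    intro V hV
    haveI := C.P.dvr V (C.hor_mem hV)
    refine dli_hor_dvd 𝔓 (dliH1 𝔓) (N' * 𝔓.p) V hV Z₁ (fun P => ?_)
    rw [hZ₁eq, hpi, map_div₀, map_zpow₀, dli_tbPhiF_algebraMap, div_eq_mul_inv,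
      P.ord_mul ((map_ne_zero _).mpr hZ0)
        (inv_ne_zero (zpow_ne_zero _ ((map_ne_zero _).mpr ((map_ne_zero _).mpr hϖ0)))),
      P.ord_inv, P.ord_zpow, Fermat.Agent.Curve.PlaceAux.ord_algebraMap, mul_zero, neg_zero,
      add_zero]
    exact hZ P
  -- the shape at the node
  obtain ⟨g, z₀, hg, e, hI⟩ := C.node_shape hs hfin hens D hD0 hDhor hD1 hD2 𝔓.hp hZ₁0 hZ₁ he₁0
    he₁ hr2 hhor
  -- the norm conditions for `z₀`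
  have hz₀ : z₀ = Z * algebraMap ↥(tbFix 𝔓 (dliH1 𝔓)) ↥(tbLevF 𝔓 (N' * 𝔓.p) (dliH1 𝔓))
      (ϖ ^ n)⁻¹ * g⁻¹ ^ 𝔓.p := by
    have h1 : Z = (dliInf1 𝔓 N' h).pi ^ n * (g ^ 𝔓.p * z₀) := by rw [← e]; exact hZn
    rw [h1, hpi, map_inv₀, map_zpow₀, inv_pow]
    have h2 : algebraMap ↥(tbFix 𝔓 (dliH1 𝔓)) ↥(tbLevF 𝔓 (N' * 𝔓.p) (dliH1 𝔓)) ϖ ^ n ≠ 0 :=
      zpow_ne_zero _ ((map_ne_zero _).mpr hϖ0)
    field_simp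
  have hcn : (ϖ ^ n)⁻¹ ≠ 0 := inv_ne_zero (zpow_ne_zero _ hϖ0)
  have hN₁' : DliNC (dliE1H 𝔓 (dliH1 𝔓) N') 𝔓.p z₀ := by
    rw [hz₀]
    exact (DliNC.mul hN₁ (DliNC.const hcn)).mul (DliNC.pow_p _)
  have hN₂' : DliNC (dliE1H 𝔓 (dliH1 𝔓) N') 𝔓.p ((t2iALFix 𝔓 (dliH1 𝔓) N' h).w z₀) := by
    rw [hz₀, map_mul, map_mul, map_pow, AlgEquiv.commutes]
    exact (DliNC.mul hN₂ (DliNC.const hcn)).mul (DliNC.pow_p _)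
  obtain ⟨c, hc, w, hw, hwi, hw0, b, hb, hzb, hu1, hu2⟩ :=
    dliH1_toric 𝔓 N' h (C.toNodAt hs) hN₁' hN₂' hI
  refine ⟨ϖ ^ n * c, mul_ne_zero (zpow_ne_zero _ hϖ0) hc, g * w, mul_ne_zero hg hw0, b, hb, ?_,
    hu1, hu2⟩
  rw [hZn, e, hzb, hpi, map_mul, map_zpow₀]
  ring

end Node

end Fermat.Agent.Delta
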