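/-
DELTA / I1 (helper9), part 26: **Kummer functions of level `H` with leading coefficient `1`**
(the `K_H`-form of the cover `y ^ p = Z` on which `H` acts coefficientwise, helper4's (FORM)).

* `dli_kummer_descent_lc`    : `dli_kummer_descent` + `dliLc N (Φ Z) = 1`;
* `dli_kummer_norm_conds_lc` : `dli_kummer_norm_conds` + `dliLc (N' p) (Φ Z) = 1`.
-/
import Fermat.Agent.Lib.Delta.Toric.NormAlpha

set_option autoImplicit false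
set_option linter.unusedSectionVars false
set_option linter.unusedVariables false
set_option linter.style.haveILetI false
set_option synthInstance.maxHeartbeats 400000

open HahnSeries ModularCurve AlgebraicCurve Fermat.Agent.T1 Fermat.Agent.T2 Fermat.Agent.T3
  Fermat.Agent.TW Fermat.Agent.S05Lib Fermat.Agent.Alpha Module Fermat.Agent.S24Lib
  Fermat.Agent.T1.KMod

noncomputable section

namespace Fermat.Agent.Delta

local notation "Qb" => AlgebraicClosure ℚ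
local notation "GQ" => (AlgebraicClosure ℚ ≃ₐ[ℚ] AlgebraicClosure ℚ)

variable (𝔓 : FFPlace) (H : Subgroup 𝔓.I)

attribute [local instance] t2i_dvr t2i_isAlgClosed t2i_charP t2i_fact

attribute [local instance 10000] dliAlgF dliAlgE

section Desc

variable (N : ℕ) [NeZero N]

/-- **Hilbert 90 descent of Kummer functions, normalised**: the Kummer function of level `H` can be
chosen with leading coefficient `1` -/
theorem dli_kummer_descent_lc {m : ℕ} (hm : m ≠ 0) (x : JZero N) (hx : (m : ℤ) • x = 0)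
    (hfix : ∀ σ ∈ H, ((σ : 𝔓.I) : GQ) • x = x) :
    ∃ (Z : ↥(tbLevF 𝔓 N H)) (hZ0 : tbPhiF 𝔓 N H Z ≠ 0)
      (hZ : ∀ v : Place Qb ↥(modularFunctionFieldBar N), (m : ℤ) ∣ v.ord (tbPhiF 𝔓 N H Z)),
      alpfClass hm (Units.mk0 (tbPhiF 𝔓 N H Z) hZ0) hZ = x ∧
        dliLc N (tbPhiF 𝔓 N H Z) = 1 := by
  obtain ⟨Z, hZ0, hZ, hcl⟩ := dli_kummer_descent N 𝔓 H hm x hx hfix
  have hz : Z ≠ 0 := fun h0 => hZ0 (by rw [h0, map_zero])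
  set c : ↥(tbFix 𝔓 H) := (Z : LaurentSeries ↥(tbFix 𝔓 H)).leadingCoeff with hc
  have hc0 : c ≠ 0 := by
    rw [hc, HahnSeries.leadingCoeff_ne_zero]
    exact fun h => hz (Subtype.ext h)
  have hcQ : algebraMap ↥(tbFix 𝔓 H) Qb c ≠ 0 := (map_ne_zero _).mpr hc0
  have hlcZ : dliLc N (tbPhiF 𝔓 N H Z) = algebraMap ↥(tbFix 𝔓 H) Qb c := dliLc_tbPhiF 𝔓 H N Z
  -- an `m`-th root of `c⁻¹`
  obtain ⟨γ, hγ⟩ := IsAlgClosed.exists_pow_nat_eq (algebraMap ↥(tbFix 𝔓 H) Qb c)⁻¹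
    (Nat.pos_of_ne_zero hm)
  have hγ0 : γ ≠ 0 := by
    rintro rfl
    rw [zero_pow hm] at hγ
    exact inv_ne_zero hcQ hγ.symm
  set Γ : (↥(modularFunctionFieldBar N))ˣ :=
    Units.mk0 (algebraMap Qb ↥(modularFunctionFieldBar N) γ) ((map_ne_zero _).mpr hγ0) with hΓ
  set Z' : ↥(tbLevF 𝔓 N H) := Z * algebraMap ↥(tbFix 𝔓 H) ↥(tbLevF 𝔓 N H) c⁻¹ with hZ'
  have hΦZ' : tbPhiF 𝔓 N H Z' = tbPhiF 𝔓 N H Z *
      (algebraMap Qb ↥(modularFunctionFieldBar N) γ) ^ m := by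
    rw [hZ', map_mul, dli_tbPhiF_algebraMap, ← map_pow, hγ, map_inv₀]
  have hZ'0 : tbPhiF 𝔓 N H Z' ≠ 0 := by
    rw [hΦZ']
    exact mul_ne_zero hZ0 (pow_ne_zero _ ((map_ne_zero _).mpr hγ0))
  have hU : Units.mk0 (tbPhiF 𝔓 N H Z') hZ'0 = Units.mk0 (tbPhiF 𝔓 N H Z) hZ0 * Γ ^ m := by
    apply Units.ext
    rw [Units.val_mul, Units.val_pow_eq_pow_val, Units.val_mk0, Units.val_mk0, hΓ, Units.val_mk0]
    exact hΦZ'
  have hdvd : ∀ v : Place Qb ↥(modularFunctionFieldBar N),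
      (m : ℤ) ∣ v.ord (tbPhiF 𝔓 N H Z') := by
    intro v
    have := dli_dvd_mul N (y := Units.mk0 (tbPhiF 𝔓 N H Z) hZ0) (y' := Γ ^ m) hZ (dli_dvd_pow N Γ) v
    rw [← hU] at this
    exact this
  refine ⟨Z', hZ'0, hdvd, ?_, ?_⟩
  · rw [← hcl, ← dli_class_mul_pow N hm (Units.mk0 (tbPhiF 𝔓 N H Z) hZ0) Γ hZ]
    exact dli_class_congr N hm hU _ _
  · rw [hΦZ', dliLc_mul, dliLc_pow, dliLc_algebraMap, hγ, hlcZ, mul_inv_cancel₀ hcQ]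

end Desc

section Lev

variable [H.FiniteIndex] (N' : ℕ) [NeZero N'] (h : ¬ 𝔓.p ∣ N')

attribute [local instance] t2iAlgebra t2i_isScalarTower

/-- **stage 0 of (I1), normalised**: `dli_kummer_norm_conds` with leading coefficient `1` -/
theorem dli_kummer_norm_conds_lc (x : JZero (N' * 𝔓.p)) (hx : (𝔓.p : ℤ) • x = 0)
    (hfix : ∀ σ ∈ H, ((σ : 𝔓.I) : GQ) • x = x)
    (hA : dlwPushA N' 𝔓.p x = 0) (hB : dlwPushB N' 𝔓.p x = 0) :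
    ∃ (Z : ↥(tbLevF 𝔓 (N' * 𝔓.p) H)) (hZ0 : tbPhiF 𝔓 (N' * 𝔓.p) H Z ≠ 0)
      (hZ : ∀ v : Place Qb ↥(modularFunctionFieldBar (N' * 𝔓.p)),
        (𝔓.p : ℤ) ∣ v.ord (tbPhiF 𝔓 (N' * 𝔓.p) H Z)),
      alpfClass 𝔓.hp.ne_zero (Units.mk0 (tbPhiF 𝔓 (N' * 𝔓.p) H Z) hZ0) hZ = x ∧
      dliLc (N' * 𝔓.p) (tbPhiF 𝔓 (N' * 𝔓.p) H Z) = 1 ∧
      (∃ c : ↥(tbFix 𝔓 H), c ≠ 0 ∧ ∃ y : ↥(dliE1H 𝔓 H N'),
        Algebra.norm ↥(dliE1H 𝔓 H N') Z =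
          algebraMap ↥(tbFix 𝔓 H) ↥(dliE1H 𝔓 H N') c * y ^ 𝔓.p) ∧
      (∃ c : ↥(tbFix 𝔓 H), c ≠ 0 ∧ ∃ y : ↥(dliE1H 𝔓 H N'),
        Algebra.norm ↥(dliE1H 𝔓 H N') ((t2iALFix 𝔓 H N' h).w Z) =
          algebraMap ↥(tbFix 𝔓 H) ↥(dliE1H 𝔓 H N') c * y ^ 𝔓.p) := by
  obtain ⟨Z, hZ0, hZ, hcl, hlc⟩ := dli_kummer_descent_lc 𝔓 H (N' * 𝔓.p) 𝔓.hp.ne_zero x hx hfix
  refine ⟨Z, hZ0, hZ, hcl, hlc, ?_, ?_⟩
  · exact dli_norm_cond_of_pushA 𝔓 H N' h 𝔓.hp.ne_zero Z hZ0 hZ (by rw [hcl]; exact hA)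
  · exact dli_norm_cond_of_pushB 𝔓 H N' h 𝔓.hp.ne_zero Z hZ0 hZ (by rw [hcl]; exact hB)

end Lev

end Fermat.Agent.Delta
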