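/-
DELTA / (I1-b) (helper9), part 5: **(LC)** — for a Kummer function `Z` of the tame level with leading
coefficient `1`, the constant of every toric presentation `Z = c' · W ^ p · (1 + ϖ ^ p b)` is a `p`-th
power times a `1`-unit of level `p` (helper4's (FORM), msg 1351).

* `DlPlace.const_gen`  : helper8's (C-CONST) `dly_const_gen` at a `DlPlace` (`k` algebraically closed of
  characteristic `p`);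
* `dli_norm_const_pow` : `lc(Φ Z) = 1`, `N_{E₁}(Z) = c₁ y₁ ^ p` and the leading coefficient of the norm
  (`hA`, = helper8's `dlil_lc_norm`) ⇒ `c₁ ∈ (K_H^×)^p`;
* **`dli_lc_const`**   : `c' = v₀ ^ p (1 + ϖ ^ p d₀)`, `v₀ ∈ K₁^×`, `d₀ ∈ O₁`.
-/
import Fermat.Agent.Lib.Delta.Toric.NodeInst
import Fermat.Agent.Lib.Delta.Toric.NormAlpha2
import Fermat.Agent.Lib.Delta.Cover.ConstGen

set_option autoImplicit false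
set_option linter.unusedSectionVars false
set_option linter.unusedVariables false
set_option linter.style.haveILetI false
set_option synthInstance.maxHeartbeats 400000

open HahnSeries ModularCurve AlgebraicCurve Fermat.Agent.T1 Fermat.Agent.T2 Fermat.Agent.T3
  Fermat.Agent.TW Fermat.Agent.S05Lib Fermat.Agent.S33 Fermat.Agent.S24Lib Fermat.Agent.T1.KMod
  Fermat.Agent.T4 Fermat.Agent.Alpha Module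

noncomputable section

namespace Fermat.Agent.Delta

local notation "Qb" => AlgebraicClosure ℚ

/-! ### (C-CONST) at a `DlPlace` -/

section Const

variable {K k : Type*} [Field K] [Field k] {B : DlBase K k} {F κ : Type*} [Field F] [Algebra K F]
  [Field κ] [Algebra k κ] (g : DlPlace B F κ)

/-- **(C-CONST) at a `DlPlace`**: the constants of two presentations `c w ^ p (1 + ϖ ^ p b)` of the
same function differ by a `p`-th power times a `1`-unit of level `p` -/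
theorem DlPlace.const_gen (V : ValuationSubring F) (hV : V.toSubring = g.O) {p : ℕ} (hp : p.Prime)
    [CharP k p] [IsAlgClosed k] (η : ↥B.A) (hη : (p : K) = (η : K) * B.ϖ ^ (p - 1))
    {c₁ c₂ : K} (hc₁ : c₁ ≠ 0) (hc₂ : c₂ ≠ 0) {w₁ w₂ b₁ b₂ : F} (hw₁ : w₁ ≠ 0) (hw₂ : w₂ ≠ 0)
    (hb₁ : b₁ ∈ g.O) (hb₂ : b₂ ∈ g.O)
    (heq : algebraMap K F c₁ * w₁ ^ p * (1 + g.pi ^ p * b₁) =
      algebraMap K F c₂ * w₂ ^ p * (1 + g.pi ^ p * b₂)) :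
    ∃ v₀ d₀ : K, v₀ ≠ 0 ∧ d₀ ∈ B.A ∧ c₁ = c₂ * v₀ ^ p * (1 + B.ϖ ^ p * d₀) := by
  haveI : Fact p.Prime := ⟨hp⟩
  haveI : IsDiscreteValuationRing ↥V := g.dvr V hV
  have hmem : ∀ f : F, f ∈ V ↔ f ∈ g.O := fun f => by rw [← hV]; rfl
  haveI : CharP κ p := charP_of_injective_algebraMap (algebraMap k κ).injective p
  refine dly_const_gen p hp B.A V ?_ B.ϖ (η : K) B.hϖ (g.unif V hV) hη η.2 ?_ hc₁ hc₂ hw₁ hw₂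
    ((hmem _).mpr hb₁) ((hmem _).mpr hb₂) heq
  · intro a
    constructor
    · intro ha
      exact g.mem_A_of_mem ((hmem _).mp ha)
    · intro ha
      exact (hmem _).mpr (g.algebraMap_mem ⟨a, ha⟩)
  · intro v a hv hva
    have hvO : v ∈ g.O := (hmem _).mp ((V.valuation_le_one_iff _).mp hv.le)
    have hdO : v ^ p - algebraMap K F a ∈ g.O := (hmem _).mp ((V.valuation_le_one_iff _).mp hva.le)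
    have haO : algebraMap K F a ∈ g.O := by
      have := g.O.sub_mem (g.O.pow_mem hvO p) hdO
      rwa [sub_sub_cancel] at this
    have haA : a ∈ B.A := g.mem_A_of_mem haO
    -- the residues
    have h1 : g.res ⟨v ^ p - algebraMap K F a, hdO⟩ = 0 :=
      (dlx_res_eq_zero_iff g V hV hdO).mpr hva
    rw [g.res_sub' (g.O.pow_mem hvO p) haO, g.res_pow' hvO, sub_eq_zero] at h1
    have h2 : g.res ⟨algebraMap K F a, haO⟩ = algebraMap k κ (B.resA ⟨a, haA⟩) :=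
      g.res_algebraMap ⟨a, haA⟩
    obtain ⟨β, hβ⟩ := IsAlgClosed.exists_pow_nat_eq (B.resA ⟨a, haA⟩) hp.pos
    obtain ⟨v₀, hv₀⟩ := B.resA_surj β
    have h3 : g.res ⟨v, hvO⟩ = algebraMap k κ β := by
      apply frobenius_inj κ p
      show g.res ⟨v, hvO⟩ ^ p = algebraMap k κ β ^ p
      rw [h1, h2, ← map_pow, hβ]
    refine ⟨(v₀ : K), ?_⟩
    have hv₀O : algebraMap K F (v₀ : K) ∈ g.O := g.algebraMap_mem v₀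
    rw [← dlx_res_eq_zero_iff g V hV (g.O.sub_mem hvO hv₀O), g.res_sub' hvO hv₀O, h3,
      g.res_algebraMap v₀, hv₀, sub_self]

end Const

/-! ### The constant of the norm condition is a `p`-th power -/

variable (𝔓 : FFPlace)

attribute [local instance] t2i_dvr t2i_isAlgClosed t2i_charP t2i_fact
attribute [local instance 10000] dliAlgF dliAlgE
attribute [local instance] t2iAlgebra t2i_isScalarTower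

section NormConst

variable (H : Subgroup 𝔓.I) [H.FiniteIndex] (N' : ℕ) [NeZero N'] (h : ¬ 𝔓.p ∣ N')

include h in
/-- if `lc(Φ Z) = 1` then the constant `c₁` of the first norm condition `N_{E₁}(Z) = c₁ y₁ ^ p` is a
`p`-th power in `K_H` (`hA` = the leading coefficient of the norm `N_α`) -/
theorem dli_norm_const_pow (Z : ↥(tbLevF 𝔓 (N' * 𝔓.p) H)) (hZ0 : Z ≠ 0)
    (hlc : dliLc (N' * 𝔓.p) (tbPhiF 𝔓 (N' * 𝔓.p) H Z) = 1)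
    (hA : dliLc N' (t3pNormAlong (heckeAlphaBar Qb N' 𝔓.p) (tbPhiF 𝔓 (N' * 𝔓.p) H Z)) =
      dliLc (N' * 𝔓.p) (tbPhiF 𝔓 (N' * 𝔓.p) H Z) *
        dliLc (N' * 𝔓.p) (t2w Qb N' 𝔓.p h (tbPhiF 𝔓 (N' * 𝔓.p) H Z)) ^ 𝔓.p)
    {c₁ : ↥(tbFix 𝔓 H)} {y₁ : ↥(dliE1H 𝔓 H N')}
    (hN : Algebra.norm ↥(dliE1H 𝔓 H N') Z =
      algebraMap ↥(tbFix 𝔓 H) ↥(dliE1H 𝔓 H N') c₁ * y₁ ^ 𝔓.p) :
    ∃ μ : ↥(tbFix 𝔓 H), μ ≠ 0 ∧ c₁ = μ ^ 𝔓.p := by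
  set n₀ : ↥(tbLevF 𝔓 N' H) := t3pNormAlong (heckeAlphaBar ↥(tbFix 𝔓 H) N' 𝔓.p) Z with hn₀
  have h1 : dliToRange (L := ↥(tbFix 𝔓 H)) (F := ↥(tbLevF 𝔓 (N' * 𝔓.p) H)) n₀ =
      algebraMap ↥(tbFix 𝔓 H) ↥(dliE1H 𝔓 H N') c₁ * y₁ ^ 𝔓.p := by
    rw [hn₀, ← dli_norm_E1_eq]
    exact hN
  set y₀ : ↥(tbLevF 𝔓 N' H) :=
    (dliToRange (L := ↥(tbFix 𝔓 H)) (F := ↥(tbLevF 𝔓 (N' * 𝔓.p) H))).symm y₁ with hy₀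
  have hc : dliToRange (L := ↥(tbFix 𝔓 H)) (F := ↥(tbLevF 𝔓 (N' * 𝔓.p) H))
      (algebraMap ↥(tbFix 𝔓 H) ↥(tbLevF 𝔓 N' H) c₁) =
      algebraMap ↥(tbFix 𝔓 H) ↥(dliE1H 𝔓 H N') c₁ := by
    apply Subtype.ext
    rw [coe_dliToRange]
    exact (IsScalarTower.algebraMap_apply ↥(tbFix 𝔓 H) ↥(tbLevF 𝔓 N' H)
      ↥(tbLevF 𝔓 (N' * 𝔓.p) H) c₁).symm
  have h2 : n₀ = algebraMap ↥(tbFix 𝔓 H) ↥(tbLevF 𝔓 N' H) c₁ * y₀ ^ 𝔓.p := by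
    apply (dliToRange (L := ↥(tbFix 𝔓 H)) (F := ↥(tbLevF 𝔓 (N' * 𝔓.p) H))).injective
    rw [h1, map_mul, map_pow, hc, hy₀, RingEquiv.apply_symm_apply]
  have hfinH := dli_finiteAlong_alphaH 𝔓 H N' h
  have hbc := dli_norm_alpha_bc 𝔓 H N' 𝔓.p (t3h_alphaFinite N' 𝔓.p) hfinH
    (by rw [t3k_finrank_alpha N' 𝔓.p h, dli_finrankAlong_alphaH 𝔓 H N' h]) Z
  set a : ↥(tbFix 𝔓 H) := (y₀ : LaurentSeries ↥(tbFix 𝔓 H)).leadingCoeff with ha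
  set b : ↥(tbFix 𝔓 H) :=
    ((t2wLev 𝔓 H N' 𝔓.p h Z : ↥(tbLevF 𝔓 (N' * 𝔓.p) H)) :
      LaurentSeries ↥(tbFix 𝔓 H)).leadingCoeff with hb
  have h3 : dliLc N' (tbPhiF 𝔓 N' H n₀) =
      algebraMap ↥(tbFix 𝔓 H) Qb c₁ * algebraMap ↥(tbFix 𝔓 H) Qb a ^ 𝔓.p := by
    rw [h2, map_mul, map_pow, dliLc_mul, dliLc_pow, dli_tbPhiF_algebraMap, dliLc_algebraMap,
      dliLc_tbPhiF]
  have h4 : dliLc N' (tbPhiF 𝔓 N' H n₀) = algebraMap ↥(tbFix 𝔓 H) Qb b ^ 𝔓.p := by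
    rw [hn₀, hbc, hA, hlc, one_mul, ← tbPhiF_t2wLev, dliLc_tbPhiF]
  have hb0 : b ≠ 0 := by
    rw [hb, HahnSeries.leadingCoeff_ne_zero]
    intro h0
    have : t2wLev 𝔓 H N' 𝔓.p h Z = 0 := Subtype.ext h0
    exact hZ0 ((map_eq_zero_iff _ (t2wLev 𝔓 H N' 𝔓.p h).injective).mp this)
  have h5 : c₁ * a ^ 𝔓.p = b ^ 𝔓.p := by
    apply (algebraMap ↥(tbFix 𝔓 H) Qb).injective
    rw [map_mul, map_pow, map_pow, ← h3, h4]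
  have ha0 : a ≠ 0 := by
    intro h0
    rw [h0, zero_pow 𝔓.hp.ne_zero, mul_zero] at h5
    exact pow_ne_zero _ hb0 h5.symm
  refine ⟨b / a, div_ne_zero hb0 ha0, ?_⟩
  rw [div_pow, ← h5, mul_div_assoc, div_self (pow_ne_zero _ ha0), mul_one]

end NormConst

/-! ### (LC) -/

section LC

variable (N' : ℕ) [NeZero N'] (h : ¬ 𝔓.p ∣ N')

/-- **(LC)**: the constant of a toric presentation of a Kummer function with leading coefficient `1`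
is a `p`-th power times a `1`-unit of level `p` -/
theorem dli_lc_const (Z : ↥(tbLevF 𝔓 (N' * 𝔓.p) (dliH1 𝔓))) (hZ0 : Z ≠ 0)
    (hlc : dliLc (N' * 𝔓.p) (tbPhiF 𝔓 (N' * 𝔓.p) (dliH1 𝔓) Z) = 1)
    (hA : dliLc N' (t3pNormAlong (heckeAlphaBar Qb N' 𝔓.p)
        (tbPhiF 𝔓 (N' * 𝔓.p) (dliH1 𝔓) Z)) =
      dliLc (N' * 𝔓.p) (tbPhiF 𝔓 (N' * 𝔓.p) (dliH1 𝔓) Z) *
        dliLc (N' * 𝔓.p) (t2w Qb N' 𝔓.p h (tbPhiF 𝔓 (N' * 𝔓.p) (dliH1 𝔓) Z)) ^ 𝔓.p)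
    (hN₁ : ∃ c : ↥(tbFix 𝔓 (dliH1 𝔓)), c ≠ 0 ∧ ∃ y : ↥(dliE1H 𝔓 (dliH1 𝔓) N'),
      Algebra.norm ↥(dliE1H 𝔓 (dliH1 𝔓) N') Z =
        algebraMap ↥(tbFix 𝔓 (dliH1 𝔓)) ↥(dliE1H 𝔓 (dliH1 𝔓) N') c * y ^ 𝔓.p)
    {c' : ↥(tbFix 𝔓 (dliH1 𝔓))} (hc' : c' ≠ 0) {W b : ↥(tbLevF 𝔓 (N' * 𝔓.p) (dliH1 𝔓))}
    (hW : W ≠ 0) (hb₁ : b ∈ (dliInf1 𝔓 N' h).O) (hb₂ : b ∈ (dliZero1 𝔓 N' h).O)
    (hZ : Z = algebraMap ↥(tbFix 𝔓 (dliH1 𝔓)) ↥(tbLevF 𝔓 (N' * 𝔓.p) (dliH1 𝔓)) c' * W ^ 𝔓.p *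
      (1 + (dliInf1 𝔓 N' h).pi ^ 𝔓.p * b)) :
    ∃ v₀ d₀ : ↥(tbFix 𝔓 (dliH1 𝔓)), v₀ ≠ 0 ∧ d₀ ∈ tbFixO 𝔓 (dliH1 𝔓) ∧
      c' = v₀ ^ 𝔓.p * (1 + (dliBase1 𝔓).ϖ ^ 𝔓.p * d₀) := by
  obtain ⟨c₁, hc₁, y₁, hy₁⟩ := hN₁
  obtain ⟨μ, hμ0, hμ⟩ := dli_norm_const_pow 𝔓 (dliH1 𝔓) N' h Z hZ0 hlc hA hy₁
  haveI := dliH_finite_E1 𝔓 (dliH1 𝔓) N' h
  -- the norm of the presentation
  have hn : Algebra.norm ↥(dliE1H 𝔓 (dliH1 𝔓) N') Z =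
      algebraMap ↥(tbFix 𝔓 (dliH1 𝔓)) ↥(dliE1H 𝔓 (dliH1 𝔓) N') c' ^ (𝔓.p + 1) *
        Algebra.norm ↥(dliE1H 𝔓 (dliH1 𝔓) N') W ^ 𝔓.p *
        Algebra.norm ↥(dliE1H 𝔓 (dliH1 𝔓) N') (1 + (dliInf1 𝔓 N' h).pi ^ 𝔓.p * b) := by
    conv_lhs => rw [hZ]
    rw [map_mul, map_mul, map_pow,
      IsScalarTower.algebraMap_apply ↥(tbFix 𝔓 (dliH1 𝔓)) ↥(dliE1H 𝔓 (dliH1 𝔓) N')
        ↥(tbLevF 𝔓 (N' * 𝔓.p) (dliH1 𝔓)) c', Algebra.norm_algebraMap,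
      dliH_finrank_E1 𝔓 (dliH1 𝔓) N' h]
  -- norm raising
  have hp1 : 1 ≤ 𝔓.p := 𝔓.hp.one_le
  have hx1 : (dliInf1 𝔓 N' h).OneMod 𝔓.p (1 + (dliInf1 𝔓 N' h).pi ^ 𝔓.p * b) := ⟨b, hb₁, rfl⟩
  have hx2 : (dliZero1 𝔓 N' h).OneMod 𝔓.p (1 + (dliInf1 𝔓 N' h).pi ^ 𝔓.p * b) := ⟨b, hb₂, rfl⟩
  have hx0 : 1 + (dliInf1 𝔓 N' h).pi ^ 𝔓.p * b ≠ 0 := hx1.ne_zero (dliInf1 𝔓 N' h) hp1
  have hr := dliH_norm_raises_inf 𝔓 (dliH1 𝔓) (dliPi1_irreducible 𝔓) N' h 𝔓.p _ hp1 hx0 hx2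
  have hNx : (dliInf1 𝔓 N' h).OneMod 𝔓.p
      (algebraMap ↥(dliE1H 𝔓 (dliH1 𝔓) N') ↥(tbLevF 𝔓 (N' * 𝔓.p) (dliH1 𝔓))
        (Algebra.norm ↥(dliE1H 𝔓 (dliH1 𝔓) N') (1 + (dliInf1 𝔓 N' h).pi ^ 𝔓.p * b))) := by
    have := (hr.mono (dliInf1 𝔓 N' h) (Nat.le_succ 𝔓.p)).mul (dliInf1 𝔓 N' h) hx1
    rwa [div_mul_cancel₀ _ hx0] at this
  obtain ⟨b'', hb'', hNxb⟩ := hNx
  -- the equation in `F`
  have hW' : algebraMap ↥(dliE1H 𝔓 (dliH1 𝔓) N') ↥(tbLevF 𝔓 (N' * 𝔓.p) (dliH1 𝔓))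
      (Algebra.norm ↥(dliE1H 𝔓 (dliH1 𝔓) N') W) ≠ 0 :=
    (map_ne_zero _).mpr ((Algebra.norm_ne_zero_iff (R := ↥(dliE1H 𝔓 (dliH1 𝔓) N'))).mpr hW)
  have hy₁0 : y₁ ≠ 0 := by
    rintro rfl
    rw [zero_pow 𝔓.hp.ne_zero, mul_zero] at hy₁
    exact (Algebra.norm_ne_zero_iff (R := ↥(dliE1H 𝔓 (dliH1 𝔓) N'))).mpr hZ0 hy₁
  have heq : algebraMap ↥(tbFix 𝔓 (dliH1 𝔓)) ↥(tbLevF 𝔓 (N' * 𝔓.p) (dliH1 𝔓)) (c' ^ (𝔓.p + 1)) *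
        algebraMap ↥(dliE1H 𝔓 (dliH1 𝔓) N') ↥(tbLevF 𝔓 (N' * 𝔓.p) (dliH1 𝔓))
          (Algebra.norm ↥(dliE1H 𝔓 (dliH1 𝔓) N') W) ^ 𝔓.p *
        (1 + (dliInf1 𝔓 N' h).pi ^ 𝔓.p * b'') =
      algebraMap ↥(tbFix 𝔓 (dliH1 𝔓)) ↥(tbLevF 𝔓 (N' * 𝔓.p) (dliH1 𝔓)) 1 *
        (algebraMap ↥(tbFix 𝔓 (dliH1 𝔓)) ↥(tbLevF 𝔓 (N' * 𝔓.p) (dliH1 𝔓)) μ *
          algebraMap ↥(dliE1H 𝔓 (dliH1 𝔓) N') ↥(tbLevF 𝔓 (N' * 𝔓.p) (dliH1 𝔓)) y₁) ^ 𝔓.p *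
        (1 + (dliInf1 𝔓 N' h).pi ^ 𝔓.p * 0) := by
    have e1 := congrArg
      (algebraMap ↥(dliE1H 𝔓 (dliH1 𝔓) N') ↥(tbLevF 𝔓 (N' * 𝔓.p) (dliH1 𝔓))) hn
    rw [hy₁, map_mul, map_mul, map_mul, map_pow, map_pow, map_pow, hNxb,
      ← IsScalarTower.algebraMap_apply, ← IsScalarTower.algebraMap_apply, hμ] at e1
    rw [map_one, one_mul, mul_zero, add_zero, mul_one, mul_pow, map_pow, ← map_pow _ μ]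
    exact e1.symm
  obtain ⟨v₀, d₀, hv₀, hd₀, hcv⟩ := (dliInf1 𝔓 N' h).const_gen
    (taOv (tbFixO 𝔓 (dliH1 𝔓)) (tbFixRes 𝔓 (dliH1 𝔓)) (tbFixRes_surjective 𝔓 (dliH1 𝔓))
      (N' * 𝔓.p)) rfl 𝔓.hp (dliEta 𝔓) (dliBase1_p_eq 𝔓) (pow_ne_zero (𝔓.p + 1) hc') one_ne_zero
    hW' (mul_ne_zero ((map_ne_zero _).mpr hμ0) ((map_ne_zero _).mpr hy₁0)) hb''
    (dliInf1 𝔓 N' h).O.zero_mem heq
  refine ⟨v₀ / c', d₀, div_ne_zero hv₀ hc', hd₀, ?_⟩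
  rw [one_mul] at hcv
  rw [div_pow, div_mul_eq_mul_div, ← hcv, pow_succ, mul_div_assoc, mul_comm,
    div_mul_cancel₀ _ (pow_ne_zero _ hc')]

end LC

end Fermat.Agent.Delta
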