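/-
DELTA / (I1-b) (helper9), part 6: **the final export of (I1-b)**: the Kummer function of the toric
line at the tame level, normalised by `lc = 1`, and its normal forms `Z = W_s ^ p (1 + ϖ ^ p b_s)`,
`b_s ∈ A_s`, at all nodes of a chart — NO constants.

* `DlPlace.as_shift`    : Artin–Schreier type is stable under `b ↦ d + b + ϖ ^ p d b` (`d` constant);
* `DliKummer 𝔓 N' h x Z` : `Z` is a Kummer function of `x` of the tame level with `lc = 1`,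
  `Φ Z = t S ^ p` (`t ≡ (1, 1)`) and the two norm conditions;
* `dli_exists_kummer`   : existence for `x ∈ s33gC` killed by `p`, fixed by `H₁`, with
  `α_* x = β_* x = 0`;
* **`dli_node_form_lc`** : `DliKummer x Z` (+ `hA` = the leading coefficient of the norm, helper8's
  `dlil_lc_norm`) ⇒ at every node `s` of a chart: `Z = W ^ p (1 + ϖ ^ p b)`, `W ≠ 0`, `b ∈ A_s`,
  `res b` of Artin–Schreier type at both branches.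
-/
import Fermat.Agent.Lib.Delta.Toric.LcConst

set_option autoImplicit false
set_option linter.unusedSectionVars false
set_option linter.unusedVariables false
set_option linter.style.haveILetI false
set_option synthInstance.maxHeartbeats 400000

open HahnSeries ModularCurve AlgebraicCurve Fermat.Agent.T1 Fermat.Agent.T2 Fermat.Agent.T3
  Fermat.Agent.TW Fermat.Agent.S05Lib Fermat.Agent.S33 Fermat.Agent.S24Lib Fermat.Agent.T1.KMod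
  Fermat.Agent.T4 Fermat.Agent.Alpha Module

noncomputable section

namespace Fermat.Agent.Delta

local notation "Qb" => AlgebraicClosure ℚ
local notation "GQ" => (AlgebraicClosure ℚ ≃ₐ[ℚ] AlgebraicClosure ℚ)

/-! ### Artin–Schreier type and constants -/

section AS

variable {K k : Type*} [Field K] [Field k] {B : DlBase K k} {F κ : Type*} [Field F] [Algebra K F]
  [Field κ] [Algebra k κ] (g : DlPlace B F κ)

/-- Artin–Schreier type is stable under `b ↦ d + b + ϖ ^ p d b` with `d ∈ A` constant -/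
theorem DlPlace.as_shift {p : ℕ} (hp : p.Prime) [CharP k p] [IsAlgClosed k] (ε : k) {b : F}
    (hb : b ∈ g.O) (d : ↥B.A) {u : κ} (hu : g.res ⟨b, hb⟩ = u ^ p + algebraMap k κ ε * u)
    (hb' : algebraMap K F (d : K) + b + g.pi ^ p * algebraMap K F (d : K) * b ∈ g.O) :
    ∃ u' : κ, g.res ⟨algebraMap K F (d : K) + b + g.pi ^ p * algebraMap K F (d : K) * b, hb'⟩ =
      u' ^ p + algebraMap k κ ε * u' := by
  haveI : Fact p.Prime := ⟨hp⟩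
  haveI : CharP κ p := charP_of_injective_algebraMap (algebraMap k κ).injective p
  -- a root of `X ^ p + ε X - δ`
  obtain ⟨ρ, hρ⟩ : ∃ ρ : k, ρ ^ p + ε * ρ = B.resA d := by
    have hdeg : (Polynomial.X ^ p + Polynomial.C ε * Polynomial.X - Polynomial.C (B.resA d) :
        Polynomial k).degree ≠ 0 := by
      have h1 : (Polynomial.C ε * Polynomial.X - Polynomial.C (B.resA d) : Polynomial k).degree <
          ((Polynomial.X : Polynomial k) ^ p).degree := by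
        rw [Polynomial.degree_X_pow]
        refine lt_of_le_of_lt (Polynomial.degree_sub_le _ _) (max_lt ?_ ?_)
        · refine lt_of_le_of_lt (Polynomial.degree_C_mul_X_le ε) ?_
          exact_mod_cast hp.one_lt
        · refine lt_of_le_of_lt Polynomial.degree_C_le ?_
          exact_mod_cast hp.pos
      rw [add_sub_assoc, Polynomial.degree_add_eq_left_of_degree_lt h1, Polynomial.degree_X_pow]
      exact_mod_cast hp.ne_zero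
    obtain ⟨ρ, hρ⟩ := IsAlgClosed.exists_root _ hdeg
    refine ⟨ρ, ?_⟩
    rw [Polynomial.IsRoot.def, Polynomial.eval_sub, Polynomial.eval_add, Polynomial.eval_pow,
      Polynomial.eval_X, Polynomial.eval_mul, Polynomial.eval_C, Polynomial.eval_X,
      Polynomial.eval_C, sub_eq_zero] at hρ
    exact hρ
  have hd : algebraMap K F (d : K) ∈ g.O := g.algebraMap_mem d
  have hdb : algebraMap K F (d : K) * b ∈ g.O := g.O.mul_mem hd hb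
  have h3 : g.pi ^ p * algebraMap K F (d : K) * b = g.pi ^ p * (algebraMap K F (d : K) * b) :=
    mul_assoc _ _ _
  have hm3 : g.pi ^ p * (algebraMap K F (d : K) * b) ∈ g.O := g.O.mul_mem (g.pi_pow_mem p) hdb
  refine ⟨u + algebraMap k κ ρ, ?_⟩
  have e : algebraMap K F (d : K) + b + g.pi ^ p * algebraMap K F (d : K) * b =
      algebraMap K F (d : K) + b + g.pi ^ p * (algebraMap K F (d : K) * b) := by rw [h3]
  rw [g.res_congr hb' e, g.res_add' (g.O.add_mem hd hb) hm3, g.res_add' hd hb,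
    g.res_pi_pow_mul hp.one_le hdb, add_zero, g.res_algebraMap d, hu, ← hρ, add_pow_char,
    map_add, map_mul, map_pow]
  ring

end AS

variable (𝔓 : FFPlace)

attribute [local instance] t2i_dvr t2i_isAlgClosed t2i_charP t2i_fact
attribute [local instance 10000] dliAlgF dliAlgE
attribute [local instance] t2iAlgebra t2i_isScalarTower

/-! ### The Kummer function of the toric line -/

section Kummer

variable (N' : ℕ) [NeZero N'] (h : ¬ 𝔓.p ∣ N')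

/-- `Z` is a normalised Kummer function of `x` at the tame level `H₁`: `x = [div(Φ Z) / p]`,
`lc(Φ Z) = 1`, `Φ Z = t · S ^ p` with `t ≡ (1, 1)`, and the two norm conditions -/
structure DliKummer (x : JZero (N' * 𝔓.p)) (Z : ↥(tbLevF 𝔓 (N' * 𝔓.p) (dliH1 𝔓))) : Prop where
  ne_zero : Z ≠ 0
  dvd : ∀ v : Place Qb ↥(modularFunctionFieldBar (N' * 𝔓.p)),
    (𝔓.p : ℤ) ∣ v.ord (tbPhiF 𝔓 (N' * 𝔓.p) (dliH1 𝔓) Z)
  cls : ∃ (hZ0 : tbPhiF 𝔓 (N' * 𝔓.p) (dliH1 𝔓) Z ≠ 0)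
    (hZ : ∀ v : Place Qb ↥(modularFunctionFieldBar (N' * 𝔓.p)),
      (𝔓.p : ℤ) ∣ v.ord (tbPhiF 𝔓 (N' * 𝔓.p) (dliH1 𝔓) Z)),
    alpfClass 𝔓.hp.ne_zero (Units.mk0 (tbPhiF 𝔓 (N' * 𝔓.p) (dliH1 𝔓) Z) hZ0) hZ = x
  lc : dliLc (N' * 𝔓.p) (tbPhiF 𝔓 (N' * 𝔓.p) (dliH1 𝔓) Z) = 1
  pow : ∃ (t : (↥(modularFunctionFieldBar (N' * 𝔓.p)))ˣ) (S : ↥(modularFunctionFieldBar (N' * 𝔓.p))),
    t ∈ s33gCong 𝔓 N' h ∧
      tbPhiF 𝔓 (N' * 𝔓.p) (dliH1 𝔓) Z = (t : ↥(modularFunctionFieldBar (N' * 𝔓.p))) * S ^ 𝔓.p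
  norm₁ : ∃ c : ↥(tbFix 𝔓 (dliH1 𝔓)), c ≠ 0 ∧ ∃ y : ↥(dliE1H 𝔓 (dliH1 𝔓) N'),
    Algebra.norm ↥(dliE1H 𝔓 (dliH1 𝔓) N') Z =
      algebraMap ↥(tbFix 𝔓 (dliH1 𝔓)) ↥(dliE1H 𝔓 (dliH1 𝔓) N') c * y ^ 𝔓.p
  norm₂ : ∃ c : ↥(tbFix 𝔓 (dliH1 𝔓)), c ≠ 0 ∧ ∃ y : ↥(dliE1H 𝔓 (dliH1 𝔓) N'),
    Algebra.norm ↥(dliE1H 𝔓 (dliH1 𝔓) N') ((t2iALFix 𝔓 (dliH1 𝔓) N' h).w Z) =
      algebraMap ↥(tbFix 𝔓 (dliH1 𝔓)) ↥(dliE1H 𝔓 (dliH1 𝔓) N') c * y ^ 𝔓.p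

/-- **existence of the normalised Kummer function**: for `x` in the formal part, killed by `p`,
fixed by `H₁`, with `α_* x = β_* x = 0` -/
theorem dli_exists_kummer (x : JZero (N' * 𝔓.p)) (hx : x ∈ s33gC 𝔓 N' h) (hpx : 𝔓.p • x = 0)
    (hfix : ∀ σ ∈ dliH1 𝔓, ((σ : 𝔓.I) : GQ) • x = x)
    (hA : dlwPushA N' 𝔓.p x = 0) (hB : dlwPushB N' 𝔓.p x = 0) :
    ∃ Z : ↥(tbLevF 𝔓 (N' * 𝔓.p) (dliH1 𝔓)), DliKummer 𝔓 N' h x Z := by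
  have hpx' : (𝔓.p : ℤ) • x = 0 := by rw [natCast_zsmul]; exact hpx
  obtain ⟨Z, hZ0, hZ, hcl, hlc, hN₁, hN₂⟩ :=
    dli_kummer_norm_conds_lc 𝔓 (dliH1 𝔓) N' h x hpx' hfix hA hB
  obtain ⟨t, ht, htC, hxt⟩ := s33g_exists_kummer_p 𝔓 N' h x hx hpx
  have hz : Z ≠ 0 := fun h0 => hZ0 (by rw [h0, map_zero])
  obtain ⟨S, hS⟩ := dli_exists_pow_of_class_eq (N' * 𝔓.p) 𝔓.hp.ne_zero t
    (Units.mk0 (tbPhiF 𝔓 (N' * 𝔓.p) (dliH1 𝔓) Z) hZ0) ht hZ (by rw [hcl, hxt])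
  refine ⟨Z, hz, hZ, ⟨hZ0, hZ, hcl⟩, hlc, ⟨t, (S : ↥(modularFunctionFieldBar (N' * 𝔓.p))), htC, ?_⟩,
    hN₁, hN₂⟩
  have := congrArg (fun u : (↥(modularFunctionFieldBar (N' * 𝔓.p)))ˣ =>
    (u : ↥(modularFunctionFieldBar (N' * 𝔓.p)))) hS
  simp only [Units.val_mk0, Units.val_mul, Units.val_pow_eq_pow_val] at this
  exact this

end Kummer

/-! ### The normal forms at the nodes, without constants -/

section Node

variable (N' : ℕ) [NeZero N'] (h : ¬ 𝔓.p ∣ N')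

variable {σ : Type*} [Fintype σ] (C : DlxChart (dliInf1 𝔓 N' h) (dliZero1 𝔓 N' h) σ)
  [IsNoetherianRing ↥C.P.B]
  {s : Place (IsLocalRing.ResidueField ↥𝔓.P) ↥(tbBarF 𝔓 N') ×
    Place (IsLocalRing.ResidueField ↥𝔓.P) ↥(tbBarF 𝔓 N')} (hs : s ∈ C.G.nodes)
  (hfin : C.FinAt (C.n₁ s.1 (C.node_fin₁ hs)))
  (hens : DltHens (dliBase1 𝔓).A ↥(tbLevF 𝔓 (N' * 𝔓.p) (dliH1 𝔓)))
  (D : ↥(tbLevF 𝔓 (N' * 𝔓.p) (dliH1 𝔓))) (hD0 : D ≠ 0)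
  (hDhor : ∀ V ∈ t4vpHor ↥(tbFix 𝔓 (dliH1 𝔓)) C.x, V.valuation D = 1)
  (hD1 : C.V₁.valuation D = 1) (hD2 : C.V₂.valuation D < 1)

include hfin hens hD0 hDhor hD1 hD2 in
/-- **(I1-b), final form**: the normal form of the normalised Kummer function at a node of the
chart, WITHOUT constant: `Z = W ^ p (1 + ϖ ^ p b)`, `b ∈ A_s` of Artin–Schreier type -/
theorem dli_node_form_lc {x : JZero (N' * 𝔓.p)} {Z : ↥(tbLevF 𝔓 (N' * 𝔓.p) (dliH1 𝔓))}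
    (hK : DliKummer 𝔓 N' h x Z)
    (hA : dliLc N' (t3pNormAlong (heckeAlphaBar Qb N' 𝔓.p)
        (tbPhiF 𝔓 (N' * 𝔓.p) (dliH1 𝔓) Z)) =
      dliLc (N' * 𝔓.p) (tbPhiF 𝔓 (N' * 𝔓.p) (dliH1 𝔓) Z) *
        dliLc (N' * 𝔓.p) (t2w Qb N' 𝔓.p h (tbPhiF 𝔓 (N' * 𝔓.p) (dliH1 𝔓) Z)) ^ 𝔓.p) :
    ∃ W : ↥(tbLevF 𝔓 (N' * 𝔓.p) (dliH1 𝔓)), W ≠ 0 ∧
      ∃ (b : ↥(tbLevF 𝔓 (N' * 𝔓.p) (dliH1 𝔓))) (hb : b ∈ C.A₁ s.1 (C.node_fin₁ hs)),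
        Z = W ^ 𝔓.p * (1 + (dliInf1 𝔓 N' h).pi ^ 𝔓.p * b) ∧
        (∃ u : ↥(tbBarF 𝔓 N'), (dliInf1 𝔓 N' h).res ⟨b, C.A₁_le₁ _ _ hb⟩ =
          u ^ 𝔓.p + algebraMap (IsLocalRing.ResidueField ↥𝔓.P) ↥(tbBarF 𝔓 N')
            (tbFixRes 𝔓 (dliH1 𝔓) (dliEta 𝔓)) * u) ∧
        (∃ u : ↥(tbBarF 𝔓 N'), (dliZero1 𝔓 N' h).res ⟨b, C.A₁_le₂ hs hb⟩ =
          u ^ 𝔓.p + algebraMap (IsLocalRing.ResidueField ↥𝔓.P) ↥(tbBarF 𝔓 N')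
            (tbFixRes 𝔓 (dliH1 𝔓) (dliEta 𝔓)) * u) := by
  obtain ⟨t, S, htC, hΦ⟩ := hK.pow
  obtain ⟨c, hc, W, hW, b, hb, hZ, ⟨u₁, hu₁⟩, ⟨u₂, hu₂⟩⟩ :=
    dli_node_form 𝔓 N' h C hs hfin hens D hD0 hDhor hD1 hD2 Z hK.ne_zero hK.dvd htC hΦ
      hK.norm₁ hK.norm₂
  obtain ⟨v₀, d₀, hv₀, hd₀, hcv⟩ := dli_lc_const 𝔓 N' h Z hK.ne_zero hK.lc hA hK.norm₁ hc hW
    (C.A₁_le₁ _ _ hb) (C.A₁_le₂ hs hb) hZ
  set d : ↥(dliBase1 𝔓).A := ⟨d₀, hd₀⟩ with hd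
  have hdA : algebraMap ↥(tbFix 𝔓 (dliH1 𝔓)) ↥(tbLevF 𝔓 (N' * 𝔓.p) (dliH1 𝔓)) d₀ ∈
      C.A₁ s.1 (C.node_fin₁ hs) := C.algebraMap_mem_A₁ _ _ d
  have hpiA : (dliInf1 𝔓 N' h).pi ∈ C.A₁ s.1 (C.node_fin₁ hs) :=
    C.algebraMap_mem_A₁ _ _ (dliBase1 𝔓).ϖA
  have hb' : algebraMap ↥(tbFix 𝔓 (dliH1 𝔓)) ↥(tbLevF 𝔓 (N' * 𝔓.p) (dliH1 𝔓)) d₀ + b +
      (dliInf1 𝔓 N' h).pi ^ 𝔓.p *
        algebraMap ↥(tbFix 𝔓 (dliH1 𝔓)) ↥(tbLevF 𝔓 (N' * 𝔓.p) (dliH1 𝔓)) d₀ * b ∈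
      C.A₁ s.1 (C.node_fin₁ hs) :=
    Subring.add_mem _ (Subring.add_mem _ hdA hb)
      (Subring.mul_mem _ (Subring.mul_mem _ (Subring.pow_mem _ hpiA _) hdA) hb)
  refine ⟨algebraMap ↥(tbFix 𝔓 (dliH1 𝔓)) ↥(tbLevF 𝔓 (N' * 𝔓.p) (dliH1 𝔓)) v₀ * W,
    mul_ne_zero ((map_ne_zero _).mpr hv₀) hW, _, hb', ?_, ?_, ?_⟩
  · have hpi : (dliInf1 𝔓 N' h).pi =
        algebraMap ↥(tbFix 𝔓 (dliH1 𝔓)) ↥(tbLevF 𝔓 (N' * 𝔓.p) (dliH1 𝔓)) (dliBase1 𝔓).ϖ := rfl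
    rw [hZ, hcv, hpi, map_mul, map_pow, map_add, map_one, map_mul, map_pow]
    ring
  · exact (dliInf1 𝔓 N' h).as_shift 𝔓.hp _ (C.A₁_le₁ _ _ hb) d hu₁ (C.A₁_le₁ _ _ hb')
  · exact (dliZero1 𝔓 N' h).as_shift 𝔓.hp _ (C.A₁_le₂ hs hb) d hu₂ (C.A₁_le₂ hs hb')

end Node

end Fermat.Agent.Delta
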