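/-
DELTA / (I1-b) (helper9), part 7: **the export of (I1-b)** with NO hypothesis left: `dli_node_form_lc`
with `hA` discharged by helper8's `dlil_lc_normAlong` (Toric/LcNorm.lean).

**`dli_node_normal_form`** : `p` odd, `Z` a normalised Kummer function of `x` at the tame level
(`DliKummer 𝔓 N' h x Z`, existence: `dli_exists_kummer`) ⇒ at every node `s` of a chart
`C : DlxChart (dliInf1 𝔓 N' h) (dliZero1 𝔓 N' h) σ` (with the crossing data of helper2's `C.toCross`):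
`Z = W ^ p (1 + ϖ ^ p b)`, `W ≠ 0`, `b ∈ A_s`, `res b` of Artin–Schreier type at both branches.
-/
import Fermat.Agent.Lib.Delta.Toric.NodeFinal
import Fermat.Agent.Lib.Delta.Toric.LcNorm

set_option autoImplicit false
set_option linter.unusedSectionVars false
set_option linter.unusedVariables false
set_option linter.style.haveILetI false
set_option synthInstance.maxHeartbeats 400000

open HahnSeries ModularCurve AlgebraicCurve Fermat.Agent.T1 Fermat.Agent.T2 Fermat.Agent.T3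
  Fermat.Agent.TW Fermat.Agent.S05Lib Fermat.Agent.S33 Fermat.Agent.S24Lib Fermat.Agent.T1.KMod
  Fermat.Agent.T4 Fermat.Agent.Alpha Module

noncomputable section

namespace Fermat.Agent.Delta

local notation "Qb" => AlgebraicClosure ℚ

variable (𝔓 : FFPlace)

attribute [local instance] t2i_dvr t2i_isAlgClosed t2i_charP t2i_fact
attribute [local instance 10000] dliAlgF dliAlgE
attribute [local instance] t2iAlgebra t2i_isScalarTower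

variable (N' : ℕ) [NeZero N'] (h : ¬ 𝔓.p ∣ N')

variable {σ : Type*} [Fintype σ] (C : DlxChart (dliInf1 𝔓 N' h) (dliZero1 𝔓 N' h) σ)
  [IsNoetherianRing ↥C.P.B]
  {s : Place (IsLocalRing.ResidueField ↥𝔓.P) ↥(tbBarF 𝔓 N') ×
    Place (IsLocalRing.ResidueField ↥𝔓.P) ↥(tbBarF 𝔓 N')} (hs : s ∈ C.G.nodes)
  (hfin : C.FinAt (C.n₁ s.1 (C.node_fin₁ hs)))
  (hens : DltHens (dliBase1 𝔓).A ↥(tbLevF 𝔓 (N' * 𝔓.p) (dliH1 𝔓)))
  (D : ↥(tbLevF 𝔓 (N' * 𝔓.p) (dliH1 𝔓))) (hD0 : D ≠ 0)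
  (hDhor : ∀ V ∈ t4vpHor ↥(tbFix 𝔓 (dliH1 𝔓)) C.x, V.valuation D = 1)
  (hD1 : C.V₁.valuation D = 1) (hD2 : C.V₂.valuation D < 1)

include hfin hens hD0 hDhor hD1 hD2 in
/-- **(I1-b)**: the normal form of the normalised Kummer function at a node, without constant -/
theorem dli_node_normal_form (hodd : 𝔓.p ≠ 2) {x : JZero (N' * 𝔓.p)}
    {Z : ↥(tbLevF 𝔓 (N' * 𝔓.p) (dliH1 𝔓))} (hK : DliKummer 𝔓 N' h x Z) :
    ∃ W : ↥(tbLevF 𝔓 (N' * 𝔓.p) (dliH1 𝔓)), W ≠ 0 ∧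
      ∃ (b : ↥(tbLevF 𝔓 (N' * 𝔓.p) (dliH1 𝔓))) (hb : b ∈ C.A₁ s.1 (C.node_fin₁ hs)),
        Z = W ^ 𝔓.p * (1 + (dliInf1 𝔓 N' h).pi ^ 𝔓.p * b) ∧
        (∃ u : ↥(tbBarF 𝔓 N'), (dliInf1 𝔓 N' h).res ⟨b, C.A₁_le₁ _ _ hb⟩ =
          u ^ 𝔓.p + algebraMap (IsLocalRing.ResidueField ↥𝔓.P) ↥(tbBarF 𝔓 N')
            (tbFixRes 𝔓 (dliH1 𝔓) (dliEta 𝔓)) * u) ∧
        (∃ u : ↥(tbBarF 𝔓 N'), (dliZero1 𝔓 N' h).res ⟨b, C.A₁_le₂ hs hb⟩ =
          u ^ 𝔓.p + algebraMap (IsLocalRing.ResidueField ↥𝔓.P) ↥(tbBarF 𝔓 N')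
            (tbFixRes 𝔓 (dliH1 𝔓) (dliEta 𝔓)) * u) :=
  dli_node_form_lc 𝔓 N' h C hs hfin hens D hD0 hDhor hD1 hD2 hK
    (dlil_lc_normAlong N' 𝔓.p h hodd _)

end Fermat.Agent.Delta
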