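/-
DELTA / I1 (helper8): **(A) of (LC) at the level `H`**.

`L_H = tbFix 𝔓 H`, `p = 𝔓.p` odd, `p ∤ N'`, `lcH f := (f : L_H((q))).leadingCoeff`:
* `dlil_lc_normAlong_H : lcH (N_α Z) = lcH Z · lcH (w Z) ^ p` (`N_α = t3pNormAlong (heckeAlphaBar ..)`),
* `dlil_lc_norm_E1H : lcH (Algebra.norm E₁ Z : F) = lcH Z · lcH (w Z) ^ p` (`E₁ = dliE1H 𝔓 H N'`).
-/
import Fermat.Agent.Lib.Delta.Toric.LcNorm
import Fermat.Agent.Lib.Delta.Toric.NormAlpha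

set_option autoImplicit false
set_option linter.unusedSectionVars false
set_option linter.unusedVariables false
set_option linter.style.haveILetI false
set_option synthInstance.maxHeartbeats 400000

open ModularCurve AlgebraicCurve IntermediateField HahnSeries Module
open Fermat.Agent.T1 Fermat.Agent.T2 Fermat.Agent.T3 Fermat.Agent.S24Lib Fermat.Agent.T1.KMod
open Fermat.Agent.TW Fermat.Agent.S05Lib

noncomputable section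

namespace Fermat.Agent.Delta

local notation "Qb" => AlgebraicClosure ℚ

/-! ### the level `H` -/

section LevelH

variable (𝔓 : FFPlace) (H : Subgroup 𝔓.I) [H.FiniteIndex] (N' : ℕ) [NeZero N'] (h : ¬ 𝔓.p ∣ N')

attribute [local instance] t2i_dvr t2i_isAlgClosed t2i_charP t2i_fact

attribute [local instance 10000] dliAlgF dliAlgE

/-- **`lc (N_α Z) = lc Z · lc (w Z) ^ p`** at the level `H` -/
theorem dlil_lc_normAlong_H (hodd : 𝔓.p ≠ 2) (Z : ↥(tbLevF 𝔓 (N' * 𝔓.p) H)) :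
    ((t3pNormAlong (heckeAlphaBar ↥(tbFix 𝔓 H) N' 𝔓.p) Z : ↥(tbLevF 𝔓 N' H)) :
        LaurentSeries ↥(tbFix 𝔓 H)).leadingCoeff =
      (Z : LaurentSeries ↥(tbFix 𝔓 H)).leadingCoeff *
        ((t2wLev 𝔓 H N' 𝔓.p h Z : ↥(tbLevF 𝔓 (N' * 𝔓.p) H)) :
          LaurentSeries ↥(tbFix 𝔓 H)).leadingCoeff ^ 𝔓.p := by
  apply (algebraMap ↥(tbFix 𝔓 H) Qb).injective
  have hfinH := dli_finiteAlong_alphaH 𝔓 H N' h
  have hbc := dli_norm_alpha_bc 𝔓 H N' 𝔓.p (t3h_alphaFinite N' 𝔓.p) hfinH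
    (by rw [t3k_finrank_alpha N' 𝔓.p h, dli_finrankAlong_alphaH 𝔓 H N' h]) Z
  have e1 := dliLc_tbPhiF 𝔓 H N' (t3pNormAlong (heckeAlphaBar ↥(tbFix 𝔓 H) N' 𝔓.p) Z)
  have e2 := dliLc_tbPhiF 𝔓 H (N' * 𝔓.p) Z
  have e3 := dliLc_tbPhiF 𝔓 H (N' * 𝔓.p) (t2wLev 𝔓 H N' 𝔓.p h Z)
  rw [map_mul, map_pow, ← e1, ← e2, ← e3, hbc, tbPhiF_t2wLev]
  exact dlil_lc_normAlong N' 𝔓.p h hodd (tbPhiF 𝔓 (N' * 𝔓.p) H Z)

/-- **`lc (N_{F/E₁} Z) = lc Z · lc (w Z) ^ p`** at the level `H` -/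
theorem dlil_lc_norm_E1H (hodd : 𝔓.p ≠ 2) (Z : ↥(tbLevF 𝔓 (N' * 𝔓.p) H)) :
    (((Algebra.norm ↥(dliE1H 𝔓 H N') Z : ↥(dliE1H 𝔓 H N')) : ↥(tbLevF 𝔓 (N' * 𝔓.p) H)) :
        LaurentSeries ↥(tbFix 𝔓 H)).leadingCoeff =
      (Z : LaurentSeries ↥(tbFix 𝔓 H)).leadingCoeff *
        (((t2iALFix 𝔓 H N' h).w Z : ↥(tbLevF 𝔓 (N' * 𝔓.p) H)) :
          LaurentSeries ↥(tbFix 𝔓 H)).leadingCoeff ^ 𝔓.p := by
  have e := dli_norm_E1_eq 𝔓 H N' Z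
  have e' : ((Algebra.norm ↥(dliE1H 𝔓 H N') Z : ↥(dliE1H 𝔓 H N')) : ↥(tbLevF 𝔓 (N' * 𝔓.p) H)) =
      heckeAlphaBar ↥(tbFix 𝔓 H) N' 𝔓.p (t3pNormAlong (heckeAlphaBar ↥(tbFix 𝔓 H) N' 𝔓.p) Z) := by
    rw [e]
    rfl
  rw [e', coe_heckeAlphaBar]
  exact dlil_lc_normAlong_H 𝔓 H N' h hodd Z

end LevelH

end Fermat.Agent.Delta
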