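/-
DELTA / (I1-b) (helper9), part 8: **the node normal forms at the concrete chart** `dlxChart1` of
helper2 (NodeX/InstH.lean) at the tame level `H₁ = dliH1 𝔓`, with the vertical unit
`D = dlxVertD 𝔓 H₁ N'` of helper8 (NodeX/Vert.lean): every hypothesis of `dli_node_normal_form`
discharged.

* `dli_chart1_normal_form` : `DliKummer 𝔓 N' h x Z`, `p` odd ⇒ at every node `s` of chart 1,
  `Z = W ^ p (1 + ϖ ^ p b)`, `W ≠ 0`, `b ∈ A_s`, `res b` of Artin–Schreier type at both branches;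
* `dli_chart1_exists` : for `x` in the formal part, killed by `p`, fixed by `H₁`, with
  `α_* x = β_* x = 0`: a normalised Kummer function `Z` with these normal forms at all nodes.
-/
import Fermat.Agent.Lib.Delta.Toric.NodeExport
import Fermat.Agent.Lib.Delta.NodeX.InstH
import Fermat.Agent.Lib.Delta.NodeX.Vert

set_option autoImplicit false
set_option linter.unusedSectionVars false
set_option linter.unusedVariables false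
set_option linter.style.haveILetI false
set_option synthInstance.maxHeartbeats 400000
set_option maxHeartbeats 1000000

open HahnSeries ModularCurve AlgebraicCurve Fermat.Agent.T1 Fermat.Agent.T2 Fermat.Agent.T3
  Fermat.Agent.TW Fermat.Agent.S05Lib Fermat.Agent.S33 Fermat.Agent.S24Lib Fermat.Agent.T1.KMod
  Fermat.Agent.T4 Fermat.Agent.Alpha Module Fermat.Agent.S33Q

noncomputable section

namespace Fermat.Agent.Delta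

local notation "Qb" => AlgebraicClosure ℚ

variable (𝔓 : FFPlace)

attribute [local instance] t2i_dvr t2i_isAlgClosed t2i_charP t2i_fact
attribute [local instance 10000] dliAlgF dliAlgE
attribute [local instance] t2iAlgebra t2i_isScalarTower

variable (N' : ℕ) [NeZero N'] (h : ¬ 𝔓.p ∣ N') (h49 : 4 ∣ N' ∨ 9 ∣ N') {n : ℕ}
  (su : T2Setup (t2iBase2Fix 𝔓 (dliH1 𝔓) N' h) (Fin n))
  (hx : su.x = t2gaX 𝔓 (dliH1 𝔓) N' h (𝔓.p ^ 2)) (hxb : su.xb = (s33qXi 𝔓 N', s33qXi 𝔓 N'))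

/-- **(I1-b) at chart 1 of the tame level** -/
theorem dli_chart1_normal_form (hodd : 𝔓.p ≠ 2) {x : JZero (N' * 𝔓.p)}
    {Z : ↥(tbLevF 𝔓 (N' * 𝔓.p) (dliH1 𝔓))} (hK : DliKummer 𝔓 N' h x Z)
    {s : Place (IsLocalRing.ResidueField ↥𝔓.P) ↥(tbBarF 𝔓 N') ×
      Place (IsLocalRing.ResidueField ↥𝔓.P) ↥(tbBarF 𝔓 N')}
    (hs : s ∈ (dlxChart1 𝔓 (dliH1 𝔓) (dliPi1_irreducible 𝔓) N' h h49 su hx hxb).G.nodes) :
    ∃ W : ↥(tbLevF 𝔓 (N' * 𝔓.p) (dliH1 𝔓)), W ≠ 0 ∧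
      ∃ (b : ↥(tbLevF 𝔓 (N' * 𝔓.p) (dliH1 𝔓)))
        (hb : b ∈ (dlxChart1 𝔓 (dliH1 𝔓) (dliPi1_irreducible 𝔓) N' h h49 su hx hxb).A₁ s.1
          ((dlxChart1 𝔓 (dliH1 𝔓) (dliPi1_irreducible 𝔓) N' h h49 su hx hxb).node_fin₁ hs)),
        Z = W ^ 𝔓.p * (1 + (dliInf1 𝔓 N' h).pi ^ 𝔓.p * b) ∧
        (∃ u : ↥(tbBarF 𝔓 N'), (dliInf1 𝔓 N' h).res
            ⟨b, (dlxChart1 𝔓 (dliH1 𝔓) (dliPi1_irreducible 𝔓) N' h h49 su hx hxb).A₁_le₁ _ _ hb⟩ =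
          u ^ 𝔓.p + algebraMap (IsLocalRing.ResidueField ↥𝔓.P) ↥(tbBarF 𝔓 N')
            (tbFixRes 𝔓 (dliH1 𝔓) (dliEta 𝔓)) * u) ∧
        (∃ u : ↥(tbBarF 𝔓 N'), (dliZero1 𝔓 N' h).res
            ⟨b, (dlxChart1 𝔓 (dliH1 𝔓) (dliPi1_irreducible 𝔓) N' h h49 su hx hxb).A₁_le₂ hs hb⟩ =
          u ^ 𝔓.p + algebraMap (IsLocalRing.ResidueField ↥𝔓.P) ↥(tbBarF 𝔓 N')
            (tbFixRes 𝔓 (dliH1 𝔓) (dliEta 𝔓)) * u) := by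
  have hQ : 2 ≤ 𝔓.p ^ 2 := by
    have := 𝔓.hp.two_le
    nlinarith
  exact dli_node_normal_form 𝔓 N' h
    (dlxChart1 𝔓 (dliH1 𝔓) (dliPi1_irreducible 𝔓) N' h h49 su hx hxb) hs
    (dlxChart1_finAt 𝔓 (dliH1 𝔓) (dliPi1_irreducible 𝔓) N' h h49 su hx hxb s.1
      ((dlxChart1 𝔓 (dliH1 𝔓) (dliPi1_irreducible 𝔓) N' h h49 su hx hxb).node_fin₁ hs))
    (dlx_hensH 𝔓 (dliH1 𝔓) (dliPi1_irreducible 𝔓) N')
    (dlxVertD 𝔓 (dliH1 𝔓) N') (dlxVertD_ne_zero 𝔓 (dliH1 𝔓) N')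
    (fun V hV => dlxVertD_hor 𝔓 (dliH1 𝔓) N' h hQ V (by
      have hx' : (dlxChart1 𝔓 (dliH1 𝔓) (dliPi1_irreducible 𝔓) N' h h49 su hx hxb).x =
        t2gaX 𝔓 (dliH1 𝔓) N' h (𝔓.p ^ 2) := hx
      rw [← hx']
      exact hV))
    (dlxVertD_val_inf 𝔓 (dliH1 𝔓) N') (dlxVertD_val_zero 𝔓 (dliH1 𝔓) N' h) hodd hK

/-- **the toric package in one call**: for `x` in the formal part, killed by `p`, fixed by `H₁`,
with `α_* x = β_* x = 0`, there is a normalised Kummer function of `x` at the tame level with the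
Artin–Schreier–Kummer normal form at every node of chart 1 -/
theorem dli_chart1_exists (hodd : 𝔓.p ≠ 2) (x : JZero (N' * 𝔓.p)) (hxC : x ∈ s33gC 𝔓 N' h)
    (hpx : 𝔓.p • x = 0)
    (hfix : ∀ σ ∈ dliH1 𝔓, ((σ : 𝔓.I) : (AlgebraicClosure ℚ ≃ₐ[ℚ] AlgebraicClosure ℚ)) • x = x)
    (hA : dlwPushA N' 𝔓.p x = 0) (hB : dlwPushB N' 𝔓.p x = 0) :
    ∃ Z : ↥(tbLevF 𝔓 (N' * 𝔓.p) (dliH1 𝔓)), DliKummer 𝔓 N' h x Z ∧
      ∀ (s : Place (IsLocalRing.ResidueField ↥𝔓.P) ↥(tbBarF 𝔓 N') ×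
        Place (IsLocalRing.ResidueField ↥𝔓.P) ↥(tbBarF 𝔓 N'))
        (hs : s ∈ (dlxChart1 𝔓 (dliH1 𝔓) (dliPi1_irreducible 𝔓) N' h h49 su hx hxb).G.nodes),
        ∃ W : ↥(tbLevF 𝔓 (N' * 𝔓.p) (dliH1 𝔓)), W ≠ 0 ∧
          ∃ (b : ↥(tbLevF 𝔓 (N' * 𝔓.p) (dliH1 𝔓)))
            (hb : b ∈ (dlxChart1 𝔓 (dliH1 𝔓) (dliPi1_irreducible 𝔓) N' h h49 su hx hxb).A₁ s.1
              ((dlxChart1 𝔓 (dliH1 𝔓) (dliPi1_irreducible 𝔓) N' h h49 su hx hxb).node_fin₁ hs)),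
            Z = W ^ 𝔓.p * (1 + (dliInf1 𝔓 N' h).pi ^ 𝔓.p * b) ∧
            (∃ u : ↥(tbBarF 𝔓 N'), (dliInf1 𝔓 N' h).res
                ⟨b, (dlxChart1 𝔓 (dliH1 𝔓) (dliPi1_irreducible 𝔓) N' h h49 su hx hxb).A₁_le₁ _ _
                  hb⟩ =
              u ^ 𝔓.p + algebraMap (IsLocalRing.ResidueField ↥𝔓.P) ↥(tbBarF 𝔓 N')
                (tbFixRes 𝔓 (dliH1 𝔓) (dliEta 𝔓)) * u) ∧
            (∃ u : ↥(tbBarF 𝔓 N'), (dliZero1 𝔓 N' h).res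
                ⟨b, (dlxChart1 𝔓 (dliH1 𝔓) (dliPi1_irreducible 𝔓) N' h h49 su hx hxb).A₁_le₂ hs
                  hb⟩ =
              u ^ 𝔓.p + algebraMap (IsLocalRing.ResidueField ↥𝔓.P) ↥(tbBarF 𝔓 N')
                (tbFixRes 𝔓 (dliH1 𝔓) (dliEta 𝔓)) * u) := by
  obtain ⟨Z, hK⟩ := dli_exists_kummer 𝔓 N' h x hxC hpx hfix hA hB
  exact ⟨Z, hK, fun s hs => dli_chart1_normal_form 𝔓 N' h h49 su hx hxb hodd hK hs⟩

/-- the normal forms in the literal shape of the `hnf` binder of helper2's `dlqf_family`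
(Core/Fam.lean): `ϖ` written as `algebraMap L₁ F₁ B₁.ϖ` -/
theorem dli_chart1_hnf (hodd : 𝔓.p ≠ 2) {x : JZero (N' * 𝔓.p)}
    {Z : ↥(tbLevF 𝔓 (N' * 𝔓.p) (dliH1 𝔓))} (hK : DliKummer 𝔓 N' h x Z) :
    ∀ (s : Place (IsLocalRing.ResidueField ↥𝔓.P) ↥(tbBarF 𝔓 N') ×
        Place (IsLocalRing.ResidueField ↥𝔓.P) ↥(tbBarF 𝔓 N'))
      (hs : s ∈ (dlxChart1 𝔓 (dliH1 𝔓) (dliPi1_irreducible 𝔓) N' h h49 su hx hxb).G.nodes),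
      ∃ w : ↥(tbLevF 𝔓 (N' * 𝔓.p) (dliH1 𝔓)), w ≠ 0 ∧
        ∃ b ∈ (dlxChart1 𝔓 (dliH1 𝔓) (dliPi1_irreducible 𝔓) N' h h49 su hx hxb).A₁ s.1
            ((dlxChart1 𝔓 (dliH1 𝔓) (dliPi1_irreducible 𝔓) N' h h49 su hx hxb).node_fin₁ hs),
          Z = w ^ 𝔓.p * (1 + (algebraMap ↥(tbFix 𝔓 (dliH1 𝔓))
            ↥(tbLevF 𝔓 (N' * 𝔓.p) (dliH1 𝔓)) (dliBase1 𝔓).ϖ) ^ 𝔓.p * b) := by
  intro s hs
  obtain ⟨W, hW, b, hb, hZ, -, -⟩ := dli_chart1_normal_form 𝔓 N' h h49 su hx hxb hodd hK hs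
  exact ⟨W, hW, b, hb, hZ⟩

end Fermat.Agent.Delta
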