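/-
DELTA / I1 (helper9), part 6: **the norm raises the level — the abstract datum**.

`E ⊆ F` a subfield of index `p + 1`, `gE` a place of `E`, `g₁`, `g₂` the two places of `F` above it:
`g₁` of degree one, `g₂` "ferocious" of degree `p` (residue extension of degree `p` with vanishing
trace).  Everything is phrased modulo `ϖ` ("`res = 0`"), no residue field maps between `E` and `F`:

* `DliFerocious p g₁ g₂ E κE` : the datum (`gE`, compatibility of the valuation rings, `f₀ ≡ (1, 0)`,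
  lifts `β̃ᵢ` of a basis of the residue extension at `g₂`, independence / span / trace zero mod `ϖ`);
* basic consequences: `ϖ`-divisibility transfers between `E` and `F` (`DliFerocious.div_iff₁`, …),
  independence and span modulo `ϖ^m` (`ind_pow`, `span_pow`), approximate idempotents `idem m`.
-/
import Fermat.Agent.Lib.Delta.Toric.Level

set_option autoImplicit false
set_option linter.unusedSectionVars false
set_option linter.unusedVariables false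
set_option linter.style.haveILetI false

namespace Fermat.Agent.Delta

open Module Finset

variable {K k : Type*} [Field K] [Field k] {B : DlBase K k} {F κ₁ κ₂ : Type*} [Field F]
  [Algebra K F] [Field κ₁] [Algebra k κ₁] [Field κ₂] [Algebra k κ₂]

/-- the datum "`g₁` has degree one and `g₂` is ferocious of degree `p` over the place `gE` of the
subfield `E` of index `p + 1`" -/
structure DliFerocious (p : ℕ) (g₁ : DlPlace B F κ₁) (g₂ : DlPlace B F κ₂)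
    (E : IntermediateField K F) (κE : Type*) [Field κE] [Algebra k κE] where
  /-- the place of `E` -/
  gE : DlPlace B ↥E κE
  mem₁ : ∀ e : ↥E, (e : F) ∈ g₁.O ↔ e ∈ gE.O
  mem₂ : ∀ e : ↥E, (e : F) ∈ g₂.O ↔ e ∈ gE.O
  /-- `g₁` has degree one over `gE` -/
  one₁ : ∀ (x : F) (hx : x ∈ g₁.O), ∃ e : ↥E, ∃ he : e ∈ gE.O,
    g₁.res ⟨x - (e : F), g₁.O.sub_mem hx ((mem₁ e).2 he)⟩ = 0
  /-- the separating element `f₀ ≡ (1, 0)` -/
  f₀ : F
  f₀_mem₁ : f₀ ∈ g₁.O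
  f₀_mem₂ : f₀ ∈ g₂.O
  f₀_res₁ : g₁.res ⟨f₀, f₀_mem₁⟩ = 1
  f₀_res₂ : g₂.res ⟨f₀, f₀_mem₂⟩ = 0
  /-- lifts of a basis of the residue extension at `g₂` -/
  β : Fin p → F
  β_mem₁ : ∀ i, β i ∈ g₁.O
  β_mem₂ : ∀ i, β i ∈ g₂.O
  /-- independence modulo `ϖ` -/
  ind₂ : ∀ r : Fin p → ↥E, (∀ i, r i ∈ gE.O) →
    (∃ y ∈ g₂.O, ∑ i, ((r i : ↥E) : F) * β i = g₂.pi * y) → ∀ i, ∃ r' ∈ gE.O, r i = gE.pi * r'
  /-- span modulo `ϖ` -/
  span₂ : ∀ x ∈ g₂.O, ∃ r : Fin p → ↥E, (∀ i, r i ∈ gE.O) ∧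
    ∃ y ∈ g₂.O, x = ∑ i, ((r i : ↥E) : F) * β i + g₂.pi * y
  /-- the trace of the residue extension at `g₂` vanishes -/
  tr₂ : ∀ c ∈ g₂.O, ∀ C : Matrix (Fin p) (Fin p) ↥E, (∀ i j, C i j ∈ gE.O) →
    (∀ j, ∃ y ∈ g₂.O, c * β j = ∑ i, ((C i j : ↥E) : F) * β i + g₂.pi * y) →
    ∃ t ∈ gE.O, C.trace = gE.pi * t
  deg : finrank ↥E F = p + 1

namespace DliFerocious

variable {p : ℕ} {g₁ : DlPlace B F κ₁} {g₂ : DlPlace B F κ₂} {E : IntermediateField K F}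
  {κE : Type*} [Field κE] [Algebra k κE] (D : DliFerocious p g₁ g₂ E κE)

/-- the uniformiser of `E` maps to the uniformiser of `F` -/
theorem coe_pi : ((D.gE.pi : ↥E) : F) = g₁.pi := by
  show ((algebraMap K ↥E B.ϖ : ↥E) : F) = algebraMap K F B.ϖ
  rfl

theorem coe_pi_pow (m : ℕ) : (((D.gE.pi ^ m : ↥E)) : F) = g₁.pi ^ m := by
  rw [← D.coe_pi]; rfl

/-- divisibility by `ϖ^m` at `g₁` descends to `E` -/
theorem div_pow₁ {m : ℕ} {e : ↥E} {y : F} (hy : y ∈ g₁.O) (h : (e : F) = g₁.pi ^ m * y) :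
    ∃ e' ∈ D.gE.O, e = D.gE.pi ^ m * e' := by
  have hpm : D.gE.pi ^ m ≠ 0 := pow_ne_zero _ D.gE.pi_ne_zero
  refine ⟨e / D.gE.pi ^ m, ?_, by rw [mul_div_cancel₀ _ hpm]⟩
  rw [← D.mem₁]
  have : ((e / D.gE.pi ^ m : ↥E) : F) = y := by
    have h1 : ((e / D.gE.pi ^ m : ↥E) : F) = (e : F) / g₁.pi ^ m := by
      rw [← D.coe_pi_pow]; rfl
    rw [h1, h, mul_div_cancel_left₀ _ (pow_ne_zero _ g₁.pi_ne_zero)]
  rw [this]
  exact hy

/-- divisibility by `ϖ^m` at `g₂` descends to `E` -/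
theorem div_pow₂ {m : ℕ} {e : ↥E} {y : F} (hy : y ∈ g₂.O) (h : (e : F) = g₂.pi ^ m * y) :
    ∃ e' ∈ D.gE.O, e = D.gE.pi ^ m * e' := by
  have hpm : D.gE.pi ^ m ≠ 0 := pow_ne_zero _ D.gE.pi_ne_zero
  refine ⟨e / D.gE.pi ^ m, ?_, by rw [mul_div_cancel₀ _ hpm]⟩
  rw [← D.mem₂]
  have : ((e / D.gE.pi ^ m : ↥E) : F) = y := by
    have h1 : ((e / D.gE.pi ^ m : ↥E) : F) = (e : F) / g₂.pi ^ m := by
      rw [show g₂.pi = g₁.pi from rfl, ← D.coe_pi_pow]; rfl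
    rw [h1, h, mul_div_cancel_left₀ _ (pow_ne_zero _ g₂.pi_ne_zero)]
  rw [this]
  exact hy

/-- the coercion of an integral element of `E` is integral at both places -/
theorem coe_mem₁ {e : ↥E} (he : e ∈ D.gE.O) : (e : F) ∈ g₁.O := (D.mem₁ e).2 he

theorem coe_mem₂ {e : ↥E} (he : e ∈ D.gE.O) : (e : F) ∈ g₂.O := (D.mem₂ e).2 he

/-- **independence modulo `ϖ^m`** -/
theorem ind_pow (m : ℕ) : ∀ r : Fin p → ↥E, (∀ i, r i ∈ D.gE.O) →
    (∃ y ∈ g₂.O, ∑ i, ((r i : ↥E) : F) * D.β i = g₂.pi ^ m * y) →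
    ∀ i, ∃ r' ∈ D.gE.O, r i = D.gE.pi ^ m * r' := by
  induction m with
  | zero =>
    intro r hr _ i
    exact ⟨r i, hr i, by rw [pow_zero, one_mul]⟩
  | succ m ih =>
    intro r hr ⟨y, hy, hsum⟩ i
    have h1 : ∀ i, ∃ r' ∈ D.gE.O, r i = D.gE.pi * r' :=
      D.ind₂ r hr ⟨g₂.pi ^ m * y, g₂.O.mul_mem (g₂.pi_pow_mem m) hy, by rw [hsum, pow_succ']; ring⟩
    choose r' hr' hrr' using h1
    have h2 : ∑ i, ((r' i : ↥E) : F) * D.β i = g₂.pi ^ m * y := by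
      have h3 : g₂.pi * ∑ i, ((r' i : ↥E) : F) * D.β i = g₂.pi * (g₂.pi ^ m * y) := by
        rw [← mul_assoc, ← pow_succ', ← hsum, mul_sum]
        refine sum_congr rfl (fun i _ => ?_)
        rw [hrr' i]
        push_cast
        rw [D.coe_pi]
        show g₂.pi * _ = g₁.pi * _ * _
        rw [show g₂.pi = g₁.pi from rfl]
        ring
      exact mul_left_cancel₀ g₂.pi_ne_zero h3
    obtain ⟨r'', hr'', h4⟩ := ih r' hr' ⟨y, hy, h2⟩ i
    exact ⟨r'', hr'', by rw [hrr' i, h4, pow_succ']; ring⟩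

/-- **span modulo `ϖ^m`** -/
theorem span_pow (m : ℕ) : ∀ x ∈ g₂.O, ∃ r : Fin p → ↥E, (∀ i, r i ∈ D.gE.O) ∧
    ∃ y ∈ g₂.O, x = ∑ i, ((r i : ↥E) : F) * D.β i + g₂.pi ^ m * y := by
  induction m with
  | zero =>
    intro x hx
    exact ⟨fun _ => 0, fun _ => D.gE.O.zero_mem, x, hx, by simp⟩
  | succ m ih =>
    intro x hx
    obtain ⟨r, hr, y, hy, hxy⟩ := ih x hx
    obtain ⟨ρ, hρ, y', hy', hyy'⟩ := D.span₂ y hy
    refine ⟨fun i => r i + D.gE.pi ^ m * ρ i, fun i => D.gE.O.add_mem (hr i)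
      (D.gE.O.mul_mem (D.gE.pi_pow_mem m) (hρ i)), y', hy', ?_⟩
    rw [hxy, hyy']
    have : ∀ i, (((r i + D.gE.pi ^ m * ρ i : ↥E)) : F) * D.β i =
        ((r i : ↥E) : F) * D.β i + g₂.pi ^ m * (((ρ i : ↥E) : F) * D.β i) := by
      intro i
      push_cast
      rw [D.coe_pi]
      show _ = _ + g₁.pi ^ m * _
      ring
    rw [sum_congr rfl (fun i _ => this i), sum_add_distrib, ← mul_sum, pow_succ]
    ring

end DliFerocious

end Fermat.Agent.Delta
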