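/-
DELTA / I1 (helper9), part 7: **the adapted basis of `F / E`**.

For a datum `D : DliFerocious p g₁ g₂ E κE` and `m ≥ 1`:
* `DlPlace.exists_scale` : a finite family of functions, not all zero, can be scaled by a power of
  `ϖ` to an integral family with a unit member;
* `idem` : an approximate idempotent `e ≡ 1 mod ϖ^m` at `g₁`, `e ≡ 0 mod ϖ^m` at `g₂`;
* `vec e` : the family `e, (1 - e) β̃₁, …, (1 - e) β̃_p` indexed by `Unit ⊕ Fin p`; `comb_eq₁`,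
  `comb_eq₂` : an integral combination `x = c₀ e + ∑ cᵢ (1 - e) β̃ᵢ` is `≡ c₀ mod ϖ^m` at `g₁` and
  `≡ ∑ cᵢ β̃ᵢ mod ϖ^m` at `g₂`;
* `linearIndependent_vec`, `basis`, `repr_mem` : it is a basis of `F / E`, and the coordinates of
  an element of `O₁ ∩ O₂` are integral.
-/
import Fermat.Agent.Lib.Delta.Toric.NormDefs

set_option autoImplicit false
set_option linter.unusedSectionVars false
set_option linter.unusedVariables false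
set_option linter.style.haveILetI false

namespace Fermat.Agent.Delta

open Module Finset

variable {K k : Type*} [Field K] [Field k] {B : DlBase K k} {F κ₁ κ₂ : Type*} [Field F]
  [Algebra K F] [Field κ₁] [Algebra k κ₁] [Field κ₂] [Algebra k κ₂]

/-- a finite family of functions, not all zero, can be scaled by a power of `ϖ` to an integral
family with a unit member -/
theorem DlPlace.exists_scale {κ : Type*} [Field κ] [Algebra k κ] (g : DlPlace B F κ)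
    {ι : Type*} [Fintype ι] (f : ι → F) (hf : ∃ j, f j ≠ 0) :
    ∃ n : ℤ, (∀ j, g.pi ^ n * f j ∈ g.O) ∧
      ∃ j, ∃ h : g.pi ^ n * f j ∈ g.O, g.res ⟨g.pi ^ n * f j, h⟩ ≠ 0 := by
  classical
  have hn : ∀ j : ι, ∃ n : ℤ, f j ≠ 0 → ∃ h : g.pi ^ n * f j ∈ g.O,
      g.res ⟨g.pi ^ n * f j, h⟩ ≠ 0 := by
    intro j
    by_cases hj : f j = 0
    · exact ⟨0, fun h => absurd hj h⟩
    · obtain ⟨n, h, hres⟩ := g.normalize (f j) hj
      exact ⟨n, fun _ => ⟨h, hres⟩⟩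
  choose n hn using hn
  set S : Finset ι := univ.filter (fun j => f j ≠ 0) with hS
  have hSne : S.Nonempty := by
    obtain ⟨j, hj⟩ := hf
    exact ⟨j, by simp [hS, hj]⟩
  obtain ⟨j₀, hj₀S, hmax⟩ := S.exists_max_image n hSne
  have hj₀ : f j₀ ≠ 0 := by simpa [hS] using hj₀S
  refine ⟨n j₀, fun j => ?_, j₀, hn j₀ hj₀⟩
  by_cases hj : f j = 0
  · rw [hj, mul_zero]; exact g.O.zero_mem
  · have hjS : j ∈ S := by simp [hS, hj]
    obtain ⟨h, -⟩ := hn j hj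
    have hle : n j ≤ n j₀ := hmax j hjS
    obtain ⟨d, hd⟩ : ∃ d : ℕ, n j₀ = n j + d := ⟨(n j₀ - n j).toNat, by omega⟩
    rw [hd, zpow_add₀ g.pi_ne_zero, zpow_natCast, mul_comm (g.pi ^ n j), mul_assoc]
    exact g.O.mul_mem (g.pi_pow_mem d) h

namespace DliFerocious

variable {p : ℕ} {g₁ : DlPlace B F κ₁} {g₂ : DlPlace B F κ₂} {E : IntermediateField K F}
  {κE : Type*} [Field κE] [Algebra k κE] (D : DliFerocious p g₁ g₂ E κE)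

include D in
/-- an approximate idempotent -/
theorem idem {m : ℕ} (hm : 1 ≤ m) :
    ∃ e : F, (∃ y ∈ g₁.O, e = 1 + g₁.pi ^ m * y) ∧ (∃ y ∈ g₂.O, e = g₂.pi ^ m * y) := by
  obtain ⟨x₁, hx₁, hf₁⟩ := g₁.oneMod_of_res_eq_one D.f₀_mem₁ D.f₀_res₁
  obtain ⟨x₂, hx₂, hf₂⟩ := g₂.exists_eq_pi_mul D.f₀_mem₂ D.f₀_res₂
  rw [pow_one] at hf₁
  refine ⟨1 - (1 - D.f₀ ^ m) ^ m, ?_, ?_⟩
  · -- at `g₁`
    have h1 : g₁.OneMod 1 (D.f₀ ^ m) := (show g₁.OneMod 1 D.f₀ from ⟨x₁, hx₁, by rw [pow_one, hf₁]⟩).pow g₁ m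
    obtain ⟨x, hx, hfx⟩ := h1
    rw [pow_one] at hfx
    refine ⟨-(-x) ^ m, g₁.O.neg_mem (g₁.O.pow_mem (g₁.O.neg_mem hx) m), ?_⟩
    rw [hfx]
    have : (1 - (1 + g₁.pi * x)) ^ m = g₁.pi ^ m * (-x) ^ m := by
      rw [← mul_pow]; congr 1; ring
    rw [this]; ring
  · -- at `g₂`
    have h2 : g₂.OneMod m (1 - D.f₀ ^ m) := by
      refine ⟨-x₂ ^ m, g₂.O.neg_mem (g₂.O.pow_mem hx₂ m), ?_⟩
      rw [hf₂, mul_pow]; ring
    obtain ⟨y, hy, hyy⟩ := h2.pow g₂ m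
    refine ⟨-y, g₂.O.neg_mem hy, ?_⟩
    rw [hyy]; ring

/-- the adapted family `e, (1 - e) β̃ᵢ` -/
def vec (e : F) : Unit ⊕ Fin p → F := Sum.elim (fun _ => e) (fun i => (1 - e) * D.β i)

@[simp] theorem vec_inl (e : F) (u : Unit) : D.vec e (Sum.inl u) = e := rfl

@[simp] theorem vec_inr (e : F) (i : Fin p) : D.vec e (Sum.inr i) = (1 - e) * D.β i := rfl

/-- the combination with coefficients `c` -/
theorem sum_vec (e : F) (c : Unit ⊕ Fin p → ↥E) :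
    ∑ j, ((c j : ↥E) : F) * D.vec e j =
      ((c (Sum.inl ()) : ↥E) : F) * e + ∑ i, ((c (Sum.inr i) : ↥E) : F) * ((1 - e) * D.β i) := by
  rw [Fintype.sum_sum_type]
  simp

theorem sum_β_mem₁ {c : Fin p → ↥E} (hc : ∀ i, c i ∈ D.gE.O) :
    ∑ i, ((c i : ↥E) : F) * D.β i ∈ g₁.O :=
  g₁.O.sum_mem (fun i _ => g₁.O.mul_mem (D.coe_mem₁ (hc i)) (D.β_mem₁ i))

theorem sum_β_mem₂ {c : Fin p → ↥E} (hc : ∀ i, c i ∈ D.gE.O) :
    ∑ i, ((c i : ↥E) : F) * D.β i ∈ g₂.O :=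
  g₂.O.sum_mem (fun i _ => g₂.O.mul_mem (D.coe_mem₂ (hc i)) (D.β_mem₂ i))

/-- an integral combination is `≡ c₀ mod ϖ^m` at `g₁` -/
theorem comb_eq₁ {m : ℕ} {e y₁ : F} (hy₁ : y₁ ∈ g₁.O) (he₁ : e = 1 + g₁.pi ^ m * y₁)
    {c : Unit ⊕ Fin p → ↥E} (hc : ∀ j, c j ∈ D.gE.O) :
    ∃ y ∈ g₁.O, ∑ j, ((c j : ↥E) : F) * D.vec e j =
      ((c (Sum.inl ()) : ↥E) : F) + g₁.pi ^ m * y := by
  refine ⟨((c (Sum.inl ()) : ↥E) : F) * y₁ - y₁ * ∑ i, ((c (Sum.inr i) : ↥E) : F) * D.β i,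
    g₁.O.sub_mem (g₁.O.mul_mem (D.coe_mem₁ (hc _)) hy₁)
      (g₁.O.mul_mem hy₁ (D.sum_β_mem₁ (fun i => hc _))), ?_⟩
  rw [D.sum_vec]
  have : ∑ i, ((c (Sum.inr i) : ↥E) : F) * ((1 - e) * D.β i) =
      (1 - e) * ∑ i, ((c (Sum.inr i) : ↥E) : F) * D.β i := by
    rw [mul_sum]; exact sum_congr rfl (fun i _ => by ring)
  rw [this, he₁]
  ring

/-- an integral combination is `≡ ∑ cᵢ β̃ᵢ mod ϖ^m` at `g₂` -/
theorem comb_eq₂ {m : ℕ} {e y₂ : F} (hy₂ : y₂ ∈ g₂.O) (he₂ : e = g₂.pi ^ m * y₂)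
    {c : Unit ⊕ Fin p → ↥E} (hc : ∀ j, c j ∈ D.gE.O) :
    ∃ y ∈ g₂.O, ∑ j, ((c j : ↥E) : F) * D.vec e j =
      ∑ i, ((c (Sum.inr i) : ↥E) : F) * D.β i + g₂.pi ^ m * y := by
  refine ⟨((c (Sum.inl ()) : ↥E) : F) * y₂ - y₂ * ∑ i, ((c (Sum.inr i) : ↥E) : F) * D.β i,
    g₂.O.sub_mem (g₂.O.mul_mem (D.coe_mem₂ (hc _)) hy₂)
      (g₂.O.mul_mem hy₂ (D.sum_β_mem₂ (fun i => hc _))), ?_⟩
  rw [D.sum_vec]
  have : ∑ i, ((c (Sum.inr i) : ↥E) : F) * ((1 - e) * D.β i) =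
      (1 - e) * ∑ i, ((c (Sum.inr i) : ↥E) : F) * D.β i := by
    rw [mul_sum]; exact sum_congr rfl (fun i _ => by ring)
  rw [this, he₂]
  ring

/-- **the key lemma**: an integral combination which is divisible by `ϖ` at both places has all
coefficients divisible by `ϖ` -/
theorem comb_div {m : ℕ} (hm : 1 ≤ m) {e y₁ y₂ : F} (hy₁ : y₁ ∈ g₁.O)
    (he₁ : e = 1 + g₁.pi ^ m * y₁) (hy₂ : y₂ ∈ g₂.O) (he₂ : e = g₂.pi ^ m * y₂)
    {c : Unit ⊕ Fin p → ↥E} (hc : ∀ j, c j ∈ D.gE.O) {x : F} (hx₁ : x ∈ g₁.O) (hx₂ : x ∈ g₂.O)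
    (h : ∑ j, ((c j : ↥E) : F) * D.vec e j = g₁.pi * x) :
    ∀ j, ∃ r' ∈ D.gE.O, c j = D.gE.pi * r' := by
  obtain ⟨z₁, hz₁, h₁⟩ := D.comb_eq₁ hy₁ he₁ hc
  obtain ⟨z₂, hz₂, h₂⟩ := D.comb_eq₂ hy₂ he₂ hc
  have hpm : ∀ g : F, g ^ m = g * g ^ (m - 1) := fun g => by
    rw [← pow_succ', Nat.sub_add_cancel hm]
  have h0 : ∃ r' ∈ D.gE.O, c (Sum.inl ()) = D.gE.pi * r' := by
    have h3 : ((c (Sum.inl ()) : ↥E) : F) = g₁.pi ^ 1 * (x - g₁.pi ^ (m - 1) * z₁) := by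
      have := h₁
      rw [h, hpm] at this
      rw [pow_one]
      linear_combination -this
    obtain ⟨r', hr', hcr⟩ := D.div_pow₁ (g₁.O.sub_mem hx₁ (g₁.O.mul_mem (g₁.pi_pow_mem _) hz₁)) h3
    exact ⟨r', hr', by rw [hcr, pow_one]⟩
  have h1 := D.ind₂ (fun i => c (Sum.inr i)) (fun i => hc _)
    ⟨x - g₂.pi ^ (m - 1) * z₂, g₂.O.sub_mem hx₂ (g₂.O.mul_mem (g₂.pi_pow_mem _) hz₂), by
      have := h₂
      have hpi : g₂.pi = g₁.pi := rfl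
      rw [h, hpm, hpi] at this
      rw [hpi]
      linear_combination -this⟩
  intro j
  rcases j with u | i
  · exact h0
  · exact h1 i

end DliFerocious

end Fermat.Agent.Delta
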