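/-
DELTA / I1 (helper9), part 8: **the adapted basis of `F / E` is a basis, with integral coordinates**.

For a datum `D : DliFerocious p g₁ g₂ E κE`, `m ≥ 1` and an approximate idempotent `J` modulo `ϖ^m`:
* `DliIdem`, `exists_idem` : the bundled approximate idempotent;
* `no_scale` : a combination of the adapted family with integral coefficients, one of them a unit,
  is not divisible by `ϖ` at both places;
* `linearIndependent_vec`, `basis`, `repr_mem` : the adapted family is a basis of `F / E`, and the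
  coordinates of an element of `O₁ ∩ O₂` are integral.
-/
import Fermat.Agent.Lib.Delta.Toric.NormBasis

set_option autoImplicit false
set_option linter.unusedSectionVars false
set_option linter.unusedVariables false
set_option linter.style.haveILetI false

namespace Fermat.Agent.Delta

open Module Finset

variable {K k : Type*} [Field K] [Field k] {B : DlBase K k} {F κ₁ κ₂ : Type*} [Field F]
  [Algebra K F] [Field κ₁] [Algebra k κ₁] [Field κ₂] [Algebra k κ₂]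

/-- an approximate idempotent modulo `ϖ^m`: `e ≡ 1` at `g₁`, `e ≡ 0` at `g₂` -/
structure DliIdem (g₁ : DlPlace B F κ₁) (g₂ : DlPlace B F κ₂) (m : ℕ) where
  /-- the element -/
  e : F
  /-- the witness at `g₁` -/
  y₁ : F
  /-- the witness at `g₂` -/
  y₂ : F
  hy₁ : y₁ ∈ g₁.O
  hy₂ : y₂ ∈ g₂.O
  he₁ : e = 1 + g₁.pi ^ m * y₁
  he₂ : e = g₂.pi ^ m * y₂

namespace DliIdem

variable {g₁ : DlPlace B F κ₁} {g₂ : DlPlace B F κ₂} {m : ℕ} (J : DliIdem g₁ g₂ m)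

theorem mem₁ : J.e ∈ g₁.O := by
  rw [J.he₁]
  exact g₁.O.add_mem g₁.O.one_mem (g₁.O.mul_mem (g₁.pi_pow_mem m) J.hy₁)

theorem mem₂ : J.e ∈ g₂.O := by
  rw [J.he₂]
  exact g₂.O.mul_mem (g₂.pi_pow_mem m) J.hy₂

theorem one_sub_mem₁ : 1 - J.e ∈ g₁.O := g₁.O.sub_mem g₁.O.one_mem J.mem₁

theorem one_sub_mem₂ : 1 - J.e ∈ g₂.O := g₂.O.sub_mem g₂.O.one_mem J.mem₂

end DliIdem

namespace DliFerocious

variable {p : ℕ} {g₁ : DlPlace B F κ₁} {g₂ : DlPlace B F κ₂} {E : IntermediateField K F}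
  {κE : Type*} [Field κE] [Algebra k κE] (D : DliFerocious p g₁ g₂ E κE)

include D in
theorem exists_idem {m : ℕ} (hm : 1 ≤ m) : Nonempty (DliIdem g₁ g₂ m) := by
  obtain ⟨e, ⟨y₁, hy₁, he₁⟩, ⟨y₂, hy₂, he₂⟩⟩ := D.idem hm
  exact ⟨⟨e, y₁, y₂, hy₁, hy₂, he₁, he₂⟩⟩

variable {m : ℕ} (J : DliIdem g₁ g₂ m)

theorem vec_mem₁ (j : Unit ⊕ Fin p) : D.vec J.e j ∈ g₁.O := by
  rcases j with u | i
  · exact J.mem₁
  · exact g₁.O.mul_mem J.one_sub_mem₁ (D.β_mem₁ i)

theorem vec_mem₂ (j : Unit ⊕ Fin p) : D.vec J.e j ∈ g₂.O := by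
  rcases j with u | i
  · exact J.mem₂
  · exact g₂.O.mul_mem J.one_sub_mem₂ (D.β_mem₂ i)

/-- a combination with integral coefficients, one of them a unit, is not divisible by `ϖ` at both
places -/
theorem no_scale (hm : 1 ≤ m) {c : Unit ⊕ Fin p → ↥E} (hc : ∀ j, c j ∈ D.gE.O)
    (hres : ∃ j, D.gE.res ⟨c j, hc j⟩ ≠ 0) {x : F} (hx₁ : x ∈ g₁.O) (hx₂ : x ∈ g₂.O)
    (h : ∑ j, ((c j : ↥E) : F) * D.vec J.e j = g₁.pi * x) : False := by
  obtain ⟨j, hj⟩ := hres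
  obtain ⟨r', hr', hcr⟩ := D.comb_div hm J.hy₁ J.he₁ J.hy₂ J.he₂ hc hx₁ hx₂ h j
  apply hj
  rw [D.gE.res_congr _ hcr, D.gE.res_mul' D.gE.pi_mem hr', D.gE.res_pi, zero_mul]

/-- scaling a family of coefficients -/
theorem scale_sum (n : ℤ) (c : Unit ⊕ Fin p → ↥E) (e : F) :
    ∑ j, (((D.gE.pi ^ n * c j : ↥E)) : F) * D.vec e j =
      g₁.pi ^ n * ∑ j, ((c j : ↥E) : F) * D.vec e j := by
  rw [mul_sum]
  refine sum_congr rfl (fun j _ => ?_)
  have : (((D.gE.pi ^ n * c j : ↥E)) : F) = g₁.pi ^ n * ((c j : ↥E) : F) := by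
    rw [← D.coe_pi]
    push_cast
    rfl
  rw [this, mul_assoc]

/-- **the adapted family is linearly independent** -/
theorem linearIndependent_vec (hm : 1 ≤ m) : LinearIndependent ↥E (D.vec J.e) := by
  rw [Fintype.linearIndependent_iff]
  intro c hsum
  by_contra hne
  push Not at hne
  obtain ⟨j₀, hj₀⟩ := hne
  obtain ⟨n, hn, j, hj, hjres⟩ := D.gE.exists_scale c ⟨j₀, hj₀⟩
  refine D.no_scale J hm (c := fun j => D.gE.pi ^ n * c j) hn ⟨j, hjres⟩ (x := 0)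
    g₁.O.zero_mem g₂.O.zero_mem ?_
  rw [D.scale_sum, mul_zero]
  have : ∑ j, ((c j : ↥E) : F) * D.vec J.e j = 0 := hsum
  rw [this, mul_zero]

/-- **the adapted basis** -/
noncomputable def basis (hm : 1 ≤ m) : Basis (Unit ⊕ Fin p) ↥E F :=
  basisOfLinearIndependentOfCardEqFinrank (D.linearIndependent_vec J hm) (by
    rw [D.deg, Fintype.card_sum, Fintype.card_unit, Fintype.card_fin, add_comm])

@[simp] theorem basis_apply (hm : 1 ≤ m) (j : Unit ⊕ Fin p) : D.basis J hm j = D.vec J.e j := by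
  unfold basis
  rw [coe_basisOfLinearIndependentOfCardEqFinrank]

/-- expansion in the adapted basis -/
theorem sum_repr (hm : 1 ≤ m) (x : F) :
    ∑ j, (((D.basis J hm).repr x j : ↥E) : F) * D.vec J.e j = x := by
  conv_rhs => rw [← (D.basis J hm).sum_repr x]
  refine sum_congr rfl (fun j _ => ?_)
  rw [D.basis_apply]
  rfl

/-- **the coordinates of an element of `O₁ ∩ O₂` are integral** -/
theorem repr_mem (hm : 1 ≤ m) {x : F} (hx₁ : x ∈ g₁.O) (hx₂ : x ∈ g₂.O) (j : Unit ⊕ Fin p) :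
    (D.basis J hm).repr x j ∈ D.gE.O := by
  set c : Unit ⊕ Fin p → ↥E := fun j => (D.basis J hm).repr x j with hc
  have hsum : ∑ j, ((c j : ↥E) : F) * D.vec J.e j = x := D.sum_repr J hm x
  by_cases h0 : ∀ j, c j = 0
  · show c j ∈ D.gE.O
    rw [h0 j]; exact D.gE.O.zero_mem
  push Not at h0
  obtain ⟨n, hn, j', hj', hjres⟩ := D.gE.exists_scale c h0
  rcases le_or_gt n 0 with hn0 | hn0
  · obtain ⟨d, hd⟩ : ∃ d : ℕ, n = -(d : ℤ) := ⟨(-n).toNat, by omega⟩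
    have h1 : c j = D.gE.pi ^ d * (D.gE.pi ^ n * c j) := by
      rw [← mul_assoc, hd, ← zpow_natCast, ← zpow_add₀ D.gE.pi_ne_zero, add_neg_cancel, zpow_zero,
        one_mul]
    show c j ∈ D.gE.O
    rw [h1]
    exact D.gE.O.mul_mem (D.gE.pi_pow_mem d) (hn j)
  · exfalso
    obtain ⟨d, hd⟩ : ∃ d : ℕ, n = (d : ℤ) + 1 := ⟨(n - 1).toNat, by omega⟩
    refine D.no_scale J hm (c := fun j => D.gE.pi ^ n * c j) hn ⟨j', hjres⟩ (x := g₁.pi ^ d * x)
      (g₁.O.mul_mem (g₁.pi_pow_mem d) hx₁) (g₂.O.mul_mem (g₂.pi_pow_mem d) hx₂) ?_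
    rw [D.scale_sum, hsum, hd, zpow_add₀ g₁.pi_ne_zero, zpow_natCast, zpow_one]
    ring

end DliFerocious

end Fermat.Agent.Delta
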